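import Mathlib

/-!
# Basic definitions for Kummer's approach to Fermat's Last Theorem for a regular prime

* `KummerLemma p K` : every unit of `𝓞 K` congruent to a rational integer modulo `p` is a
  `p`-th power of a unit.
* `exists_int_dvd_pow_sub` : in the ring of integers of the `p`-th cyclotomic field every `p`-th
  power is congruent to a rational integer modulo `p`.
-/

set_option autoImplicit false

namespace Fermat.Agent.FLTReg

open NumberField

/-- Kummer's lemma, as a property of a natural number `p` and a number field `K`: every unit of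
`𝓞 K` that is congruent to a rational integer modulo `p` is a `p`-th power of a unit. -/
def KummerLemma (p : ℕ) (K : Type) [Field K] [NumberField K] : Prop :=
  ∀ (u : (𝓞 K)ˣ) (n : ℤ), (p : 𝓞 K) ∣ (u : 𝓞 K) - (n : 𝓞 K) → ∃ v : (𝓞 K)ˣ, u = v ^ p

section

variable {p : ℕ} [hp : Fact p.Prime] {K : Type*} [Field K] [NumberField K]
  [IsCyclotomicExtension {p} ℚ K]

/-- In the ring of integers of the `p`-th cyclotomic field, every `p`-th power is congruent to a
rational integer modulo `p`. -/
theorem exists_int_dvd_pow_sub (x : 𝓞 K) : ∃ n : ℤ, (p : 𝓞 K) ∣ x ^ p - (n : 𝓞 K) := by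
  have hζ := IsCyclotomicExtension.zeta_spec p ℚ K
  have hadj : Algebra.adjoin ℤ {hζ.toInteger} = ⊤ := by
    have h1 := hζ.integralPowerBasis.adjoin_gen_eq_top
    rwa [hζ.integralPowerBasis_gen] at h1
  have hx : x ∈ Algebra.adjoin ℤ {hζ.toInteger} := by rw [hadj]; trivial
  induction hx using Algebra.adjoin_induction with
  | mem y hy =>
    rw [Set.mem_singleton_iff] at hy
    subst hy
    exact ⟨1, by rw [hζ.toInteger_isPrimitiveRoot.pow_eq_one]; simp⟩
  | algebraMap r => exact ⟨r ^ p, by simp⟩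
  | add y w _ _ hy hw =>
    obtain ⟨n, hn⟩ := hy
    obtain ⟨k, hk⟩ := hw
    obtain ⟨r, hr⟩ := exists_add_pow_prime_eq hp.out y w
    refine ⟨n + k, ?_⟩
    have h1 : (y + w) ^ p - ((n + k : ℤ) : 𝓞 K) =
        (y ^ p - n) + (w ^ p - k) + p * (y * w * r) := by rw [hr]; push_cast; ring
    rw [h1]
    exact dvd_add (dvd_add hn hk) (dvd_mul_right _ _)
  | mul y w _ _ hy hw =>
    obtain ⟨n, hn⟩ := hy
    obtain ⟨k, hk⟩ := hw
    refine ⟨n * k, ?_⟩
    have h1 : (y * w) ^ p - ((n * k : ℤ) : 𝓞 K) = (y ^ p - n) * w ^ p + n * (w ^ p - k) := by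
      push_cast; ring
    rw [h1]
    exact dvd_add (Dvd.dvd.mul_right hn _) (Dvd.dvd.mul_left hk _)

end

end Fermat.Agent.FLTReg
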