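import Mathlib

/-!
# Kummer's descent for the second case of Fermat's Last Theorem (abstract form)

Let `R` be a principal ideal domain, `p` an odd prime, `z : R` a primitive `p`-th root of unity
such that `z - 1` is prime with residue ring of cardinality `p`, `p ∣ (z - 1) ^ (p - 1)`, every
`p`-th power is congruent to a rational integer modulo `p`, and such that Kummer's lemma holds
(a unit congruent to a rational integer modulo `p` is a `p`-th power).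
Then `ω ^ p + θ ^ p = η * (z - 1) ^ (m * p) * ξ ^ p` has no solution with `m ≥ 1`, `η` a unit,
`ω`, `θ` coprime and `z - 1 ∤ ξ`.
-/

set_option autoImplicit false

namespace Fermat.Agent.FLTReg.Descent

open Finset Polynomial

section

variable {R : Type*} [CommRing R] [IsDomain R]
variable {p : ℕ} {z : R}

/-- If `z - 1` divides `ω ^ p + θ ^ p` then it divides every factor `ω + μ * θ`. -/
lemma dvd_add_root_mul (hp : p.Prime) (hodd : Odd p) (hz : IsPrimitiveRoot z p)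
    (hπ : Prime (z - 1)) {ω θ : R} (hdvd : (z - 1) ∣ ω ^ p + θ ^ p) {μ : R}
    (hμ : μ ∈ nthRootsFinset p (1 : R)) : (z - 1) ∣ ω + μ * θ := by
  rw [hz.pow_add_pow_eq_prod_add_mul ω θ hodd] at hdvd
  obtain ⟨μ₁, hμ₁, h1⟩ := (Prime.dvd_finsetProd_iff hπ _).1 hdvd
  have h2 : (z - 1) ∣ μ - μ₁ := hz.sub_one_dvd_sub hp hμ hμ₁
  have h3 : ω + μ * θ = (ω + μ₁ * θ) + (μ - μ₁) * θ := by ring
  rw [h3]
  exact dvd_add h1 (Dvd.dvd.mul_right h2 θ)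

lemma quot_sub {π ω θ μ ν qμ qν : R} {u : Rˣ} (hπ0 : π ≠ 0) (hμ : ω + μ * θ = π * qμ)
    (hν : ω + ν * θ = π * qν) (hu : π * u = μ - ν) : qμ - qν = u * θ := by
  apply mul_left_cancel₀ hπ0
  calc π * (qμ - qν) = (ω + μ * θ) - (ω + ν * θ) := by rw [hμ, hν]; ring
    _ = (μ - ν) * θ := by ring
    _ = π * (u * θ) := by rw [← hu]; ring

lemma quot_cross {π ω θ μ ν qμ qν : R} {u : Rˣ} (hπ0 : π ≠ 0) (hμ : ω + μ * θ = π * qμ)
    (hν : ω + ν * θ = π * qν) (hu : π * u = μ - ν) : ν * qμ - μ * qν = -(u * ω) := by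
  apply mul_left_cancel₀ hπ0
  calc π * (ν * qμ - μ * qν) = ν * (ω + μ * θ) - μ * (ω + ν * θ) := by rw [hμ, hν]; ring
    _ = -((μ - ν) * ω) := by ring
    _ = π * (-(u * ω)) := by rw [← hu]; ring

lemma quot_coprime {π ω θ μ ν qμ qν : R} {u : Rˣ} (hπ0 : π ≠ 0) (hcop : IsCoprime ω θ)
    (hμ : ω + μ * θ = π * qμ) (hν : ω + ν * θ = π * qν) (hu : π * u = μ - ν) :
    IsCoprime qμ qν := by
  obtain ⟨a, b, hab⟩ := hcop
  have h1 := quot_sub hπ0 hμ hν hu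
  have h2 := quot_cross hπ0 hμ hν hu
  refine ⟨-a * ↑u⁻¹ * ν + b * ↑u⁻¹, a * ↑u⁻¹ * μ - b * ↑u⁻¹, ?_⟩
  have hu1 : (↑u⁻¹ : R) * u = 1 := by simp
  calc (-a * ↑u⁻¹ * ν + b * ↑u⁻¹) * qμ + (a * ↑u⁻¹ * μ - b * ↑u⁻¹) * qν
      = -a * ↑u⁻¹ * (ν * qμ - μ * qν) + b * ↑u⁻¹ * (qμ - qν) := by ring
    _ = a * ω * (↑u⁻¹ * u) + b * θ * (↑u⁻¹ * u) := by rw [h1, h2]; ring
    _ = 1 := by rw [hu1, mul_one, mul_one, hab]

/-- Pigeonhole: some factor `ω + μ * θ` is divisible by `(z - 1) ^ 2`. -/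
lemma exists_sq_dvd (hp : p.Prime) (hodd : Odd p) (hz : IsPrimitiveRoot z p)
    (hπ : Prime (z - 1)) (hcard : Nat.card (R ⧸ Ideal.span {z - 1}) = p) {ω θ : R}
    (hθ : ¬ (z - 1) ∣ θ) (hdvd : (z - 1) ∣ ω ^ p + θ ^ p) :
    ∃ μ ∈ nthRootsFinset p (1 : R), (z - 1) ^ 2 ∣ ω + μ * θ := by
  classical
  have hall : ∀ μ : R, ∃ q : R, μ ∈ nthRootsFinset p (1 : R) → ω + μ * θ = (z - 1) * q := by
    intro μ
    by_cases hμ : μ ∈ nthRootsFinset p (1 : R)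
    · obtain ⟨q, hq⟩ := dvd_add_root_mul hp hodd hz hπ hdvd hμ
      exact ⟨q, fun _ => hq⟩
    · exact ⟨0, fun h => absurd h hμ⟩
  choose q hq using hall
  have hfin : Finite (R ⧸ Ideal.span {z - 1}) :=
    Nat.finite_of_card_ne_zero (by rw [hcard]; exact hp.ne_zero)
  let _ := Fintype.ofFinite (R ⧸ Ideal.span {z - 1})
  have hinj : Set.InjOn (fun μ => Ideal.Quotient.mk (Ideal.span {z - 1}) (q μ))
      (nthRootsFinset p (1 : R) : Set R) := by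
    intro μ hμ ν hν heq
    by_contra hne
    obtain ⟨u, hu⟩ := hz.nthRootsFinset_pairwise_associated_sub_one_sub_of_prime hp hμ hν hne
    have h1 := quot_sub hπ.ne_zero (hq μ hμ) (hq ν hν) hu
    have h2 : (z - 1) ∣ q μ - q ν := by
      rw [← Ideal.mem_span_singleton, ← Ideal.Quotient.eq]; exact heq
    rw [h1] at h2
    exact hθ ((IsUnit.dvd_mul_left u.isUnit).1 h2)
  have hc : ((nthRootsFinset p (1 : R)).image
      (fun μ => Ideal.Quotient.mk (Ideal.span {z - 1}) (q μ))).card =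
      Fintype.card (R ⧸ Ideal.span {z - 1}) := by
    rw [Finset.card_image_of_injOn hinj, hz.card_nthRootsFinset, ← Nat.card_eq_fintype_card, hcard]
  have h0 : (0 : R ⧸ Ideal.span {z - 1}) ∈ (nthRootsFinset p (1 : R)).image
      (fun μ => Ideal.Quotient.mk (Ideal.span {z - 1}) (q μ)) := by
    rw [Finset.eq_univ_of_card _ hc]; exact Finset.mem_univ _
  obtain ⟨μ, hμ, h⟩ := Finset.mem_image.1 h0
  refine ⟨μ, hμ, ?_⟩
  rw [Ideal.Quotient.eq_zero_iff_mem, Ideal.mem_span_singleton] at h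
  rw [hq μ hμ, pow_two]
  exact mul_dvd_mul_left (z - 1) h

/-- The descent step in the normalized situation `(z - 1) ^ 2 ∣ ω + θ`. -/
theorem step_normalized [IsPrincipalIdealRing R] (hp : p.Prime) (hp3 : 3 ≤ p)
    (hz : IsPrimitiveRoot z p) (hπ : Prime (z - 1)) (hpd : (p : R) ∣ (z - 1) ^ (p - 1))
    (hpow : ∀ x : R, ∃ n : ℤ, (p : R) ∣ x ^ p - (n : R))
    (hK : ∀ (u : Rˣ) (n : ℤ), (p : R) ∣ (u : R) - (n : R) → ∃ v : Rˣ, u = v ^ p)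
    {m : ℕ} (hm : 1 ≤ m) {ω θ ξ : R} {η : Rˣ} (hcop : IsCoprime ω θ) (hξ : ¬ (z - 1) ∣ ξ)
    (h : ω ^ p + θ ^ p = η * (z - 1) ^ (m * p) * ξ ^ p) (h2 : (z - 1) ^ 2 ∣ ω + θ) :
    2 ≤ m ∧ ∃ (ω' θ' ξ' : R) (η' : Rˣ), IsCoprime ω' θ' ∧ ¬ (z - 1) ∣ ξ' ∧
      ω' ^ p + θ' ^ p = η' * (z - 1) ^ ((m - 1) * p) * ξ' ^ p := by
  classical
  have hπ0 : z - 1 ≠ 0 := hπ.ne_zero
  have hodd : Odd p := hp.odd_of_ne_two (by omega)
  have hppos : 0 < p := hp.pos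
  have hmem : ∀ {x : R}, x ∈ nthRootsFinset p (1 : R) ↔ x ^ p = 1 :=
    fun {x} => mem_nthRootsFinset hppos 1
  have hπdvd_sum : (z - 1) ∣ ω ^ p + θ ^ p := by
    rw [h]
    exact Dvd.dvd.mul_right (Dvd.dvd.mul_left (dvd_pow_self (z - 1) (by positivity)) _) _
  have hθ : ¬ (z - 1) ∣ θ := by
    intro hθ
    have h3 : (z - 1) ∣ ω ^ p := (dvd_add_left (dvd_pow hθ hppos.ne')).1 hπdvd_sum
    exact hπ.not_isUnit (hcop.isUnit_of_dvd' (hπ.dvd_of_dvd_pow h3) hθ)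
  have hall : ∀ μ : R, ∃ q : R, μ ∈ nthRootsFinset p (1 : R) → ω + μ * θ = (z - 1) * q := by
    intro μ
    by_cases hμ : μ ∈ nthRootsFinset p (1 : R)
    · obtain ⟨q, hq⟩ := dvd_add_root_mul hp hodd hz hπ hπdvd_sum hμ
      exact ⟨q, fun _ => hq⟩
    · exact ⟨0, fun h => absurd h hμ⟩
  choose q hq using hall
  have hassoc : ∀ {μ ν : R}, μ ∈ nthRootsFinset p (1 : R) → ν ∈ nthRootsFinset p (1 : R) →
      μ ≠ ν → ∃ u : Rˣ, (z - 1) * u = μ - ν := by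
    intro μ ν hμ hν hne
    exact hz.nthRootsFinset_pairwise_associated_sub_one_sub_of_prime hp hμ hν hne
  have h1S : (1 : R) ∈ nthRootsFinset p (1 : R) := hmem.2 (one_pow p)
  have hzS : z ∈ nthRootsFinset p (1 : R) := hmem.2 hz.pow_eq_one
  have hz'S : z ^ (p - 1) ∈ nthRootsFinset p (1 : R) :=
    hmem.2 (by rw [← pow_mul, mul_comm, pow_mul, hz.pow_eq_one, one_pow])
  have hz1 : z ≠ 1 := hz.ne_one hp.one_lt
  have hz'1 : z ^ (p - 1) ≠ 1 := hz.pow_ne_one_of_pos_of_lt (by omega) (by omega)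
  have hzz : z * z ^ (p - 1) = 1 := by
    rw [← pow_succ', Nat.sub_add_cancel hp.one_le]; exact hz.pow_eq_one
  have hz'z : z ^ (p - 1) ≠ z := by
    intro heq
    have h3 : z ^ 2 = 1 := by rw [pow_two]; nth_rewrite 2 [← heq]; exact hzz
    exact hz.pow_ne_one_of_pos_of_lt (by omega) (by omega) h3
  -- the product formula
  have hprod : (z - 1) ^ p * ∏ μ ∈ nthRootsFinset p (1 : R), q μ =
      η * (z - 1) ^ (m * p) * ξ ^ p := by
    rw [← h, hz.pow_add_pow_eq_prod_add_mul ω θ hodd]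
    have h3 : ∏ μ ∈ nthRootsFinset p (1 : R), (ω + μ * θ) =
        ∏ μ ∈ nthRootsFinset p (1 : R), ((z - 1) * q μ) :=
      Finset.prod_congr rfl (fun μ hμ => hq μ hμ)
    rw [h3, Finset.prod_mul_distrib, Finset.prod_const, hz.card_nthRootsFinset]
  have hmp : m * p = p + (m - 1) * p := by
    obtain ⟨k, rfl⟩ : ∃ k, m = k + 1 := ⟨m - 1, by omega⟩
    simp only [Nat.add_sub_cancel]; ring
  have hprod' : ∏ μ ∈ nthRootsFinset p (1 : R), q μ = η * (z - 1) ^ ((m - 1) * p) * ξ ^ p := by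
    apply mul_left_cancel₀ (pow_ne_zero p hπ0)
    rw [hprod, hmp, pow_add]; ring
  have hq1 : (z - 1) ∣ q 1 := by
    have h3 := hq 1 h1S
    rw [one_mul] at h3
    rw [h3, pow_two] at h2
    exact (mul_dvd_mul_iff_left hπ0).1 h2
  have hqμ : ∀ μ ∈ nthRootsFinset p (1 : R), μ ≠ 1 → ¬ (z - 1) ∣ q μ := by
    intro μ hμ hμ1 hdvd
    obtain ⟨u, hu⟩ := hassoc hμ h1S hμ1
    have h3 := quot_sub hπ0 (hq μ hμ) (hq 1 h1S) hu
    have h4 : (z - 1) ∣ (u : R) * θ := h3 ▸ dvd_sub hdvd hq1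
    exact hθ ((IsUnit.dvd_mul_left u.isUnit).1 h4)
  have hm2 : 2 ≤ m := by
    by_contra hlt
    have hm1 : m = 1 := by omega
    subst hm1
    simp only [Nat.sub_self, zero_mul, pow_zero, mul_one] at hprod'
    have h3 : (z - 1) ∣ (η : R) * ξ ^ p := by
      rw [← hprod']; exact Dvd.dvd.trans hq1 (Finset.dvd_prod_of_mem q h1S)
    exact hξ (hπ.dvd_of_dvd_pow ((IsUnit.dvd_mul_left η.isUnit).1 h3))
  have hsplit : q 1 * ∏ μ ∈ (nthRootsFinset p (1 : R)).erase 1, q μ =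
      η * (z - 1) ^ ((m - 1) * p) * ξ ^ p := by
    rw [← hprod', Finset.mul_prod_erase _ q h1S]
  have hrest_ndvd : ¬ (z - 1) ∣ ∏ μ ∈ (nthRootsFinset p (1 : R)).erase 1, q μ := by
    intro hd
    obtain ⟨μ, hμ, hd'⟩ := (Prime.dvd_finsetProd_iff hπ _).1 hd
    exact hqμ μ (Finset.mem_of_mem_erase hμ) (Finset.ne_of_mem_erase hμ) hd'
  have hpowdvd : (z - 1) ^ ((m - 1) * p) ∣ q 1 := by
    apply hπ.pow_dvd_of_dvd_mul_right _ hrest_ndvd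
    rw [hsplit]
    exact Dvd.dvd.mul_right (Dvd.intro_left _ rfl) _
  obtain ⟨y, hy⟩ := hpowdvd
  have hyrest : y * ∏ μ ∈ (nthRootsFinset p (1 : R)).erase 1, q μ = η * ξ ^ p := by
    apply mul_left_cancel₀ (pow_ne_zero ((m - 1) * p) hπ0)
    rw [← mul_assoc, ← hy, hsplit]; ring
  have hy_ndvd : ¬ (z - 1) ∣ y := by
    intro hd
    have h3 : (z - 1) ∣ (η : R) * ξ ^ p := hyrest ▸ Dvd.dvd.mul_right hd _
    exact hξ (hπ.dvd_of_dvd_pow ((IsUnit.dvd_mul_left η.isUnit).1 h3))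
  have hcopq : ∀ {μ ν : R}, μ ∈ nthRootsFinset p (1 : R) → ν ∈ nthRootsFinset p (1 : R) →
      μ ≠ ν → IsCoprime (q μ) (q ν) := by
    intro μ ν hμ hν hne
    obtain ⟨u, hu⟩ := hassoc hμ hν hne
    exact quot_coprime hπ0 hcop (hq μ hμ) (hq ν hν) hu
  have hcopy : ∀ {ν : R}, ν ∈ nthRootsFinset p (1 : R) → ν ≠ 1 → IsCoprime y (q ν) := by
    intro ν hν hne
    exact (hcopq h1S hν (Ne.symm hne)).of_isCoprime_of_dvd_left
      ⟨(z - 1) ^ ((m - 1) * p), by rw [hy]; ring⟩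
  have hηinv : (↑η⁻¹ : R) * (η * ξ ^ p) = ξ ^ p := by
    rw [← mul_assoc]; simp
  have hpth : ∀ {ν : R}, ν ∈ nthRootsFinset p (1 : R) → ν ≠ 1 →
      ∃ (d : R) (ε : Rˣ), q ν = ε * d ^ p := by
    intro ν hν hne
    have hνe : ν ∈ (nthRootsFinset p (1 : R)).erase 1 := Finset.mem_erase.2 ⟨hne, hν⟩
    have hsp : q ν * ∏ μ ∈ ((nthRootsFinset p (1 : R)).erase 1).erase ν, q μ =
        ∏ μ ∈ (nthRootsFinset p (1 : R)).erase 1, q μ := Finset.mul_prod_erase _ q hνe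
    have hc : IsCoprime (q ν)
        (↑η⁻¹ * (y * ∏ μ ∈ ((nthRootsFinset p (1 : R)).erase 1).erase ν, q μ)) := by
      rw [isCoprime_mul_unit_left_right (η⁻¹).isUnit]
      refine IsCoprime.mul_right (hcopy hν hne).symm (IsCoprime.prod_right fun μ hμ => ?_)
      have hμ1 := Finset.mem_of_mem_erase hμ
      exact hcopq hν (Finset.mem_of_mem_erase hμ1) (Finset.ne_of_mem_erase hμ).symm
    have he : q ν * (↑η⁻¹ * (y * ∏ μ ∈ ((nthRootsFinset p (1 : R)).erase 1).erase ν, q μ)) =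
        ξ ^ p := by
      calc q ν * (↑η⁻¹ * (y * ∏ μ ∈ ((nthRootsFinset p (1 : R)).erase 1).erase ν, q μ))
          = ↑η⁻¹ * (y * (q ν * ∏ μ ∈ ((nthRootsFinset p (1 : R)).erase 1).erase ν, q μ)) := by
            ring
        _ = ξ ^ p := by rw [hsp, hyrest, hηinv]
    obtain ⟨d, ε, hd⟩ := exists_associated_pow_of_mul_eq_pow' hc he
    exact ⟨d, ε, by rw [← hd]; ring⟩
  have hpth0 : ∃ (d : R) (ε : Rˣ), y = ε * d ^ p := by
    have hc : IsCoprime y (↑η⁻¹ * ∏ μ ∈ (nthRootsFinset p (1 : R)).erase 1, q μ) := by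
      rw [isCoprime_mul_unit_left_right (η⁻¹).isUnit]
      exact IsCoprime.prod_right fun μ hμ =>
        hcopy (Finset.mem_of_mem_erase hμ) (Finset.ne_of_mem_erase hμ)
    have he : y * (↑η⁻¹ * ∏ μ ∈ (nthRootsFinset p (1 : R)).erase 1, q μ) = ξ ^ p := by
      calc y * (↑η⁻¹ * ∏ μ ∈ (nthRootsFinset p (1 : R)).erase 1, q μ)
          = ↑η⁻¹ * (y * ∏ μ ∈ (nthRootsFinset p (1 : R)).erase 1, q μ) := by ring
        _ = ξ ^ p := by rw [hyrest, hηinv]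
    obtain ⟨d, ε, hd⟩ := exists_associated_pow_of_mul_eq_pow' hc he
    exact ⟨d, ε, by rw [← hd]; ring⟩
  obtain ⟨d₁, ε₁, hd₁⟩ := hpth hzS hz1
  obtain ⟨d₂, ε₂, hd₂⟩ := hpth hz'S hz'1
  obtain ⟨d₀, ε₀, hd₀⟩ := hpth0
  have hrel : z * q (z ^ (p - 1)) + q z = (1 + z) * q 1 := by
    apply mul_left_cancel₀ hπ0
    calc (z - 1) * (z * q (z ^ (p - 1)) + q z)
        = z * ((z - 1) * q (z ^ (p - 1))) + (z - 1) * q z := by ring
      _ = z * (ω + z ^ (p - 1) * θ) + (ω + z * θ) := by rw [hq _ hz'S, hq _ hzS]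
      _ = (1 + z) * (ω + 1 * θ) + (z * z ^ (p - 1) - 1) * θ := by ring
      _ = (1 + z) * ((z - 1) * q 1) := by rw [hzz, hq 1 h1S]; ring
      _ = (z - 1) * ((1 + z) * q 1) := by ring
  obtain ⟨zu, hzu⟩ : ∃ zu : Rˣ, (zu : R) = z := ⟨(hz.isUnit hppos.ne').unit, rfl⟩
  obtain ⟨wu, hwu⟩ : ∃ wu : Rˣ, (wu : R) = 1 + z := by
    have h3 := hz.geom_sum_isUnit hp.two_le (j := 2)
      ((Nat.coprime_primes Nat.prime_two hp).2 (by omega))
    simp only [Finset.sum_range_succ, Finset.range_zero, Finset.sum_empty, pow_zero, pow_one,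
      zero_add] at h3
    exact ⟨h3.unit, rfl⟩
  have key : d₁ ^ p + ((ε₁⁻¹ * zu * ε₂ : Rˣ) : R) * d₂ ^ p =
      ((ε₁⁻¹ * wu * ε₀ : Rˣ) : R) * (z - 1) ^ ((m - 1) * p) * d₀ ^ p := by
    have h3 : (ε₁ : R) * d₁ ^ p + z * (ε₂ * d₂ ^ p) =
        (1 + z) * ((z - 1) ^ ((m - 1) * p) * (ε₀ * d₀ ^ p)) := by
      rw [← hd₁, ← hd₂, ← hd₀, ← hy, add_comm]; exact hrel
    have h4 : (↑ε₁⁻¹ : R) * ε₁ = 1 := by simp
    calc d₁ ^ p + ((ε₁⁻¹ * zu * ε₂ : Rˣ) : R) * d₂ ^ p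
        = ↑ε₁⁻¹ * (ε₁ * d₁ ^ p + z * (ε₂ * d₂ ^ p)) + (1 - ↑ε₁⁻¹ * ε₁) * d₁ ^ p := by
          simp only [Units.val_mul, hzu]; ring
      _ = ↑ε₁⁻¹ * ((1 + z) * ((z - 1) ^ ((m - 1) * p) * (ε₀ * d₀ ^ p))) := by
          rw [h3, h4]; ring
      _ = ((ε₁⁻¹ * wu * ε₀ : Rˣ) : R) * (z - 1) ^ ((m - 1) * p) * d₀ ^ p := by
          simp only [Units.val_mul, hwu]; ring
  have hpπ : (p : R) ∣ (z - 1) ^ ((m - 1) * p) := by
    refine hpd.trans (pow_dvd_pow (z - 1) ?_)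
    have h3 : 1 ≤ m - 1 := by omega
    calc p - 1 ≤ 1 * p := by omega
      _ ≤ (m - 1) * p := Nat.mul_le_mul_right p h3
  have hπp : (z - 1) ∣ (p : R) := sub_one_dvd_natCast_of_pow_eq_one hz.pow_eq_one hz1
  obtain ⟨n₁, hn₁⟩ := hpow d₁
  obtain ⟨n₂, hn₂⟩ := hpow d₂
  have hd₂π : ¬ (z - 1) ∣ d₂ := by
    intro hd
    apply hqμ _ hz'S hz'1
    rw [hd₂]; exact Dvd.dvd.mul_left (dvd_pow hd hppos.ne') _
  have hn₂p : ¬ (p : ℤ) ∣ n₂ := by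
    rintro ⟨t, ht⟩
    apply hd₂π
    apply hπ.dvd_of_dvd_pow (n := p)
    have h3 : (p : R) ∣ d₂ ^ p := by
      have h4 : d₂ ^ p = (d₂ ^ p - (n₂ : R)) + (p : R) * (t : R) := by
        rw [ht]; push_cast; ring
      rw [h4]; exact dvd_add hn₂ (dvd_mul_right _ _)
    exact hπp.trans h3
  have hcopZ : IsCoprime (p : ℤ) n₂ :=
    (Nat.prime_iff_prime_int.1 hp).coprime_iff_not_dvd.2 hn₂p
  obtain ⟨t, s, hst⟩ := hcopZ
  have hKin : (p : R) ∣ ((ε₁⁻¹ * zu * ε₂ : Rˣ) : R) - ((-(s * n₁) : ℤ) : R) := by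
    have h5 : (p : R) ∣ d₁ ^ p + ((ε₁⁻¹ * zu * ε₂ : Rˣ) : R) * d₂ ^ p := by
      rw [key]; exact Dvd.dvd.mul_right (Dvd.dvd.mul_left hpπ _) _
    obtain ⟨c₁, hc₁⟩ := hn₁
    obtain ⟨c₂, hc₂⟩ := hn₂
    obtain ⟨c₅, hc₅⟩ := h5
    generalize ((ε₁⁻¹ * zu * ε₂ : Rˣ) : R) = U at hc₅ ⊢
    refine ⟨s * (c₅ - c₁ - U * c₂) + t * U, ?_⟩
    have hst' : (t : R) * p + s * n₂ = 1 := by exact_mod_cast congrArg (Int.cast : ℤ → R) hst
    have e1 : (n₁ : R) = d₁ ^ p - p * c₁ := by rw [← hc₁]; ring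
    have e2 : (n₂ : R) = d₂ ^ p - p * c₂ := by rw [← hc₂]; ring
    push_cast
    calc U - -((s : R) * n₁) = U * (t * p + s * n₂) + s * n₁ := by rw [hst']; ring
      _ = s * ((d₁ ^ p + U * d₂ ^ p) - p * c₁ - U * (p * c₂)) + t * p * U := by
          rw [e1, e2]; ring
      _ = (p : R) * (s * (c₅ - c₁ - U * c₂) + t * U) := by rw [hc₅]; ring
  obtain ⟨v, hv⟩ := hK _ _ hKin
  refine ⟨hm2, d₁, v * d₂, d₀, ε₁⁻¹ * wu * ε₀, ?_, ?_, ?_⟩
  · have h3 : IsCoprime (q z) (q (z ^ (p - 1))) := hcopq hzS hz'S (Ne.symm hz'z)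
    rw [hd₁, hd₂, isCoprime_mul_unit_left_left ε₁.isUnit,
      isCoprime_mul_unit_left_right ε₂.isUnit, IsCoprime.pow_iff hppos hppos] at h3
    exact (isCoprime_mul_unit_left_right v.isUnit _ _).2 h3
  · intro hd
    apply hy_ndvd
    rw [hd₀]; exact Dvd.dvd.mul_left (dvd_pow hd hppos.ne') _
  · rw [← key, hv, mul_pow]; push_cast; ring

/-- The descent step. -/
theorem step [IsPrincipalIdealRing R] (hp : p.Prime) (hp3 : 3 ≤ p)
    (hz : IsPrimitiveRoot z p) (hπ : Prime (z - 1))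
    (hcard : Nat.card (R ⧸ Ideal.span {z - 1}) = p) (hpd : (p : R) ∣ (z - 1) ^ (p - 1))
    (hpow : ∀ x : R, ∃ n : ℤ, (p : R) ∣ x ^ p - (n : R))
    (hK : ∀ (u : Rˣ) (n : ℤ), (p : R) ∣ (u : R) - (n : R) → ∃ v : Rˣ, u = v ^ p)
    {m : ℕ} (hm : 1 ≤ m) {ω θ ξ : R} {η : Rˣ} (hcop : IsCoprime ω θ) (hξ : ¬ (z - 1) ∣ ξ)
    (h : ω ^ p + θ ^ p = η * (z - 1) ^ (m * p) * ξ ^ p) :
    2 ≤ m ∧ ∃ (ω' θ' ξ' : R) (η' : Rˣ), IsCoprime ω' θ' ∧ ¬ (z - 1) ∣ ξ' ∧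
      ω' ^ p + θ' ^ p = η' * (z - 1) ^ ((m - 1) * p) * ξ' ^ p := by
  have hodd : Odd p := hp.odd_of_ne_two (by omega)
  have hppos : 0 < p := hp.pos
  have hπdvd_sum : (z - 1) ∣ ω ^ p + θ ^ p := by
    rw [h]
    exact Dvd.dvd.mul_right (Dvd.dvd.mul_left (dvd_pow_self (z - 1) (by positivity)) _) _
  have hθ : ¬ (z - 1) ∣ θ := by
    intro hθ
    have h3 : (z - 1) ∣ ω ^ p := (dvd_add_left (dvd_pow hθ hppos.ne')).1 hπdvd_sum
    exact hπ.not_isUnit (hcop.isUnit_of_dvd' (hπ.dvd_of_dvd_pow h3) hθ)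
  obtain ⟨μ₀, hμ₀, hsq⟩ := exists_sq_dvd hp hodd hz hπ hcard hθ hπdvd_sum
  have hμp : μ₀ ^ p = 1 := (mem_nthRootsFinset hppos 1).1 hμ₀
  have hμu : IsUnit μ₀ := IsUnit.of_pow_eq_one hμp hppos.ne'
  have h' : ω ^ p + (μ₀ * θ) ^ p = η * (z - 1) ^ (m * p) * ξ ^ p := by
    rw [mul_pow, hμp, one_mul]; exact h
  exact step_normalized hp hp3 hz hπ hpd hpow hK hm
    ((isCoprime_mul_unit_left_right hμu _ _).2 hcop) hξ h' hsq

/-- **Kummer's descent**: the generalized Fermat equation has no solution in the second case. -/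
theorem no_solution [IsPrincipalIdealRing R] (hp : p.Prime) (hp3 : 3 ≤ p)
    (hz : IsPrimitiveRoot z p) (hπ : Prime (z - 1))
    (hcard : Nat.card (R ⧸ Ideal.span {z - 1}) = p) (hpd : (p : R) ∣ (z - 1) ^ (p - 1))
    (hpow : ∀ x : R, ∃ n : ℤ, (p : R) ∣ x ^ p - (n : R))
    (hK : ∀ (u : Rˣ) (n : ℤ), (p : R) ∣ (u : R) - (n : R) → ∃ v : Rˣ, u = v ^ p) :
    ∀ (m : ℕ), 1 ≤ m → ∀ (ω θ ξ : R) (η : Rˣ), IsCoprime ω θ → ¬ (z - 1) ∣ ξ →
      ω ^ p + θ ^ p ≠ η * (z - 1) ^ (m * p) * ξ ^ p := by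
  intro m
  induction m with
  | zero => intro h; omega
  | succ k ih =>
    intro _ ω θ ξ η hcop hξ h
    obtain ⟨h2, ω', θ', ξ', η', hcop', hξ', h'⟩ :=
      step hp hp3 hz hπ hcard hpd hpow hK (m := k + 1) (by omega) hcop hξ h
    simp only [Nat.add_sub_cancel] at h'
    exact ih (by omega) ω' θ' ξ' η' hcop' hξ' h'

end

end Fermat.Agent.FLTReg.Descent
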