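import Mathlib
import Fermat.Agent.Lib.FLTReg.Defs
import Fermat.Agent.Lib.FLTReg.Descent

/-!
# The second case of Fermat's Last Theorem for a prime `p` such that `ℤ[ζ_p]` is a PID and
Kummer's lemma holds
-/

set_option autoImplicit false

namespace Fermat.Agent.FLTReg

open NumberField

/-- Second case of Fermat's Last Theorem (`p ∣ c`) for a prime `p ≥ 5` such that the ring of
integers of the `p`-th cyclotomic field is a PID and satisfies Kummer's lemma. -/
theorem caseII {p : ℕ} [hp : Fact p.Prime] (hp5 : 5 ≤ p) (K : Type) [Field K] [NumberField K]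
    [IsCyclotomicExtension {p} ℚ K] [IsPrincipalIdealRing (𝓞 K)] (hKL : KummerLemma p K)
    {a b c : ℤ} (hab : IsCoprime a b) (hpc : (p : ℤ) ∣ c) (hc : c ≠ 0) :
    a ^ p + b ^ p ≠ c ^ p := by
  intro h
  have hζ := IsCyclotomicExtension.zeta_spec p ℚ K
  have hp2 : p ≠ 2 := by omega
  have hz : IsPrimitiveRoot hζ.toInteger p := hζ.toInteger_isPrimitiveRoot
  have hπ : Prime (hζ.toInteger - 1) := hζ.zeta_sub_one_prime'
  have hcard : Nat.card (𝓞 K ⧸ Ideal.span {hζ.toInteger - 1}) = p := by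
    rw [hζ.card_quotient_toInteger_sub_one, hζ.norm_toInteger_sub_one_of_prime_ne_two' hp2]
    simp
  have hassoc := IsCyclotomicExtension.Rat.associated_zeta_sub_one_pow_prime p hζ
  have hpd : (p : 𝓞 K) ∣ (hζ.toInteger - 1) ^ (p - 1) := hassoc.symm.dvd
  obtain ⟨ε, hε⟩ := hassoc
  have hfin : FiniteMultiplicity (p : ℤ) c :=
    Int.finiteMultiplicity_iff.2 ⟨by simpa using hp.out.ne_one, hc⟩
  obtain ⟨c₀, hck, hc₀⟩ := hfin.exists_eq_pow_mul_and_not_dvd
  have hk : 1 ≤ multiplicity (p : ℤ) c := by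
    by_contra hlt
    have h0 : multiplicity (p : ℤ) c = 0 := by omega
    rw [h0, pow_zero, one_mul] at hck
    exact hc₀ (hck ▸ hpc)
  have hξ : ¬ (hζ.toInteger - 1) ∣ ((c₀ : ℤ) : 𝓞 K) := by
    rw [IsCyclotomicExtension.Rat.zeta_sub_one_dvd_intCast_iff' p hζ]; exact hc₀
  have hcop : IsCoprime ((a : ℤ) : 𝓞 K) ((b : ℤ) : 𝓞 K) := hab.intCast
  refine Descent.no_solution hp.out (by omega) hz hπ hcard hpd exists_int_dvd_pow_sub hKL
    ((p - 1) * multiplicity (p : ℤ) c) ?_ a b c₀ (ε ^ (multiplicity (p : ℤ) c * p)) hcop hξ ?_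
  · exact Nat.mul_pos (by omega) hk
  · have h' : ((a : ℤ) : 𝓞 K) ^ p + ((b : ℤ) : 𝓞 K) ^ p = ((c : ℤ) : 𝓞 K) ^ p := by
      exact_mod_cast congrArg (Int.cast : ℤ → 𝓞 K) h
    rw [h']
    nth_rewrite 1 [hck]
    push_cast
    rw [← hε]
    ring

end Fermat.Agent.FLTReg
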