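import Mathlib

/-!
# Second case of Fermat's Last Theorem for a prime `p` with a principal cyclotomic ring

Kummer's descent, in the presence of "Kummer's lemma" as a hypothesis.
The core is abstract: a principal ideal domain `R` with a primitive `p`-th root of unity `ζ`
such that `ζ - 1` is prime, `(ζ - 1) ^ (p - 1)` is associated to `p`, every element is congruent
to a rational integer modulo `ζ - 1`, and every unit congruent to a rational integer modulo `p`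
is a `p`-th power.
-/

set_option autoImplicit false
set_option linter.unusedSectionVars false

namespace Fermat.Agent.FLTReg.CaseIIDescent

open Finset

section Abstract

variable {R : Type*} [CommRing R] [IsDomain R]

/-- The hypotheses on the ring `R` used by the descent. -/
structure Hyp (p : ℕ) (ζ : R) : Prop where
  prime_p : p.Prime
  odd : p ≠ 2
  prim : IsPrimitiveRoot ζ p
  prime_lam : Prime (ζ - 1)
  assoc : Associated ((ζ - 1) ^ (p - 1)) (p : R)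
  residue : ∀ x : R, ∃ n : ℤ, ζ - 1 ∣ x - (n : R)
  kummer : ∀ (u : Rˣ) (n : ℤ), (p : R) ∣ (u : R) - (n : R) → ∃ v : Rˣ, u = v ^ p

variable {p : ℕ} {ζ : R}

namespace Hyp

lemma p_pos (h : Hyp p ζ) : 0 < p := h.prime_p.pos

lemma three_le (h : Hyp p ζ) : 3 ≤ p := by
  have h1 := h.prime_p.two_le
  have h2 := h.odd
  omega

lemma lam_ne_zero (h : Hyp p ζ) : ζ - 1 ≠ 0 := h.prime_lam.ne_zero

lemma lam_dvd_p (h : Hyp p ζ) : ζ - 1 ∣ (p : R) := by
  have h1 : ζ - 1 ∣ (ζ - 1) ^ (p - 1) := dvd_pow_self _ (by have := h.three_le; omega)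
  exact h1.trans h.assoc.dvd

lemma p_dvd_lam_pow (h : Hyp p ζ) : (p : R) ∣ (ζ - 1) ^ p :=
  h.assoc.symm.dvd.trans (pow_dvd_pow _ (Nat.sub_le p 1))

lemma int_prime (h : Hyp p ζ) : Prime (p : ℤ) := Nat.prime_iff_prime_int.1 h.prime_p

lemma lam_dvd_int_of_dvd (h : Hyp p ζ) {n : ℤ} (hn : (p : ℤ) ∣ n) : ζ - 1 ∣ (n : R) := by
  obtain ⟨k, rfl⟩ := hn
  push_cast
  exact dvd_mul_of_dvd_left h.lam_dvd_p _

lemma int_dvd_of_lam_dvd (h : Hyp p ζ) {n : ℤ} (hn : ζ - 1 ∣ (n : R)) : (p : ℤ) ∣ n := by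
  by_contra hpn
  obtain ⟨a, b, hab⟩ := (Prime.coprime_iff_not_dvd h.int_prime).2 hpn
  have h1 : ((a * p + b * n : ℤ) : R) = 1 := by rw [hab]; simp
  have h2 : ζ - 1 ∣ ((a * p + b * n : ℤ) : R) := by
    push_cast
    exact dvd_add (dvd_mul_of_dvd_right h.lam_dvd_p _) (dvd_mul_of_dvd_right hn _)
  rw [h1] at h2
  exact h.prime_lam.not_isUnit (isUnit_of_dvd_one h2)

/-- `p`-th powers are congruent to rational integers modulo `p`. -/
lemma exists_int_pow_sub (h : Hyp p ζ) (x : R) :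
    ∃ n : ℤ, (p : R) ∣ x ^ p - (n : R) ∧ (¬ ζ - 1 ∣ x → ¬ (p : ℤ) ∣ n) := by
  obtain ⟨m, y, hy⟩ := h.residue x
  have hx : x = (m : R) + (ζ - 1) * y := by rw [← hy]; ring
  refine ⟨m ^ p, ?_, ?_⟩
  · obtain ⟨r, hr⟩ := exists_add_pow_prime_eq h.prime_p (m : R) ((ζ - 1) * y)
    have e : x ^ p - ((m ^ p : ℤ) : R)
        = (ζ - 1) ^ p * y ^ p + p * ((m : R) * ((ζ - 1) * y) * r) := by
      rw [hx, hr, mul_pow]; push_cast; ring
    rw [e]
    exact dvd_add (dvd_mul_of_dvd_left h.p_dvd_lam_pow _) (dvd_mul_right _ _)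
  · intro hx' hpm
    have hpm' : (p : ℤ) ∣ m := h.int_prime.dvd_of_dvd_pow hpm
    apply hx'
    rw [hx]
    exact dvd_add (h.lam_dvd_int_of_dvd hpm') (dvd_mul_right _ _)

lemma zeta_pow_p (h : Hyp p ζ) : ζ ^ p = 1 := h.prim.pow_eq_one

lemma isUnit_zeta (h : Hyp p ζ) : IsUnit ζ := h.prim.isUnit h.prime_p.ne_zero

lemma lam_dvd_pow_sub_one (ζ : R) (k : ℕ) : ζ - 1 ∣ ζ ^ k - 1 := by
  simpa using sub_dvd_pow_sub_pow ζ 1 k

lemma mem_nthRootsFinset (h : Hyp p ζ) (k : ℕ) : ζ ^ k ∈ Polynomial.nthRootsFinset p (1 : R) := by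
  rw [Polynomial.mem_nthRootsFinset h.p_pos, ← pow_mul, mul_comm, pow_mul, h.zeta_pow_p, one_pow]

/-- `ζ ^ i - ζ ^ j` is associated to `ζ - 1` for distinct `i, j < p`. -/
lemma associated_sub (h : Hyp p ζ) {i j : ℕ} (hi : i < p) (hj : j < p) (hij : i ≠ j) :
    Associated (ζ - 1) (ζ ^ i - ζ ^ j) :=
  h.prim.nthRootsFinset_pairwise_associated_sub_one_sub_of_prime h.prime_p
    (Finset.mem_coe.2 (h.mem_nthRootsFinset i)) (Finset.mem_coe.2 (h.mem_nthRootsFinset j))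
    (fun H => hij (h.prim.pow_inj hi hj H))

lemma isUnit_one_add (h : Hyp p ζ) : IsUnit (1 + ζ) := by
  have h2 : Associated (ζ - 1) (ζ ^ 2 - ζ ^ 0) :=
    h.associated_sub (by have := h.three_le; omega) h.p_pos (by norm_num)
  obtain ⟨u, hu⟩ := h2
  have e : (ζ - 1) * (u : R) = (ζ - 1) * (1 + ζ) := by rw [hu]; ring
  have e' := mul_left_cancel₀ h.lam_ne_zero e
  rw [← e']
  exact u.isUnit

lemma pow_add_pow_eq_prod (h : Hyp p ζ) (x y : R) :
    x ^ p + y ^ p = ∏ i ∈ range p, (x + ζ ^ i * y) := by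
  have hodd : Odd p := h.prime_p.odd_of_ne_two h.odd
  have : NeZero p := ⟨h.prime_p.ne_zero⟩
  rw [h.prim.pow_add_pow_eq_prod_add_mul x y hodd]
  symm
  refine Finset.prod_nbij (fun i => ζ ^ i) ?_ ?_ ?_ ?_
  · intro i _
    exact h.mem_nthRootsFinset i
  · intro i hi j hj hij
    exact h.prim.pow_inj (mem_range.1 (Finset.mem_coe.1 hi)) (mem_range.1 (Finset.mem_coe.1 hj)) hij
  · intro η hη
    obtain ⟨i, hi, rfl⟩ := h.prim.eq_pow_of_pow_eq_one
      ((Polynomial.mem_nthRootsFinset h.p_pos 1).1 (Finset.mem_coe.1 hη))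
    exact ⟨i, Finset.mem_coe.2 (mem_range.2 hi), rfl⟩
  · intro i _
    rfl

/-- `ζ - 1` does not divide `y` in a solution. -/
lemma not_lam_dvd_right (h : Hyp p ζ) {x y : R} (hxy : IsCoprime x y) (h1 : ζ - 1 ∣ x + y) :
    ¬ ζ - 1 ∣ y := by
  intro hy
  have hx : ζ - 1 ∣ x := by simpa using dvd_sub h1 hy
  obtain ⟨a, b, hab⟩ := hxy
  have h2 : ζ - 1 ∣ a * x + b * y := dvd_add (dvd_mul_of_dvd_right hx a) (dvd_mul_of_dvd_right hy b)
  rw [hab] at h2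
  exact h.prime_lam.not_isUnit (isUnit_of_dvd_one h2)

/-- After twisting `y` by a power of `ζ`, `(ζ - 1) ^ 2` divides `x + y`. -/
lemma exists_sq_dvd (h : Hyp p ζ) {x y w : R} {ε : Rˣ} (hxy : IsCoprime x y) (hw : ζ - 1 ∣ w)
    (H : x ^ p + y ^ p = ε * w ^ p) : ∃ i : ℕ, (ζ - 1) ^ 2 ∣ x + ζ ^ i * y := by
  have h1 : ζ - 1 ∣ x + y := by
    obtain ⟨r, hr⟩ := exists_add_pow_prime_eq h.prime_p x y
    have h2 : ζ - 1 ∣ (x + y) ^ p := by
      rw [hr, H]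
      exact dvd_add (dvd_mul_of_dvd_right (dvd_pow hw h.prime_p.ne_zero) _)
        (dvd_mul_of_dvd_left (dvd_mul_of_dvd_left (dvd_mul_of_dvd_left h.lam_dvd_p _) _) _)
    exact h.prime_lam.dvd_of_dvd_pow h2
  have hy : ¬ ζ - 1 ∣ y := h.not_lam_dvd_right hxy h1
  obtain ⟨t, ht⟩ := h1
  obtain ⟨n, hn⟩ := h.residue t
  obtain ⟨m, hm⟩ := h.residue y
  have hpm : ¬ (p : ℤ) ∣ m := fun hpm => hy (by
    have h3 := dvd_add hm (h.lam_dvd_int_of_dvd hpm)
    simpa using h3)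
  obtain ⟨i, hi⟩ : ∃ i : ℕ, (p : ℤ) ∣ n + i * m := by
    obtain ⟨a, b, hab⟩ := (Prime.coprime_iff_not_dvd h.int_prime).2 hpm
    have hp0 : (p : ℤ) ≠ 0 := by exact_mod_cast h.prime_p.ne_zero
    refine ⟨((-n * b) % p).toNat, ?_⟩
    rw [Int.toNat_of_nonneg (Int.emod_nonneg _ hp0)]
    have h2 : (p : ℤ) ∣ (-n * b) % p - (-n * b) := (Int.mod_modEq (-n * b) p).symm.dvd
    have h3 : n + (-n * b) % p * m = ((-n * b) % p - (-n * b)) * m + n * (a * p) := by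
      linear_combination (-n) * hab
    rw [h3]
    exact dvd_add (dvd_mul_of_dvd_left h2 _) (dvd_mul_of_dvd_right (dvd_mul_left _ _) _)
  refine ⟨i, ?_⟩
  have hGeom : ζ ^ i - 1 = (ζ - 1) * ∑ k ∈ range i, ζ ^ k := (mul_geom_sum ζ i).symm
  have hGi : ζ - 1 ∣ (∑ k ∈ range i, ζ ^ k) - (i : R) := by
    have e : (∑ k ∈ range i, ζ ^ k) - (i : R) = ∑ k ∈ range i, (ζ ^ k - 1) := by
      rw [Finset.sum_sub_distrib]; simp
    rw [e]
    exact Finset.dvd_sum fun k _ => lam_dvd_pow_sub_one ζ k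
  have key : x + ζ ^ i * y = (ζ - 1) * (t + (∑ k ∈ range i, ζ ^ k) * y) := by
    have e : x + ζ ^ i * y = (x + y) + (ζ ^ i - 1) * y := by ring
    rw [e, ht, hGeom]; ring
  rw [key, pow_two]
  refine mul_dvd_mul_left _ ?_
  have hnim : ζ - 1 ∣ ((n + i * m : ℤ) : R) := h.lam_dvd_int_of_dvd hi
  have e : t + (∑ k ∈ range i, ζ ^ k) * y
      = (t - n) + ((∑ k ∈ range i, ζ ^ k) - i) * y + i * (y - m) + ((n + i * m : ℤ) : R) := by
    push_cast; ring
  rw [e]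
  exact dvd_add (dvd_add (dvd_add hn (dvd_mul_of_dvd_left hGi _)) (dvd_mul_of_dvd_right hm _)) hnim

/-- The descent step: from a solution with `(ζ - 1) ^ 2 ∣ x + y` we get a solution whose `w` has
smaller `(ζ - 1)`-adic valuation. -/
lemma descent_step [IsPrincipalIdealRing R] (h : Hyp p ζ) {x y w : R} {ε : Rˣ}
    (hxy : IsCoprime x y) (hw0 : w ≠ 0) (hw : ζ - 1 ∣ w) (H : x ^ p + y ^ p = ε * w ^ p)
    (hsq : (ζ - 1) ^ 2 ∣ x + y) :
    ∃ (x' y' w' : R) (ε' : Rˣ), IsCoprime x' y' ∧ w' ≠ 0 ∧ ζ - 1 ∣ w' ∧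
      x' ^ p + y' ^ p = ε' * w' ^ p ∧ ∀ n : ℕ, (ζ - 1) ^ n ∣ w' → (ζ - 1) ^ (n + 1) ∣ w := by
  have hp3 := h.three_le
  have hppos := h.p_pos
  have hlam1 : ζ - 1 ∣ x + y := (dvd_pow_self (ζ - 1) two_ne_zero).trans hsq
  have hy : ¬ ζ - 1 ∣ y := h.not_lam_dvd_right hxy hlam1
  -- all the factors are divisible by `ζ - 1`
  have hdiv : ∀ j : ℕ, ζ - 1 ∣ x + ζ ^ j * y := by
    intro j
    have e : x + ζ ^ j * y = (x + y) + (ζ ^ j - 1) * y := by ring
    rw [e]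
    exact dvd_add hlam1 (dvd_mul_of_dvd_left (lam_dvd_pow_sub_one ζ j) _)
  choose u hu using hdiv
  have hu0 : ζ - 1 ∣ u 0 := by
    have h0 := hu 0
    rw [pow_zero, one_mul] at h0
    obtain ⟨c, hc⟩ := hsq
    rw [h0, pow_two, mul_assoc] at hc
    exact ⟨c, mul_left_cancel₀ h.lam_ne_zero hc⟩
  -- differences of the `u j`
  have hyc : ∀ i j, i < p → j < p → i ≠ j → ∃ c : Rˣ,
      (c : R) * y = u i - u j ∧ (c : R) * x = ζ ^ i * u j - ζ ^ j * u i := by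
    intro i j hi hj hij
    obtain ⟨c, hc⟩ := h.associated_sub hi hj hij
    refine ⟨c, ?_, ?_⟩
    · apply mul_left_cancel₀ h.lam_ne_zero
      rw [mul_sub, ← hu i, ← hu j, ← mul_assoc, hc]; ring
    · apply mul_left_cancel₀ h.lam_ne_zero
      have e1 : (ζ - 1) * (ζ ^ i * u j) = ζ ^ i * (x + ζ ^ j * y) := by rw [hu j]; ring
      have e2 : (ζ - 1) * (ζ ^ j * u i) = ζ ^ j * (x + ζ ^ i * y) := by rw [hu i]; ring
      rw [mul_sub, e1, e2, ← mul_assoc, hc]; ring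
  have hunot : ∀ j, 0 < j → j < p → ¬ ζ - 1 ∣ u j := by
    intro j hj0 hjp hdvd
    obtain ⟨c, hc, -⟩ := hyc j 0 hjp hppos hj0.ne'
    have h1 : ζ - 1 ∣ (c : R) * y := hc ▸ dvd_sub hdvd hu0
    exact hy ((h.prime_lam.dvd_or_dvd h1).resolve_left
      (fun hcu => h.prime_lam.not_isUnit (isUnit_of_dvd_unit hcu c.isUnit)))
  have hcop : ∀ i j, i < p → j < p → i ≠ j → IsCoprime (u i) (u j) := by
    intro i j hi hj hij
    obtain ⟨c, hyc', hxc'⟩ := hyc i j hi hj hij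
    obtain ⟨a, b, hab⟩ := hxy
    refine ⟨(↑c⁻¹ : R) * (b - a * ζ ^ j), (↑c⁻¹ : R) * (a * ζ ^ i - b), ?_⟩
    have e : (↑c⁻¹ : R) * (b - a * ζ ^ j) * u i + (↑c⁻¹ : R) * (a * ζ ^ i - b) * u j
        = (↑c⁻¹ : R) * (a * (ζ ^ i * u j - ζ ^ j * u i) + b * (u i - u j)) := by ring
    rw [e, ← hxc', ← hyc']
    have e' : (↑c⁻¹ : R) * (a * (↑c * x) + b * (↑c * y)) = (↑c⁻¹ * ↑c : R) * (a * x + b * y) := by
      ring
    rw [e', Units.inv_mul, one_mul, hab]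
  -- the product of the `u j`
  obtain ⟨w1, rfl⟩ := hw
  have hprod : ∏ j ∈ range p, u j = ε * w1 ^ p := by
    have e : (ζ - 1) ^ p * ∏ j ∈ range p, u j = (ζ - 1) ^ p * (ε * w1 ^ p) := by
      calc (ζ - 1) ^ p * ∏ j ∈ range p, u j = ∏ j ∈ range p, ((ζ - 1) * u j) := by
            rw [Finset.prod_mul_distrib, Finset.prod_const, Finset.card_range]
        _ = ∏ j ∈ range p, (x + ζ ^ j * y) := Finset.prod_congr rfl (fun j _ => (hu j).symm)
        _ = x ^ p + y ^ p := (h.pow_add_pow_eq_prod x y).symm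
        _ = ε * ((ζ - 1) * w1) ^ p := H
        _ = (ζ - 1) ^ p * (ε * w1 ^ p) := by rw [mul_pow]; ring
    exact mul_left_cancel₀ (pow_ne_zero p h.lam_ne_zero) e
  have hw1 : w1 ≠ 0 := by
    rintro rfl
    simp at hw0
  -- each `u i` is a unit times a `p`-th power
  have hpow : ∀ i, i < p → ∃ (d : R) (e : Rˣ), u i = e * d ^ p := by
    intro i hi
    have hi' : i ∈ range p := mem_range.2 hi
    have e1 : u i * ∏ j ∈ (range p).erase i, u j = ε * w1 ^ p := by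
      rw [Finset.mul_prod_erase _ _ hi', hprod]
    have hc : IsCoprime (u i) (∏ j ∈ (range p).erase i, u j) :=
      IsCoprime.prod_right fun j hj =>
        hcop i j hi (mem_range.1 (Finset.mem_of_mem_erase hj)) (Finset.ne_of_mem_erase hj).symm
    have ha : Associated (w1 ^ p) (u i * ∏ j ∈ (range p).erase i, u j) := by
      rw [e1]
      exact ⟨ε, by rw [mul_comm]⟩
    obtain ⟨d, c, hd⟩ := exists_associated_pow_of_associated_pow_mul hc ha
    exact ⟨d, c, by rw [← hd, mul_comm]⟩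
  obtain ⟨d0, e0, h0⟩ := hpow 0 hppos
  obtain ⟨d1, e1, h1⟩ := hpow 1 (by omega)
  obtain ⟨d2, e2, h2⟩ := hpow (p - 1) (by omega)
  -- the key identity
  have hid : ζ * u (p - 1) + u 1 = (1 + ζ) * u 0 := by
    apply mul_left_cancel₀ h.lam_ne_zero
    have hz : ζ * ζ ^ (p - 1) = 1 := by
      rw [← pow_succ', Nat.sub_add_cancel hppos, h.zeta_pow_p]
    have e1' : (ζ - 1) * (ζ * u (p - 1)) = ζ * (x + ζ ^ (p - 1) * y) := by rw [hu (p - 1)]; ring
    have e2' : (ζ - 1) * u 1 = x + ζ ^ 1 * y := (hu 1).symm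
    have e3' : (ζ - 1) * ((1 + ζ) * u 0) = (1 + ζ) * (x + ζ ^ 0 * y) := by rw [hu 0]; ring
    rw [mul_add, e1', e2', e3']
    linear_combination y * hz
  obtain ⟨ζu, hζu⟩ := h.isUnit_zeta
  obtain ⟨su, hsu⟩ := h.isUnit_one_add
  have hd0 : ζ - 1 ∣ d0 := by
    have h3 : ζ - 1 ∣ (e0 : R) * d0 ^ p := h0 ▸ hu0
    have h4 := (h.prime_lam.dvd_or_dvd h3).resolve_left
      (fun hcu => h.prime_lam.not_isUnit (isUnit_of_dvd_unit hcu e0.isUnit))
    exact h.prime_lam.dvd_of_dvd_pow h4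
  have hd0ne : d0 ≠ 0 := by
    rintro rfl
    have h3 : u 0 = 0 := by rw [h0, zero_pow h.prime_p.ne_zero, mul_zero]
    have hz : ∏ j ∈ range p, u j = 0 := Finset.prod_eq_zero (mem_range.2 hppos) h3
    rw [hprod] at hz
    exact (mul_ne_zero ε.ne_zero (pow_ne_zero p hw1)) hz
  have hd2 : ¬ ζ - 1 ∣ d2 := by
    intro hd
    exact hunot (p - 1) (by omega) (by omega)
      (h2 ▸ dvd_mul_of_dvd_right (dvd_pow hd h.prime_p.ne_zero) _)
  -- the new equation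
  have hnew : d1 ^ p + ((ζu * e2 * e1⁻¹ : Rˣ) : R) * d2 ^ p
      = ((su * e0 * e1⁻¹ : Rˣ) : R) * d0 ^ p := by
    have hid' := hid
    rw [h0, h1, h2, ← hsu, ← hζu] at hid'
    have hinv : (e1 : R) * (↑e1⁻¹ : R) = 1 := Units.mul_inv e1
    have e : (e1 : R) * (d1 ^ p + ((ζu * e2 * e1⁻¹ : Rˣ) : R) * d2 ^ p)
        = e1 * (((su * e0 * e1⁻¹ : Rˣ) : R) * d0 ^ p) := by
      simp only [Units.val_mul]
      linear_combination hid' + ((ζu : R) * e2 * d2 ^ p - su * e0 * d0 ^ p) * hinv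
    exact mul_left_cancel₀ e1.ne_zero e
  -- Kummer's lemma applies to `η = ζu * e2 * e1⁻¹`
  have hpd0 : (p : R) ∣ d0 ^ p := h.p_dvd_lam_pow.trans (pow_dvd_pow_of_dvd hd0 p)
  obtain ⟨n1, hn1, -⟩ := h.exists_int_pow_sub d1
  obtain ⟨n2, hn2, hn2'⟩ := h.exists_int_pow_sub d2
  have hpn2 : ¬ (p : ℤ) ∣ n2 := hn2' hd2
  obtain ⟨a, k, hak⟩ := (Prime.coprime_iff_not_dvd h.int_prime).2 hpn2
  have hη_int : (p : R) ∣ ((ζu * e2 * e1⁻¹ : Rˣ) : R) - ((-(k * n1) : ℤ) : R) := by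
    have hcast : ((a * p + k * n2 : ℤ) : R) = 1 := by rw [hak]; simp
    push_cast at hcast ⊢
    have e : ((ζu : R) * e2 * (↑e1⁻¹ : R)) - -((k : R) * n1)
        = (p : R) * ((ζu : R) * e2 * (↑e1⁻¹ : R) * a)
          + k * (((su : R) * e0 * (↑e1⁻¹ : R)) * d0 ^ p - (d1 ^ p - n1)
              - ((ζu : R) * e2 * (↑e1⁻¹ : R)) * (d2 ^ p - n2)) := by
      have hnew' := hnew
      simp only [Units.val_mul] at hnew'
      linear_combination (-((ζu : R) * e2 * (↑e1⁻¹ : R))) * hcast + (k : R) * hnew'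
    rw [e]
    exact dvd_add (dvd_mul_right _ _) (dvd_mul_of_dvd_right
      (dvd_sub (dvd_sub (dvd_mul_of_dvd_right hpd0 _) hn1) (dvd_mul_of_dvd_right hn2 _)) _)
  obtain ⟨v, hv⟩ := h.kummer _ _ hη_int
  refine ⟨d1, v * d2, d0, su * e0 * e1⁻¹, ?_, hd0ne, hd0, ?_, ?_⟩
  · have hc := hcop 1 (p - 1) (by omega) (by omega) (by omega)
    rw [h1, h2] at hc
    have hc' : IsCoprime (d1 ^ p) (d2 ^ p) :=
      (isCoprime_mul_unit_left_left e1.isUnit _ _).1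
        ((isCoprime_mul_unit_left_right e2.isUnit _ _).1 hc)
    have hc'' : IsCoprime d1 d2 := (IsCoprime.pow_iff hppos hppos).1 hc'
    exact (isCoprime_mul_unit_left_right v.isUnit _ _).2 hc''
  · rw [mul_pow, ← Units.val_pow_eq_pow_val, ← hv]
    exact hnew
  · intro n hn
    have h3 : ((ζ - 1) ^ n) ^ p ∣ u 0 := by
      rw [h0]
      exact dvd_mul_of_dvd_right (pow_dvd_pow_of_dvd hn p) _
    have h4 : ((ζ - 1) ^ n) ^ p ∣ ∏ j ∈ range p, u j :=
      h3.trans (Finset.dvd_prod_of_mem u (mem_range.2 hppos))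
    rw [hprod] at h4
    have h5 : ((ζ - 1) ^ n) ^ p ∣ w1 ^ p := (Units.dvd_mul_left.1 (by rwa [mul_comm] at h4))
    have h6 : (ζ - 1) ^ n ∣ w1 := (UniqueFactorizationMonoid.pow_dvd_pow_iff_dvd h.prime_p.ne_zero).1 h5
    rw [pow_succ']
    exact mul_dvd_mul_left _ h6

theorem no_solution_aux [IsPrincipalIdealRing R] (h : Hyp p ζ) :
    ∀ n : ℕ, ∀ (x y w : R) (ε : Rˣ), IsCoprime x y → w ≠ 0 → ζ - 1 ∣ w →
      ¬ (ζ - 1) ^ n ∣ w → x ^ p + y ^ p ≠ ε * w ^ p := by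
  intro n
  induction n with
  | zero =>
    intro x y w ε _ _ _ hn
    simp at hn
  | succ n ih =>
    intro x y w ε hxy hw0 hw hn H
    obtain ⟨i, hi⟩ := h.exists_sq_dvd hxy hw H
    have hxy' : IsCoprime x (ζ ^ i * y) :=
      (isCoprime_mul_unit_left_right (h.isUnit_zeta.pow i) x y).2 hxy
    have H' : x ^ p + (ζ ^ i * y) ^ p = ε * w ^ p := by
      rw [mul_pow, ← pow_mul, mul_comm i p, pow_mul, h.zeta_pow_p, one_pow, one_mul, H]
    obtain ⟨x', y', w', ε', hxy'', hw0', hw', H'', hmul⟩ := h.descent_step hxy' hw0 hw H' hi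
    exact ih x' y' w' ε' hxy'' hw0' hw' (fun hn' => hn (hmul n hn')) H''

/-- The generalized Fermat equation `x ^ p + y ^ p = ε * w ^ p` has no solution with `x`, `y`
coprime, `w ≠ 0` and `ζ - 1 ∣ w`. -/
theorem no_solution [IsPrincipalIdealRing R] (h : Hyp p ζ) (x y w : R) (ε : Rˣ)
    (hxy : IsCoprime x y) (hw0 : w ≠ 0) (hw : ζ - 1 ∣ w) : x ^ p + y ^ p ≠ ε * w ^ p := by
  obtain ⟨n, hn⟩ : ∃ n, ¬ (ζ - 1) ^ n ∣ w := by
    have hfin : FiniteMultiplicity (ζ - 1) w :=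
      FiniteMultiplicity.of_not_isUnit h.prime_lam.not_isUnit hw0
    obtain ⟨n, hn⟩ := hfin
    exact ⟨n + 1, hn⟩
  exact h.no_solution_aux n x y w ε hxy hw0 hw hn

/-- Second case of Fermat's Last Theorem over `ℤ`, from the abstract hypotheses. -/
theorem caseII_int [IsPrincipalIdealRing R] [CharZero R] (h : Hyp p ζ) {a b c : ℤ}
    (hab : IsCoprime a b) (hpc : (p : ℤ) ∣ c) (hc : c ≠ 0) : a ^ p + b ^ p ≠ c ^ p := by
  intro H
  refine h.no_solution (a : R) (b : R) (c : R) 1 hab.intCast (Int.cast_ne_zero.2 hc)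
    (h.lam_dvd_int_of_dvd hpc) ?_
  rw [Units.val_one, one_mul]
  exact_mod_cast congrArg (Int.cast : ℤ → R) H

end Hyp

end Abstract

section Concrete

open NumberField

variable {p : ℕ} [hp : Fact p.Prime] (K : Type) [Field K] [NumberField K]
  [IsCyclotomicExtension {p} ℚ K]

/-- Every element of the ring of integers of the `p`-th cyclotomic field is congruent to a
rational integer modulo `ζ - 1`. -/
theorem residue_ringOfIntegers (hp2 : p ≠ 2) (x : 𝓞 K) :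
    ∃ n : ℤ, (IsCyclotomicExtension.zeta_spec p ℚ K).toInteger - 1 ∣ x - (n : 𝓞 K) := by
  have hζ := IsCyclotomicExtension.zeta_spec p ℚ K
  have hcard : Nat.card (𝓞 K ⧸ Ideal.span {hζ.toInteger - 1}) = p := by
    rw [hζ.card_quotient_toInteger_sub_one, hζ.norm_toInteger_sub_one_of_prime_ne_two' hp2]
    simp
  have hprime : (Ideal.span {hζ.toInteger - 1}).IsPrime :=
    (Ideal.span_singleton_prime hζ.zeta_sub_one_prime'.ne_zero).2 hζ.zeta_sub_one_prime'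
  have hone : (1 : 𝓞 K ⧸ Ideal.span {hζ.toInteger - 1}) ≠ 0 := one_ne_zero
  have hmem : Ideal.Quotient.mk (Ideal.span {hζ.toInteger - 1}) x
      ∈ AddSubgroup.zmultiples (1 : 𝓞 K ⧸ Ideal.span {hζ.toInteger - 1}) :=
    mem_zmultiples_of_prime_card hcard hone
  obtain ⟨n, hn⟩ := AddSubgroup.mem_zmultiples_iff.1 hmem
  refine ⟨n, ?_⟩
  rw [← Ideal.mem_span_singleton, ← Ideal.Quotient.eq_zero_iff_mem, map_sub, ← hn]
  simp

/-- The abstract hypotheses hold in the ring of integers of the `p`-th cyclotomic field, given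
Kummer's lemma. -/
theorem hyp_ringOfIntegers (hp2 : p ≠ 2)
    (hKL : ∀ (u : (𝓞 K)ˣ) (n : ℤ), (p : 𝓞 K) ∣ (u : 𝓞 K) - (n : 𝓞 K) → ∃ v : (𝓞 K)ˣ, u = v ^ p) :
    Hyp p (IsCyclotomicExtension.zeta_spec p ℚ K).toInteger :=
  { prime_p := hp.out
    odd := hp2
    prim := (IsCyclotomicExtension.zeta_spec p ℚ K).toInteger_isPrimitiveRoot
    prime_lam := (IsCyclotomicExtension.zeta_spec p ℚ K).zeta_sub_one_prime'
    assoc := IsCyclotomicExtension.Rat.associated_zeta_sub_one_pow_prime p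
      (IsCyclotomicExtension.zeta_spec p ℚ K)
    residue := residue_ringOfIntegers K hp2
    kummer := hKL }

/-- **Second case of Fermat's Last Theorem** for an odd prime `p` such that the ring of integers
of the `p`-th cyclotomic field is principal and satisfies Kummer's lemma. -/
theorem caseII_of_ne_two (hp2 : p ≠ 2) [IsPrincipalIdealRing (𝓞 K)]
    (hKL : ∀ (u : (𝓞 K)ˣ) (n : ℤ), (p : 𝓞 K) ∣ (u : 𝓞 K) - (n : 𝓞 K) → ∃ v : (𝓞 K)ˣ, u = v ^ p)
    {a b c : ℤ} (hab : IsCoprime a b) (hpc : (p : ℤ) ∣ c) (hc : c ≠ 0) :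
    a ^ p + b ^ p ≠ c ^ p :=
  (hyp_ringOfIntegers K hp2 hKL).caseII_int hab hpc hc

/-- **Second case of Fermat's Last Theorem**, in the shape used by the FLT-regular project. -/
theorem caseII (hp5 : 5 ≤ p) [IsPrincipalIdealRing (𝓞 K)]
    (hKL : ∀ (u : (𝓞 K)ˣ) (n : ℤ), (p : 𝓞 K) ∣ (u : 𝓞 K) - (n : 𝓞 K) → ∃ v : (𝓞 K)ˣ, u = v ^ p)
    {a b c : ℤ} (hab : IsCoprime a b) (hpc : (p : ℤ) ∣ c) (hc : c ≠ 0) :
    a ^ p + b ^ p ≠ c ^ p :=
  caseII_of_ne_two K (by omega) hKL hab hpc hc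

end Concrete

end Fermat.Agent.FLTReg.CaseIIDescent
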