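import Mathlib
import Fermat.Prelude.Def_FLTPrelim_FreyPackage

set_option autoImplicit false

/-!
# Reduction: a Frey package with exponent `q` contradicts classical FLT for exponent `q`

`freyPackage_false_of_flt`: given a Frey package `P` with `P.p = q`, the "first case" statement
(`q ∣ a * b * c` for every coprime solution) and the "second case" statement
(no solution with coprime `a`, `b` and `q ∣ c`, `c ≠ 0`) for exponent `q`, we get `False`.
-/

namespace Fermat.Agent.FLTReg

/-- The coprimality of `a`, `b` in a Frey package, in `IsCoprime` form. -/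
theorem FreyReduce.isCoprime_ab (P : FreyPackage) : IsCoprime P.a P.b := by
  have h := P.hgcdab
  rw [Int.isCoprime_iff_gcd_eq_one]
  have h2 : ((Int.gcd P.a P.b : ℕ) : ℤ) = 1 := by rw [Int.coe_gcd]; exact h
  exact_mod_cast h2

/-- The coprimality of `a`, `c` in a Frey package, in `IsCoprime` form. -/
theorem FreyReduce.isCoprime_ac (P : FreyPackage) : IsCoprime P.a P.c := by
  have h := P.hgcdac
  rw [Int.isCoprime_iff_gcd_eq_one]
  have h2 : ((Int.gcd P.a P.c : ℕ) : ℤ) = 1 := by rw [Int.coe_gcd]; exact h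
  exact_mod_cast h2

/-- The coprimality of `b`, `c` in a Frey package, in `IsCoprime` form. -/
theorem FreyReduce.isCoprime_bc (P : FreyPackage) : IsCoprime P.b P.c := by
  have h := P.hgcdbc
  rw [Int.isCoprime_iff_gcd_eq_one]
  have h2 : ((Int.gcd P.b P.c : ℕ) : ℤ) = 1 := by rw [Int.coe_gcd]; exact h
  exact_mod_cast h2

/-- A Frey package with `P.p = q` contradicts (first case + second case) FLT for exponent `q`.
`hI` is the first case in the form "every coprime solution has `q ∣ a * b * c`",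
`hII` is the second case in the form "no solution with `IsCoprime a b`, `q ∣ c`, `c ≠ 0`". -/
theorem freyPackage_false_of_flt (P : FreyPackage) {q : ℕ} (hq : P.p = q)
    (hI : ∀ {a b c : ℤ}, IsCoprime a b → a ^ q + b ^ q = c ^ q → (q : ℤ) ∣ a * b * c)
    (hII : ∀ {a b c : ℤ}, IsCoprime a b → (q : ℤ) ∣ c → c ≠ 0 → a ^ q + b ^ q ≠ c ^ q) :
    False := by
  have hqprime : q.Prime := hq ▸ P.pp
  have hqodd : Odd q := hq ▸ P.hp_odd
  have hFLT : P.a ^ q + P.b ^ q = P.c ^ q := hq ▸ P.hFLT
  have hab := FreyReduce.isCoprime_ab P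
  have hac := FreyReduce.isCoprime_ac P
  have hbc := FreyReduce.isCoprime_bc P
  have hdvd : (q : ℤ) ∣ P.a * P.b * P.c := hI hab hFLT
  have hqZ : Prime (q : ℤ) := Nat.prime_iff_prime_int.mp hqprime
  rcases hqZ.dvd_or_dvd hdvd with h | hc
  · rcases hqZ.dvd_or_dvd h with ha | hb
    · -- q ∣ a : c^q + (-b)^q = a^q
      have hcop : IsCoprime P.c (-P.b) := hbc.symm.neg_right
      refine hII hcop ha P.ha0 ?_
      rw [hqodd.neg_pow]; linarith
    · -- q ∣ b : c^q + (-a)^q = b^q
      have hcop : IsCoprime P.c (-P.a) := hac.symm.neg_right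
      refine hII hcop hb P.hb0 ?_
      rw [hqodd.neg_pow]; linarith
  · exact hII hab hc P.hc0 hFLT

/-- Variant with the first case stated as a disjunction. -/
theorem freyPackage_false_of_flt' (P : FreyPackage) {q : ℕ} (hq : P.p = q)
    (hI : ∀ {a b c : ℤ}, IsCoprime a b → a ^ q + b ^ q = c ^ q →
      (q : ℤ) ∣ a ∨ (q : ℤ) ∣ b ∨ (q : ℤ) ∣ c)
    (hII : ∀ {a b c : ℤ}, IsCoprime a b → (q : ℤ) ∣ c → c ≠ 0 → a ^ q + b ^ q ≠ c ^ q) :
    False := by
  refine freyPackage_false_of_flt P hq (fun {a b c} hab h => ?_) hII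
  rcases hI hab h with h1 | h1 | h1
  · exact Dvd.dvd.mul_right (Dvd.dvd.mul_right h1 b) c
  · exact Dvd.dvd.mul_right (Dvd.dvd.mul_left h1 a) c
  · exact Dvd.dvd.mul_left h1 (a * b)

end Fermat.Agent.FLTReg
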