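import Mathlib
import Fermat.Agent.Lib.FLTReg.CaseII
import Fermat.Agent.Lib.FLTReg.FreyReduce

/-!
# Glue: no Frey package for a prime exponent `q` with `ℤ[ζ_q]` a PID satisfying Kummer's lemma
and for which the first case of Fermat's Last Theorem is known.
-/

set_option autoImplicit false

namespace Fermat.Agent.FLTReg

open NumberField

/-- If the ring of integers of the `q`-th cyclotomic field `K` is a PID satisfying Kummer's lemma
and the first case of Fermat's Last Theorem holds for `q`, then there is no Frey package with
exponent `q`. -/
theorem freyPackage_false_of_pid_kummer (P : FreyPackage) {q : ℕ} [Fact q.Prime] (hq : P.p = q)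
    (K : Type) [Field K] [NumberField K] [IsCyclotomicExtension {q} ℚ K]
    [IsPrincipalIdealRing (𝓞 K)] (hKL : KummerLemma q K)
    (hI : ∀ {a b c : ℤ}, IsCoprime a b → a ^ q + b ^ q = c ^ q → (q : ℤ) ∣ a * b * c) : False :=
  freyPackage_false_of_flt P hq hI
    (fun hab hpc hc => caseII (by have := P.hp5; omega) K hKL hab hpc hc)

end Fermat.Agent.FLTReg
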