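import Mathlib

/-!
# Independence of the cyclotomic units modulo `11` (pure polynomial statement over `ZMod 11`)
-/

set_option autoImplicit false

open Polynomial

namespace Fermat.Agent.FLTReg.Indep11Alt

lemma mul_derivative_pow {R : Type*} [CommRing R] (f : R[X]) (e : ℕ) :
    f * derivative (f ^ e) = C (e : R) * f ^ e * derivative f := by
  rcases e with _ | k
  · simp
  · rw [derivative_pow]
    simp only [Nat.add_sub_cancel, pow_succ]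
    ring

lemma X_pow_dvd_derivative {R : Type*} [CommRing R] {V : R[X]} {c : R} {n : ℕ}
    (h : X ^ (n + 1) ∣ V - C c) : X ^ n ∣ derivative V := by
  obtain ⟨Q, hQ⟩ := h
  have hV : V = X ^ (n + 1) * Q + C c := by rw [← hQ]; ring
  rw [hV, derivative_add, derivative_C, add_zero, derivative_mul, derivative_X_pow]
  simp only [Nat.add_sub_cancel]
  exact dvd_add ⟨C ((n + 1 : ℕ) : R) * Q, by ring⟩ ⟨X * derivative Q, by ring⟩

local instance fact_prime : Fact (Nat.Prime 11) := ⟨by norm_num⟩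

theorem core (e0 e1 e2 e3 e4 : ℕ) (c : ZMod 11)
    (h : (X : (ZMod 11)[X]) ^ 10 ∣
      (X + 1) ^ e0 * (X + 2) ^ e1 * (X ^ 2 + 3 * X + 3) ^ e2 * (X ^ 3 + 4 * X ^ 2 + 6 * X + 4) ^ e3 * (X ^ 4 + 5 * X ^ 3 + 10 * X ^ 2 + 10 * X + 5) ^ e4 - C c) :
    (e0 : ZMod 11) = 0 ∧ (e1 : ZMod 11) = 0 ∧ (e2 : ZMod 11) = 0 ∧ (e3 : ZMod 11) = 0 ∧ (e4 : ZMod 11) = 0 := by
  obtain ⟨g0, hg0⟩ : ∃ g : (ZMod 11)[X], g = X + 1 := ⟨_, rfl⟩
  obtain ⟨g1, hg1⟩ : ∃ g : (ZMod 11)[X], g = X + 2 := ⟨_, rfl⟩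
  obtain ⟨g2, hg2⟩ : ∃ g : (ZMod 11)[X], g = X ^ 2 + 3 * X + 3 := ⟨_, rfl⟩
  obtain ⟨g3, hg3⟩ : ∃ g : (ZMod 11)[X], g = X ^ 3 + 4 * X ^ 2 + 6 * X + 4 := ⟨_, rfl⟩
  obtain ⟨g4, hg4⟩ : ∃ g : (ZMod 11)[X], g = X ^ 4 + 5 * X ^ 3 + 10 * X ^ 2 + 10 * X + 5 := ⟨_, rfl⟩
  rw [← hg0, ← hg1, ← hg2, ← hg3, ← hg4] at h
  have hd := X_pow_dvd_derivative (n := 9) h
  have d0 : derivative g0 = 1 := by
    rw [hg0]; simp only [derivative_add, derivative_mul, derivative_X_pow, derivative_X, derivative_ofNat, derivative_one]; norm_num; try simp only [map_ofNat]; try ring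
  have d1 : derivative g1 = 1 := by
    rw [hg1]; simp only [derivative_add, derivative_mul, derivative_X_pow, derivative_X, derivative_ofNat, derivative_one]; norm_num; try simp only [map_ofNat]; try ring
  have d2 : derivative g2 = 2 * X + 3 := by
    rw [hg2]; simp only [derivative_add, derivative_mul, derivative_X_pow, derivative_X, derivative_ofNat, derivative_one]; norm_num; try simp only [map_ofNat]; try ring
  have d3 : derivative g3 = 3 * X ^ 2 + 8 * X + 6 := by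
    rw [hg3]; simp only [derivative_add, derivative_mul, derivative_X_pow, derivative_X, derivative_ofNat, derivative_one]; norm_num; try simp only [map_ofNat]; try ring
  have d4 : derivative g4 = 4 * X ^ 3 + 15 * X ^ 2 + 20 * X + 10 := by
    rw [hg4]; simp only [derivative_add, derivative_mul, derivative_X_pow, derivative_X, derivative_ofNat, derivative_one]; norm_num; try simp only [map_ofNat]; try ring
  have a0 := mul_derivative_pow g0 e0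
  rw [d0] at a0
  have a1 := mul_derivative_pow g1 e1
  rw [d1] at a1
  have a2 := mul_derivative_pow g2 e2
  rw [d2] at a2
  have a3 := mul_derivative_pow g3 e3
  rw [d3] at a3
  have a4 := mul_derivative_pow g4 e4
  rw [d4] at a4
  have key : (g0 * g1 * g2 * g3 * g4) * derivative (g0 ^ e0 * g1 ^ e1 * g2 ^ e2 * g3 ^ e3 * g4 ^ e4) =
      (g0 ^ e0 * g1 ^ e1 * g2 ^ e2 * g3 ^ e3 * g4 ^ e4) *
        (C (e0 : ZMod 11) * ((1) * g1 * g2 * g3 * g4) +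
          C (e1 : ZMod 11) * (g0 * (1) * g2 * g3 * g4) +
          C (e2 : ZMod 11) * (g0 * g1 * (2 * X + 3) * g3 * g4) +
          C (e3 : ZMod 11) * (g0 * g1 * g2 * (3 * X ^ 2 + 8 * X + 6) * g4) +
          C (e4 : ZMod 11) * (g0 * g1 * g2 * g3 * (4 * X ^ 3 + 15 * X ^ 2 + 20 * X + 10))) := by
    simp only [derivative_mul]
    linear_combination (g1 * g2 * g3 * g4 * (g1 ^ e1 * g2 ^ e2 * g3 ^ e3 * g4 ^ e4)) * a0 +
      (g0 * g2 * g3 * g4 * (g0 ^ e0 * g2 ^ e2 * g3 ^ e3 * g4 ^ e4)) * a1 +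
      (g0 * g1 * g3 * g4 * (g0 ^ e0 * g1 ^ e1 * g3 ^ e3 * g4 ^ e4)) * a2 +
      (g0 * g1 * g2 * g4 * (g0 ^ e0 * g1 ^ e1 * g2 ^ e2 * g4 ^ e4)) * a3 +
      (g0 * g1 * g2 * g3 * (g0 ^ e0 * g1 ^ e1 * g2 ^ e2 * g3 ^ e3)) * a4
  have hV0 : ¬ (X : (ZMod 11)[X]) ∣ g0 ^ e0 * g1 ^ e1 * g2 ^ e2 * g3 ^ e3 * g4 ^ e4 := by
    rw [X_dvd_iff, coeff_zero_eq_eval_zero]
    simp only [eval_mul, eval_pow]
    have v0 : eval 0 g0 ≠ 0 := by
      rw [hg0]; simp only [eval_add, eval_mul, eval_pow, eval_X, eval_ofNat, eval_one]; decide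
    have v1 : eval 0 g1 ≠ 0 := by
      rw [hg1]; simp only [eval_add, eval_mul, eval_pow, eval_X, eval_ofNat, eval_one]; decide
    have v2 : eval 0 g2 ≠ 0 := by
      rw [hg2]; simp only [eval_add, eval_mul, eval_pow, eval_X, eval_ofNat, eval_one]; decide
    have v3 : eval 0 g3 ≠ 0 := by
      rw [hg3]; simp only [eval_add, eval_mul, eval_pow, eval_X, eval_ofNat, eval_one]; decide
    have v4 : eval 0 g4 ≠ 0 := by
      rw [hg4]; simp only [eval_add, eval_mul, eval_pow, eval_X, eval_ofNat, eval_one]; decide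
    exact mul_ne_zero (mul_ne_zero (mul_ne_zero (mul_ne_zero (pow_ne_zero _ v0) (pow_ne_zero _ v1)) (pow_ne_zero _ v2)) (pow_ne_zero _ v3)) (pow_ne_zero _ v4)
  have hT := prime_X.pow_dvd_of_dvd_mul_left 9 hV0 (key ▸ Dvd.dvd.mul_left hd _)
  have hR0 : (1) * g1 * g2 * g3 * g4 =
      C 120 * X ^ 0 + C 600 * X ^ 1 + C 1450 * X ^ 2 + C 2200 * X ^ 3 + C 2299 * X ^ 4 + C 1717 * X ^ 5 + C 923 * X ^ 6 + C 351 * X ^ 7 + C 90 * X ^ 8 + C 14 * X ^ 9 + C 1 * X ^ 10 := by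
    simp only [hg0, hg1, hg2, hg3, hg4, map_ofNat, map_one]
    ring
  have hR1 : g0 * (1) * g2 * g3 * g4 =
      C 60 * X ^ 0 + C 330 * X ^ 1 + C 860 * X ^ 2 + C 1395 * X ^ 3 + C 1552 * X ^ 4 + C 1232 * X ^ 5 + C 704 * X ^ 6 + C 285 * X ^ 7 + C 78 * X ^ 8 + C 13 * X ^ 9 + C 1 * X ^ 10 := by
    simp only [hg0, hg1, hg2, hg3, hg4, map_ofNat, map_one]
    ring
  have hR2 : g0 * g1 * (2 * X + 3) * g3 * g4 =
      C 120 * X ^ 0 + C 680 * X ^ 1 + C 1810 * X ^ 2 + C 2980 * X ^ 3 + C 3349 * X ^ 4 + C 2673 * X ^ 5 + C 1528 * X ^ 6 + C 615 * X ^ 7 + C 166 * X ^ 8 + C 27 * X ^ 9 + C 2 * X ^ 10 := by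
    simp only [hg0, hg1, hg2, hg3, hg4, map_ofNat, map_one]
    ring
  have hR3 : g0 * g1 * g2 * (3 * X ^ 2 + 8 * X + 6) * g4 =
      C 180 * X ^ 0 + C 1050 * X ^ 1 + C 2850 * X ^ 2 + C 4745 * X ^ 3 + C 5356 * X ^ 4 + C 4268 * X ^ 5 + C 2422 * X ^ 6 + C 963 * X ^ 7 + C 256 * X ^ 8 + C 41 * X ^ 9 + C 3 * X ^ 10 := by
    simp only [hg0, hg1, hg2, hg3, hg4, map_ofNat, map_one]
    ring
  have hR4 : g0 * g1 * g2 * g3 * (4 * X ^ 3 + 15 * X ^ 2 + 20 * X + 10) =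
      C 240 * X ^ 0 + C 1440 * X ^ 1 + C 3980 * X ^ 2 + C 6676 * X ^ 3 + C 7524 * X ^ 4 + C 5950 * X ^ 5 + C 3341 * X ^ 6 + C 1314 * X ^ 7 + C 346 * X ^ 8 + C 55 * X ^ 9 + C 4 * X ^ 10 := by
    simp only [hg0, hg1, hg2, hg3, hg4, map_ofNat, map_one]
    ring
  rw [hR0, hR1, hR2, hR3, hR4] at hT
  have hc := X_pow_dvd_iff.1 hT
  have E0 : (e0 : ZMod 11) * 120 + (e1 : ZMod 11) * 60 + (e2 : ZMod 11) * 120 + (e3 : ZMod 11) * 180 + (e4 : ZMod 11) * 240 = 0 := by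
    have h1 := hc 0 (by norm_num)
    simpa [coeff_C_mul, coeff_C_mul_X_pow] using h1
  have E1 : (e0 : ZMod 11) * 600 + (e1 : ZMod 11) * 330 + (e2 : ZMod 11) * 680 + (e3 : ZMod 11) * 1050 + (e4 : ZMod 11) * 1440 = 0 := by
    have h1 := hc 1 (by norm_num)
    simpa [coeff_C_mul, coeff_C_mul_X_pow] using h1
  have E3 : (e0 : ZMod 11) * 2200 + (e1 : ZMod 11) * 1395 + (e2 : ZMod 11) * 2980 + (e3 : ZMod 11) * 4745 + (e4 : ZMod 11) * 6676 = 0 := by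
    have h1 := hc 3 (by norm_num)
    simpa [coeff_C_mul, coeff_C_mul_X_pow] using h1
  have E5 : (e0 : ZMod 11) * 1717 + (e1 : ZMod 11) * 1232 + (e2 : ZMod 11) * 2673 + (e3 : ZMod 11) * 4268 + (e4 : ZMod 11) * 5950 = 0 := by
    have h1 := hc 5 (by norm_num)
    simpa [coeff_C_mul, coeff_C_mul_X_pow] using h1
  have E7 : (e0 : ZMod 11) * 351 + (e1 : ZMod 11) * 285 + (e2 : ZMod 11) * 615 + (e3 : ZMod 11) * 963 + (e4 : ZMod 11) * 1314 = 0 := by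
    have h1 := hc 7 (by norm_num)
    simpa [coeff_C_mul, coeff_C_mul_X_pow] using h1
  have h11 : (11 : ZMod 11) = 0 := by decide
  refine ⟨?_, ?_, ?_, ?_, ?_⟩
  · linear_combination (5) * E1 + (-1) * E3 + (-5) * E5 + (2) * E7 + ((644) * (e0 : ZMod 11) + (485) * (e1 : ZMod 11) + (1065) * (e2 : ZMod 11) + (1719) * (e3 : ZMod 11) + (2418) * (e4 : ZMod 11)) * h11
  · linear_combination (-3) * E0 + (3) * E1 + (-2) * E3 + (-1) * E7 + ((301) * (e0 : ZMod 11) + (206) * (e1 : ZMod 11) + (445) * (e2 : ZMod 11) + (713) * (e3 : ZMod 11) + (1006) * (e4 : ZMod 11)) * h11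
  · linear_combination (1) * E0 + (-1) * E1 + (5) * E3 + (2) * E5 + (-5) * E7 + ((-1109) * (e0 : ZMod 11) + (-704) * (e1 : ZMod 11) + (-1510) * (e2 : ZMod 11) + (-2416) * (e3 : ZMod 11) + (-3410) * (e4 : ZMod 11)) * h11
  · linear_combination (-4) * E0 + (-3) * E1 + (3) * E3 + (-1) * E5 + (-4) * E7 + ((-109) * (e0 : ZMod 11) + (-53) * (e1 : ZMod 11) + (-117) * (e2 : ZMod 11) + (-204) * (e3 : ZMod 11) + (-322) * (e4 : ZMod 11)) * h11
  · linear_combination (5) * E1 + (-1) * E3 + (5) * E5 + (2) * E7 + ((-917) * (e0 : ZMod 11) + (-635) * (e1 : ZMod 11) + (-1365) * (e2 : ZMod 11) + (-2161) * (e3 : ZMod 11) + (-2991) * (e4 : ZMod 11)) * h11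

/-- The polynomials `X, 1 + X, 1 + X + X², 1 + X + X² + X³, 1 + X + X² + X³ + X⁴`. -/
noncomputable def s (i : Fin 5) : ℤ[X] :=
  if (i : ℕ) = 0 then X else ∑ j ∈ Finset.range ((i : ℕ) + 1), X ^ j

/-- **Independence modulo 11**: the pure polynomial statement needed for Kummer's lemma at
`p = 11`. -/
theorem indep (e : Fin 5 → ℕ) (c : ZMod 11)
    (h : (X - 1 : (ZMod 11)[X]) ^ (11 - 1) ∣
      ∏ i, ((s i).map (Int.castRingHom (ZMod 11))) ^ e i - C c) :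
    ∀ i, 11 ∣ e i := by
  have hs0 : ((s 0).map (Int.castRingHom (ZMod 11))).comp (X + 1) = X + 1 := by
    simp [s]
  have hs1 : ((s 1).map (Int.castRingHom (ZMod 11))).comp (X + 1) = X + 2 := by
    simp [s, Finset.sum_range_succ]; ring
  have hs2 : ((s 2).map (Int.castRingHom (ZMod 11))).comp (X + 1) = X ^ 2 + 3 * X + 3 := by
    simp [s, Finset.sum_range_succ]; ring
  have hs3 : ((s 3).map (Int.castRingHom (ZMod 11))).comp (X + 1) =
      X ^ 3 + 4 * X ^ 2 + 6 * X + 4 := by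
    simp [s, Finset.sum_range_succ]; ring
  have hs4 : ((s 4).map (Int.castRingHom (ZMod 11))).comp (X + 1) =
      X ^ 4 + 5 * X ^ 3 + 10 * X ^ 2 + 10 * X + 5 := by
    simp [s, Finset.sum_range_succ]; ring
  have h' : (X : (ZMod 11)[X]) ^ 10 ∣ (X + 1) ^ e 0 * (X + 2) ^ e 1 * (X ^ 2 + 3 * X + 3) ^ e 2 *
      (X ^ 3 + 4 * X ^ 2 + 6 * X + 4) ^ e 3 *
      (X ^ 4 + 5 * X ^ 3 + 10 * X ^ 2 + 10 * X + 5) ^ e 4 - C c := by
    obtain ⟨Q, hQ⟩ := h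
    refine ⟨Q.comp (X + 1), ?_⟩
    have h1 := congrArg (fun f : (ZMod 11)[X] => f.comp (X + 1)) hQ
    simp only [Fin.prod_univ_five, sub_comp, mul_comp, pow_comp, C_comp, X_comp, one_comp, hs0,
      hs1, hs2, hs3, hs4] at h1
    rw [h1]
    norm_num
  obtain ⟨h0, h1, h2, h3, h4⟩ := core (e 0) (e 1) (e 2) (e 3) (e 4) c h'
  intro i
  fin_cases i
  · exact (ZMod.natCast_eq_zero_iff _ _).1 h0
  · exact (ZMod.natCast_eq_zero_iff _ _).1 h1
  · exact (ZMod.natCast_eq_zero_iff _ _).1 h2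
  · exact (ZMod.natCast_eq_zero_iff _ _).1 h3
  · exact (ZMod.natCast_eq_zero_iff _ _).1 h4

end Fermat.Agent.FLTReg.Indep11Alt
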