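import Mathlib

/-
Polynomial core of the independence of cyclotomic units modulo `p` for `p = 5, 7, 11, 13`
(used for Kummer's lemma for these regular primes).

Main results: `indepPoly_five`, `indepPoly_seven`, `indepPoly_eleven`, `indepPoly_thirteen`:
if `∏ i, (unitPoly i) ^ e i` is congruent to a constant modulo `(X - 1) ^ (p - 1)` in
`(ZMod p)[X]`, where `i` ranges over `Fin ((p - 1) / 2)`, then `p` divides every `e i`.
-/
open Polynomial

namespace Fermat.Agent.FLTReg

set_option linter.unusedSimpArgs false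

/-- Derivative of a product of powers, multiplied by the product of the bases. -/
theorem indepPoly_prod_mul_derivative_prod_pow {k : Type*} [CommRing k] {ι : Type*} [Fintype ι]
    [DecidableEq ι] (s : ι → k[X]) (e : ι → ℕ) :
    (∏ i, s i) * derivative (∏ i, s i ^ e i) =
      (∏ i, s i ^ e i) * ∑ i, C (e i : k) * ∏ j, Function.update s i (derivative (s i)) j := by
  rw [Polynomial.derivative_prod_finset, Finset.mul_sum, Finset.mul_sum]
  refine Finset.sum_congr rfl fun i _ => ?_
  rw [Finset.prod_update_of_mem (Finset.mem_univ i), derivative_pow,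
    ← Finset.mul_prod_erase Finset.univ s (Finset.mem_univ i),
    ← Finset.mul_prod_erase Finset.univ (fun i => s i ^ e i) (Finset.mem_univ i),
    Finset.sdiff_singleton_eq_erase]
  rcases Nat.eq_zero_or_pos (e i) with h0 | hpos
  · simp [h0]
  · have : s i ^ e i = s i ^ (e i - 1) * s i := (pow_sub_one_mul hpos.ne' (s i)).symm
    rw [this]
    ring

/-- Logarithmic-derivative trick: if `∏ sᵢ ^ eᵢ` is constant modulo `(X - a)^(n+1)` and no `sᵢ`
vanishes at `a`, then `∑ eᵢ sᵢ' ∏_{j ≠ i} sⱼ` is divisible by `(X - a)^n`. -/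
theorem indepPoly_logDeriv_dvd {k : Type*} [Field k] {ι : Type*} [Fintype ι] [DecidableEq ι]
    (s : ι → k[X]) (e : ι → ℕ) (c : k) (n : ℕ) (a : k)
    (h : (X - C a) ^ (n + 1) ∣ ∏ i, s i ^ e i - C c) (hs : ∀ i, (s i).eval a ≠ 0) :
    (X - C a) ^ n ∣ ∑ i, C (e i : k) * ∏ j, Function.update s i (derivative (s i)) j := by
  obtain ⟨G, hG⟩ := h
  have hF : ∏ i, s i ^ e i = (X - C a) ^ (n + 1) * G + C c := by rw [← hG]; ring
  have h1 : (X - C a) ^ n ∣ derivative (∏ i, s i ^ e i) := by
    rw [hF, derivative_add, derivative_C, add_zero, derivative_mul, derivative_pow]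
    refine dvd_add ?_ ?_
    · simp only [Nat.add_sub_cancel, derivative_sub, derivative_X, derivative_C, sub_zero, mul_one]
      exact ⟨C ((n + 1 : ℕ) : k) * G, by ring⟩
    · exact ⟨(X - C a) * derivative G, by ring⟩
  have h2 : (X - C a) ^ n ∣ (∏ i, s i ^ e i) *
      ∑ i, C (e i : k) * ∏ j, Function.update s i (derivative (s i)) j := by
    rw [← indepPoly_prod_mul_derivative_prod_pow]
    exact Dvd.dvd.mul_left h1 _
  have hcop : IsCoprime ((X - C a) ^ n) (∏ i, s i ^ e i) := by
    refine IsCoprime.pow_left (IsCoprime.prod_right fun i _ => IsCoprime.pow_right ?_)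
    rw [(irreducible_X_sub_C a).coprime_iff_not_dvd, dvd_iff_isRoot]
    exact hs i
  exact hcop.dvd_of_dvd_mul_left h2

/-- Reading off coefficients: if `X ^ n` divides `∑ xᵢ Qᵢ` and the `Qᵢ` have explicit
coefficient tables `T`, then the first `n` coefficient equations hold. -/
theorem indepPoly_sum_mul_eq_zero_of_X_pow_dvd {k : Type*} [CommRing k] {m n N : ℕ} (hn : n ≤ N)
    (x : Fin m → k) (Q : Fin m → k[X]) (T : Fin m → ℕ → ℕ)
    (hQ : ∀ i, Q i = ∑ j ∈ Finset.range N, (T i j : k[X]) * X ^ j)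
    (h : X ^ n ∣ ∑ i, C (x i) * Q i) : ∀ j < n, ∑ i, x i * (T i j : k) = 0 := by
  intro j hj
  have h0 := (X_pow_dvd_iff.mp h) j hj
  rw [finsetSum_coeff] at h0
  rw [← h0]
  refine Finset.sum_congr rfl fun i _ => ?_
  rw [coeff_C_mul, hQ i, finsetSum_coeff]
  congr 1
  rw [Finset.sum_eq_single j]
  · rw [← C_eq_natCast, coeff_C_mul, coeff_X_pow, if_pos rfl, mul_one]
  · intro b _ hb
    rw [← C_eq_natCast, coeff_C_mul, coeff_X_pow, if_neg (Ne.symm hb), mul_zero]
  · intro hj'
    exact absurd (Finset.mem_range.mpr (lt_of_lt_of_le hj hn)) hj'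



/-- The polynomials `X, 1 + X, 1 + X + X², …` whose values at `ζ` are the cyclotomic units used
in the independence computations. -/
noncomputable def unitPoly (i : ℕ) : Polynomial ℤ :=
  if i = 0 then X else ∑ j ∈ Finset.range (i + 1), X ^ j

/-- Coefficient table for `p = 5`: row `a` lists the coefficients of
`t_a'(Y) * ∏_(b ≠ a) t_b(Y)` where `t_b(Y) = unitPoly b (1 + Y)`. -/
def indepPoly_tabFive : List (List ℕ) :=
  [[2, 1],
   [1, 1]]

instance indepPoly_factPrimeFive : Fact (Nat.Prime 5) := ⟨by norm_num⟩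

theorem indepPoly_five (e : Fin 2 → ℕ) (c : ZMod 5)
    (h : (X - 1 : Polynomial (ZMod 5)) ^ 4 ∣
      ∏ i : Fin 2, ((unitPoly i).map (Int.castRingHom (ZMod 5))) ^ e i - C c) :
    ∀ i, 5 ∣ e i := by
  set s : Fin 2 → (ZMod 5)[X] := fun i => (unitPoly i).map (Int.castRingHom (ZMod 5)) with hs
  have s0 : s 0 = X := by simp [hs, unitPoly]
  have s1 : s 1 = 1 + X := by
    simp [hs, unitPoly, Finset.sum_range_succ]
  have hev : ∀ i, (s i).eval 1 ≠ 0 := by
    intro i; fin_cases i
    · simp [s0]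
    · simp [s1]; decide
  have h' : (X - C (1 : ZMod 5)) ^ (3 + 1) ∣ ∏ i, s i ^ e i - C c := by rw [C_1]; exact h
  have h1 := indepPoly_logDeriv_dvd s e c 3 1 h' hev
  rw [X_sub_C_pow_dvd_iff] at h1
  set Q : Fin 2 → (ZMod 5)[X] := fun i =>
    (∏ j, Function.update s i (derivative (s i)) j).comp (X + C 1) with hQdef
  have h2 : X ^ 3 ∣ ∑ i, C (e i : ZMod 5) * Q i := by
    convert h1 using 1
    simp [hQdef, Polynomial.sum_comp]
  have hQ : ∀ i, Q i = ∑ j ∈ Finset.range 2,
      (((indepPoly_tabFive.getD i []).getD j 0 : ℕ) : (ZMod 5)[X]) * X ^ j := by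
    intro i; fin_cases i
    · simp [hQdef, Fin.prod_univ_two, Function.update, s0, s1, Finset.sum_range_succ, indepPoly_tabFive, map_ofNat]
      try ring
    · simp [hQdef, Fin.prod_univ_two, Function.update, s0, s1, Finset.sum_range_succ, indepPoly_tabFive, map_ofNat]
      try ring
  have key := indepPoly_sum_mul_eq_zero_of_X_pow_dvd (k := ZMod 5) (n := 2) (N := 2) le_rfl
    (fun i => (e i : ZMod 5)) Q (fun i j => (indepPoly_tabFive.getD i []).getD j 0) hQ
    (dvd_trans (pow_dvd_pow X (by norm_num)) h2)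
  have k0 : (e 0 : ZMod 5) * 2 + (e 1 : ZMod 5) * 1 = 0 := by
    simpa [Fin.sum_univ_two, indepPoly_tabFive] using key 0 (by norm_num)
  have k1 : (e 0 : ZMod 5) * 1 + (e 1 : ZMod 5) * 1 = 0 := by
    simpa [Fin.sum_univ_two, indepPoly_tabFive] using key 1 (by norm_num)
  have hp : Nat.Prime 5 := by norm_num
  have x0 : 5 ∣ e 0 := by
    have hx : ((e 0 * 1 : ℕ) : ZMod 5) = 0 := by
      push_cast
      linear_combination (1) * k0 + (-1) * k1
    exact ((Nat.Prime.dvd_mul hp).mp ((ZMod.natCast_eq_zero_iff _ _).mp hx)).resolve_right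
      (by norm_num)
  have x1 : 5 ∣ e 1 := by
    have hx : ((e 1 * 1 : ℕ) : ZMod 5) = 0 := by
      push_cast
      linear_combination (-1) * k0 + (2) * k1
    exact ((Nat.Prime.dvd_mul hp).mp ((ZMod.natCast_eq_zero_iff _ _).mp hx)).resolve_right
      (by norm_num)
  intro i; fin_cases i
  exacts [x0, x1]

/-- Coefficient table for `p = 7`: row `a` lists the coefficients of
`t_a'(Y) * ∏_(b ≠ a) t_b(Y)` where `t_b(Y) = unitPoly b (1 + Y)`. -/
def indepPoly_tabSeven : List (List ℕ) :=
  [[6, 9, 5, 1],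
   [3, 6, 4, 1],
   [6, 13, 9, 2]]

instance indepPoly_factPrimeSeven : Fact (Nat.Prime 7) := ⟨by norm_num⟩

theorem indepPoly_seven (e : Fin 3 → ℕ) (c : ZMod 7)
    (h : (X - 1 : Polynomial (ZMod 7)) ^ 6 ∣
      ∏ i : Fin 3, ((unitPoly i).map (Int.castRingHom (ZMod 7))) ^ e i - C c) :
    ∀ i, 7 ∣ e i := by
  set s : Fin 3 → (ZMod 7)[X] := fun i => (unitPoly i).map (Int.castRingHom (ZMod 7)) with hs
  have s0 : s 0 = X := by simp [hs, unitPoly]
  have s1 : s 1 = 1 + X := by
    simp [hs, unitPoly, Finset.sum_range_succ]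
  have s2 : s 2 = 1 + X + X ^ 2 := by
    simp [hs, unitPoly, Finset.sum_range_succ]
  have hev : ∀ i, (s i).eval 1 ≠ 0 := by
    intro i; fin_cases i
    · simp [s0]
    · simp [s1]; decide
    · simp [s2]; decide
  have h' : (X - C (1 : ZMod 7)) ^ (5 + 1) ∣ ∏ i, s i ^ e i - C c := by rw [C_1]; exact h
  have h1 := indepPoly_logDeriv_dvd s e c 5 1 h' hev
  rw [X_sub_C_pow_dvd_iff] at h1
  set Q : Fin 3 → (ZMod 7)[X] := fun i =>
    (∏ j, Function.update s i (derivative (s i)) j).comp (X + C 1) with hQdef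
  have h2 : X ^ 5 ∣ ∑ i, C (e i : ZMod 7) * Q i := by
    convert h1 using 1
    simp [hQdef, Polynomial.sum_comp]
  have hQ : ∀ i, Q i = ∑ j ∈ Finset.range 4,
      (((indepPoly_tabSeven.getD i []).getD j 0 : ℕ) : (ZMod 7)[X]) * X ^ j := by
    intro i; fin_cases i
    · simp [hQdef, Fin.prod_univ_three, Function.update, s0, s1, s2, Finset.sum_range_succ, indepPoly_tabSeven, map_ofNat]
      try ring
    · simp [hQdef, Fin.prod_univ_three, Function.update, s0, s1, s2, Finset.sum_range_succ, indepPoly_tabSeven, map_ofNat]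
      try ring
    · simp [hQdef, Fin.prod_univ_three, Function.update, s0, s1, s2, Finset.sum_range_succ, indepPoly_tabSeven, map_ofNat]
      try ring
  have key := indepPoly_sum_mul_eq_zero_of_X_pow_dvd (k := ZMod 7) (n := 4) (N := 4) le_rfl
    (fun i => (e i : ZMod 7)) Q (fun i j => (indepPoly_tabSeven.getD i []).getD j 0) hQ
    (dvd_trans (pow_dvd_pow X (by norm_num)) h2)
  have k0 : (e 0 : ZMod 7) * 6 + (e 1 : ZMod 7) * 3 + (e 2 : ZMod 7) * 6 = 0 := by
    simpa [Fin.sum_univ_three, indepPoly_tabSeven] using key 0 (by norm_num)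
  have k1 : (e 0 : ZMod 7) * 9 + (e 1 : ZMod 7) * 6 + (e 2 : ZMod 7) * 13 = 0 := by
    simpa [Fin.sum_univ_three, indepPoly_tabSeven] using key 1 (by norm_num)
  have k3 : (e 0 : ZMod 7) * 1 + (e 1 : ZMod 7) * 1 + (e 2 : ZMod 7) * 2 = 0 := by
    simpa [Fin.sum_univ_three, indepPoly_tabSeven] using key 3 (by norm_num)
  have hp : Nat.Prime 7 := by norm_num
  have x0 : 7 ∣ e 0 := by
    have hx : ((e 0 * 3 : ℕ) : ZMod 7) = 0 := by
      push_cast
      linear_combination (1) * k0 + (0) * k1 + (-3) * k3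
    exact ((Nat.Prime.dvd_mul hp).mp ((ZMod.natCast_eq_zero_iff _ _).mp hx)).resolve_right
      (by norm_num)
  have x1 : 7 ∣ e 1 := by
    have hx : ((e 1 * 3 : ℕ) : ZMod 7) = 0 := by
      push_cast
      linear_combination (5) * k0 + (-6) * k1 + (24) * k3
    exact ((Nat.Prime.dvd_mul hp).mp ((ZMod.natCast_eq_zero_iff _ _).mp hx)).resolve_right
      (by norm_num)
  have x2 : 7 ∣ e 2 := by
    have hx : ((e 2 * 3 : ℕ) : ZMod 7) = 0 := by
      push_cast
      linear_combination (-3) * k0 + (3) * k1 + (-9) * k3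
    exact ((Nat.Prime.dvd_mul hp).mp ((ZMod.natCast_eq_zero_iff _ _).mp hx)).resolve_right
      (by norm_num)
  intro i; fin_cases i
  exacts [x0, x1, x2]

/-- Coefficient table for `p = 11`: row `a` lists the coefficients of
`t_a'(Y) * ∏_(b ≠ a) t_b(Y)` where `t_b(Y) = unitPoly b (1 + Y)`. -/
def indepPoly_tabEleven : List (List ℕ) :=
  [[120, 600, 1450, 2200, 2299, 1717, 923, 351, 90, 14, 1],
   [60, 330, 860, 1395, 1552, 1232, 704, 285, 78, 13, 1],
   [120, 680, 1810, 2980, 3349, 2673, 1528, 615, 166, 27, 2],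
   [180, 1050, 2850, 4745, 5356, 4268, 2422, 963, 256, 41, 3],
   [240, 1440, 3980, 6676, 7524, 5950, 3341, 1314, 346, 55, 4]]

instance indepPoly_factPrimeEleven : Fact (Nat.Prime 11) := ⟨by norm_num⟩

theorem indepPoly_eleven (e : Fin 5 → ℕ) (c : ZMod 11)
    (h : (X - 1 : Polynomial (ZMod 11)) ^ 10 ∣
      ∏ i : Fin 5, ((unitPoly i).map (Int.castRingHom (ZMod 11))) ^ e i - C c) :
    ∀ i, 11 ∣ e i := by
  set s : Fin 5 → (ZMod 11)[X] := fun i => (unitPoly i).map (Int.castRingHom (ZMod 11)) with hs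
  have s0 : s 0 = X := by simp [hs, unitPoly]
  have s1 : s 1 = 1 + X := by
    simp [hs, unitPoly, Finset.sum_range_succ]
  have s2 : s 2 = 1 + X + X ^ 2 := by
    simp [hs, unitPoly, Finset.sum_range_succ]
  have s3 : s 3 = 1 + X + X ^ 2 + X ^ 3 := by
    simp [hs, unitPoly, Finset.sum_range_succ]
  have s4 : s 4 = 1 + X + X ^ 2 + X ^ 3 + X ^ 4 := by
    simp [hs, unitPoly, Finset.sum_range_succ]
  have hev : ∀ i, (s i).eval 1 ≠ 0 := by
    intro i; fin_cases i
    · simp [s0]
    · simp [s1]; decide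
    · simp [s2]; decide
    · simp [s3]; decide
    · simp [s4]; decide
  have h' : (X - C (1 : ZMod 11)) ^ (9 + 1) ∣ ∏ i, s i ^ e i - C c := by rw [C_1]; exact h
  have h1 := indepPoly_logDeriv_dvd s e c 9 1 h' hev
  rw [X_sub_C_pow_dvd_iff] at h1
  set Q : Fin 5 → (ZMod 11)[X] := fun i =>
    (∏ j, Function.update s i (derivative (s i)) j).comp (X + C 1) with hQdef
  have h2 : X ^ 9 ∣ ∑ i, C (e i : ZMod 11) * Q i := by
    convert h1 using 1
    simp [hQdef, Polynomial.sum_comp]
  have hQ : ∀ i, Q i = ∑ j ∈ Finset.range 11,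
      (((indepPoly_tabEleven.getD i []).getD j 0 : ℕ) : (ZMod 11)[X]) * X ^ j := by
    intro i; fin_cases i
    · simp [hQdef, Fin.prod_univ_five, Function.update, s0, s1, s2, s3, s4, Finset.sum_range_succ, indepPoly_tabEleven, map_ofNat]
      try ring
    · simp [hQdef, Fin.prod_univ_five, Function.update, s0, s1, s2, s3, s4, Finset.sum_range_succ, indepPoly_tabEleven, map_ofNat]
      try ring
    · simp [hQdef, Fin.prod_univ_five, Function.update, s0, s1, s2, s3, s4, Finset.sum_range_succ, indepPoly_tabEleven, map_ofNat]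
      try ring
    · simp [hQdef, Fin.prod_univ_five, Function.update, s0, s1, s2, s3, s4, Finset.sum_range_succ, indepPoly_tabEleven, map_ofNat]
      try ring
    · simp [hQdef, Fin.prod_univ_five, Function.update, s0, s1, s2, s3, s4, Finset.sum_range_succ, indepPoly_tabEleven, map_ofNat]
      try ring
  have key := indepPoly_sum_mul_eq_zero_of_X_pow_dvd (k := ZMod 11) (n := 9) (N := 11) (by norm_num)
    (fun i => (e i : ZMod 11)) Q (fun i j => (indepPoly_tabEleven.getD i []).getD j 0) hQ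
    h2
  have k0 : (e 0 : ZMod 11) * 120 + (e 1 : ZMod 11) * 60 + (e 2 : ZMod 11) * 120 + (e 3 : ZMod 11) * 180 + (e 4 : ZMod 11) * 240 = 0 := by
    simpa [Fin.sum_univ_five, indepPoly_tabEleven] using key 0 (by norm_num)
  have k1 : (e 0 : ZMod 11) * 600 + (e 1 : ZMod 11) * 330 + (e 2 : ZMod 11) * 680 + (e 3 : ZMod 11) * 1050 + (e 4 : ZMod 11) * 1440 = 0 := by
    simpa [Fin.sum_univ_five, indepPoly_tabEleven] using key 1 (by norm_num)
  have k3 : (e 0 : ZMod 11) * 2200 + (e 1 : ZMod 11) * 1395 + (e 2 : ZMod 11) * 2980 + (e 3 : ZMod 11) * 4745 + (e 4 : ZMod 11) * 6676 = 0 := by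
    simpa [Fin.sum_univ_five, indepPoly_tabEleven] using key 3 (by norm_num)
  have k5 : (e 0 : ZMod 11) * 1717 + (e 1 : ZMod 11) * 1232 + (e 2 : ZMod 11) * 2673 + (e 3 : ZMod 11) * 4268 + (e 4 : ZMod 11) * 5950 = 0 := by
    simpa [Fin.sum_univ_five, indepPoly_tabEleven] using key 5 (by norm_num)
  have k7 : (e 0 : ZMod 11) * 351 + (e 1 : ZMod 11) * 285 + (e 2 : ZMod 11) * 615 + (e 3 : ZMod 11) * 963 + (e 4 : ZMod 11) * 1314 = 0 := by
    simpa [Fin.sum_univ_five, indepPoly_tabEleven] using key 7 (by norm_num)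
  have hp : Nat.Prime 11 := by norm_num
  have x0 : 11 ∣ e 0 := by
    have hx : ((e 0 * 864000 : ℕ) : ZMod 11) = 0 := by
      push_cast
      linear_combination (-25050960) * k0 + (8628480) * k1 + (-1180800) * k3 + (273600) * k5 + (-120000) * k7
    exact ((Nat.Prime.dvd_mul hp).mp ((ZMod.natCast_eq_zero_iff _ _).mp hx)).resolve_right
      (by norm_num)
  have x1 : 11 ∣ e 1 := by
    have hx : ((e 1 * 864000 : ℕ) : ZMod 11) = 0 := by
      push_cast
      linear_combination (529014240) * k0 + (-182070720) * k1 + (24883200) * k3 + (-5702400) * k5 + (2304000) * k7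
    exact ((Nat.Prime.dvd_mul hp).mp ((ZMod.natCast_eq_zero_iff _ _).mp hx)).resolve_right
      (by norm_num)
  have x2 : 11 ∣ e 2 := by
    have hx : ((e 2 * 864000 : ℕ) : ZMod 11) = 0 := by
      push_cast
      linear_combination (-474787440) * k0 + (163365120) * k1 + (-22291200) * k3 + (5054400) * k5 + (-1944000) * k7
    exact ((Nat.Prime.dvd_mul hp).mp ((ZMod.natCast_eq_zero_iff _ _).mp hx)).resolve_right
      (by norm_num)
  have x3 : 11 ∣ e 3 := by
    have hx : ((e 3 * 864000 : ℕ) : ZMod 11) = 0 := by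
      push_cast
      linear_combination (204412320) * k0 + (-70292160) * k1 + (9561600) * k3 + (-2131200) * k5 + (768000) * k7
    exact ((Nat.Prime.dvd_mul hp).mp ((ZMod.natCast_eq_zero_iff _ _).mp hx)).resolve_right
      (by norm_num)
  have x4 : 11 ∣ e 4 := by
    have hx : ((e 4 * 864000 : ℕ) : ZMod 11) = 0 := by
      push_cast
      linear_combination (-35640000) * k0 + (12240000) * k1 + (-1656000) * k3 + (360000) * k5 + (-120000) * k7
    exact ((Nat.Prime.dvd_mul hp).mp ((ZMod.natCast_eq_zero_iff _ _).mp hx)).resolve_right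
      (by norm_num)
  intro i; fin_cases i
  exacts [x0, x1, x2, x3, x4]

/-- Coefficient table for `p = 13`: row `a` lists the coefficients of
`t_a'(Y) * ∏_(b ≠ a) t_b(Y)` where `t_b(Y) = unitPoly b (1 + Y)`. -/
def indepPoly_tabThirteen : List (List ℕ) :=
  [[720, 5400, 20100, 48750, 85514, 114257, 119573, 99426, 66014, 34900, 14536, 4674, 1121, 189, 20, 1],
   [360, 2880, 11310, 28770, 52747, 73512, 80159, 69420, 48010, 26452, 11492, 3859, 968, 171, 19, 1],
   [720, 5880, 23460, 60430, 111914, 157223, 172483, 149995, 103950, 57259, 24803, 8278, 2056, 358, 39, 2],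
   [1080, 9000, 36450, 94920, 177141, 250078, 274997, 239128, 165322, 90640, 38998, 12905, 3174, 547, 59, 3],
   [1440, 12240, 50280, 132156, 247924, 350660, 385236, 333895, 229676, 125139, 53475, 17575, 4295, 736, 79, 4],
   [1800, 15600, 64950, 172030, 323615, 457250, 500545, 431656, 295254, 159970, 68006, 22249, 5416, 925, 99, 5]]

instance indepPoly_factPrimeThirteen : Fact (Nat.Prime 13) := ⟨by norm_num⟩

theorem indepPoly_thirteen (e : Fin 6 → ℕ) (c : ZMod 13)
    (h : (X - 1 : Polynomial (ZMod 13)) ^ 12 ∣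
      ∏ i : Fin 6, ((unitPoly i).map (Int.castRingHom (ZMod 13))) ^ e i - C c) :
    ∀ i, 13 ∣ e i := by
  set s : Fin 6 → (ZMod 13)[X] := fun i => (unitPoly i).map (Int.castRingHom (ZMod 13)) with hs
  have s0 : s 0 = X := by simp [hs, unitPoly]
  have s1 : s 1 = 1 + X := by
    simp [hs, unitPoly, Finset.sum_range_succ]
  have s2 : s 2 = 1 + X + X ^ 2 := by
    simp [hs, unitPoly, Finset.sum_range_succ]
  have s3 : s 3 = 1 + X + X ^ 2 + X ^ 3 := by
    simp [hs, unitPoly, Finset.sum_range_succ]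
  have s4 : s 4 = 1 + X + X ^ 2 + X ^ 3 + X ^ 4 := by
    simp [hs, unitPoly, Finset.sum_range_succ]
  have s5 : s 5 = 1 + X + X ^ 2 + X ^ 3 + X ^ 4 + X ^ 5 := by
    simp [hs, unitPoly, Finset.sum_range_succ]
  have hev : ∀ i, (s i).eval 1 ≠ 0 := by
    intro i; fin_cases i
    · simp [s0]
    · simp [s1]; decide
    · simp [s2]; decide
    · simp [s3]; decide
    · simp [s4]; decide
    · simp [s5]; decide
  have h' : (X - C (1 : ZMod 13)) ^ (11 + 1) ∣ ∏ i, s i ^ e i - C c := by rw [C_1]; exact h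
  have h1 := indepPoly_logDeriv_dvd s e c 11 1 h' hev
  rw [X_sub_C_pow_dvd_iff] at h1
  set Q : Fin 6 → (ZMod 13)[X] := fun i =>
    (∏ j, Function.update s i (derivative (s i)) j).comp (X + C 1) with hQdef
  have h2 : X ^ 11 ∣ ∑ i, C (e i : ZMod 13) * Q i := by
    convert h1 using 1
    simp [hQdef, Polynomial.sum_comp]
  have hQ : ∀ i, Q i = ∑ j ∈ Finset.range 16,
      (((indepPoly_tabThirteen.getD i []).getD j 0 : ℕ) : (ZMod 13)[X]) * X ^ j := by
    intro i; fin_cases i
    · simp [hQdef, Fin.prod_univ_six, Function.update, s0, s1, s2, s3, s4, s5, Finset.sum_range_succ, indepPoly_tabThirteen, map_ofNat]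
      try ring
    · simp [hQdef, Fin.prod_univ_six, Function.update, s0, s1, s2, s3, s4, s5, Finset.sum_range_succ, indepPoly_tabThirteen, map_ofNat]
      try ring
    · simp [hQdef, Fin.prod_univ_six, Function.update, s0, s1, s2, s3, s4, s5, Finset.sum_range_succ, indepPoly_tabThirteen, map_ofNat]
      try ring
    · simp [hQdef, Fin.prod_univ_six, Function.update, s0, s1, s2, s3, s4, s5, Finset.sum_range_succ, indepPoly_tabThirteen, map_ofNat]
      try ring
    · simp [hQdef, Fin.prod_univ_six, Function.update, s0, s1, s2, s3, s4, s5, Finset.sum_range_succ, indepPoly_tabThirteen, map_ofNat]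
      try ring
    · simp [hQdef, Fin.prod_univ_six, Function.update, s0, s1, s2, s3, s4, s5, Finset.sum_range_succ, indepPoly_tabThirteen, map_ofNat]
      try ring
  have key := indepPoly_sum_mul_eq_zero_of_X_pow_dvd (k := ZMod 13) (n := 11) (N := 16) (by norm_num)
    (fun i => (e i : ZMod 13)) Q (fun i j => (indepPoly_tabThirteen.getD i []).getD j 0) hQ
    h2
  have k0 : (e 0 : ZMod 13) * 720 + (e 1 : ZMod 13) * 360 + (e 2 : ZMod 13) * 720 + (e 3 : ZMod 13) * 1080 + (e 4 : ZMod 13) * 1440 + (e 5 : ZMod 13) * 1800 = 0 := by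
    simpa [Fin.sum_univ_six, indepPoly_tabThirteen] using key 0 (by norm_num)
  have k1 : (e 0 : ZMod 13) * 5400 + (e 1 : ZMod 13) * 2880 + (e 2 : ZMod 13) * 5880 + (e 3 : ZMod 13) * 9000 + (e 4 : ZMod 13) * 12240 + (e 5 : ZMod 13) * 15600 = 0 := by
    simpa [Fin.sum_univ_six, indepPoly_tabThirteen] using key 1 (by norm_num)
  have k3 : (e 0 : ZMod 13) * 48750 + (e 1 : ZMod 13) * 28770 + (e 2 : ZMod 13) * 60430 + (e 3 : ZMod 13) * 94920 + (e 4 : ZMod 13) * 132156 + (e 5 : ZMod 13) * 172030 = 0 := by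
    simpa [Fin.sum_univ_six, indepPoly_tabThirteen] using key 3 (by norm_num)
  have k5 : (e 0 : ZMod 13) * 114257 + (e 1 : ZMod 13) * 73512 + (e 2 : ZMod 13) * 157223 + (e 3 : ZMod 13) * 250078 + (e 4 : ZMod 13) * 350660 + (e 5 : ZMod 13) * 457250 = 0 := by
    simpa [Fin.sum_univ_six, indepPoly_tabThirteen] using key 5 (by norm_num)
  have k7 : (e 0 : ZMod 13) * 99426 + (e 1 : ZMod 13) * 69420 + (e 2 : ZMod 13) * 149995 + (e 3 : ZMod 13) * 239128 + (e 4 : ZMod 13) * 333895 + (e 5 : ZMod 13) * 431656 = 0 := by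
    simpa [Fin.sum_univ_six, indepPoly_tabThirteen] using key 7 (by norm_num)
  have k9 : (e 0 : ZMod 13) * 34900 + (e 1 : ZMod 13) * 26452 + (e 2 : ZMod 13) * 57259 + (e 3 : ZMod 13) * 90640 + (e 4 : ZMod 13) * 125139 + (e 5 : ZMod 13) * 159970 = 0 := by
    simpa [Fin.sum_univ_six, indepPoly_tabThirteen] using key 9 (by norm_num)
  have hp : Nat.Prime 13 := by norm_num
  have x0 : 13 ∣ e 0 := by
    have hx : ((e 0 * 671846400000 : ℕ) : ZMod 13) = 0 := by
      push_cast
      linear_combination (1099336915248480) * k0 + (-249046720273440) * k1 + (13500757814400) * k3 + (-1006422796800) * k5 + (107682048000) * k7 + (-15676416000) * k9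
    exact ((Nat.Prime.dvd_mul hp).mp ((ZMod.natCast_eq_zero_iff _ _).mp hx)).resolve_right
      (by norm_num)
  have x1 : 13 ∣ e 1 := by
    have hx : ((e 1 * 671846400000 : ℕ) : ZMod 13) = 0 := by
      push_cast
      linear_combination (-26749830741861600) * k0 + (6059915357104800) * k1 + (-328480677648000) * k3 + (24471118656000) * k5 + (-2606204160000) * k7 + (369515520000) * k9
    exact ((Nat.Prime.dvd_mul hp).mp ((ZMod.natCast_eq_zero_iff _ _).mp hx)).resolve_right
      (by norm_num)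
  have x2 : 13 ∣ e 2 := by
    have hx : ((e 2 * 671846400000 : ℕ) : ZMod 13) = 0 := by
      push_cast
      linear_combination (27348142707741600) * k0 + (-6195387087064800) * k1 + (335799772848000) * k3 + (-25002219456000) * k5 + (2652860160000) * k7 + (-369515520000) * k9
    exact ((Nat.Prime.dvd_mul hp).mp ((ZMod.natCast_eq_zero_iff _ _).mp hx)).resolve_right
      (by norm_num)
  have x3 : 13 ∣ e 3 := by
    have hx : ((e 3 * 671846400000 : ℕ) : ZMod 13) = 0 := by
      push_cast
      linear_combination (-15047394608344320) * k0 + (3408733042824960) * k1 + (-184735180569600) * k3 + (13741523251200) * k5 + (-1449695232000) * k7 + (197074944000) * k9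
    exact ((Nat.Prime.dvd_mul hp).mp ((ZMod.natCast_eq_zero_iff _ _).mp hx)).resolve_right
      (by norm_num)
  have x4 : 13 ∣ e 4 := by
    have hx : ((e 4 * 671846400000 : ℕ) : ZMod 13) = 0 := by
      push_cast
      linear_combination (4451053650516000) * k0 + (-1008273569148000) * k1 + (54631136880000) * k3 + (-4057594560000) * k5 + (424569600000) * k7 + (-55987200000) * k9
    exact ((Nat.Prime.dvd_mul hp).mp ((ZMod.natCast_eq_zero_iff _ _).mp hx)).resolve_right
      (by norm_num)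
  have x5 : 13 ∣ e 5 := by
    have hx : ((e 5 * 671846400000 : ℕ) : ZMod 13) = 0 := by
      push_cast
      linear_combination (-561431482981920) * k0 + (127169481137760) * k1 + (-6887877897600) * k3 + (510394867200) * k5 + (-52814592000) * k7 + (6718464000) * k9
    exact ((Nat.Prime.dvd_mul hp).mp ((ZMod.natCast_eq_zero_iff _ _).mp hx)).resolve_right
      (by norm_num)
  intro i; fin_cases i
  exacts [x0, x1, x2, x3, x4, x5]

end Fermat.Agent.FLTReg
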