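import Mathlib

set_option autoImplicit false

open NumberField

namespace Fermat.Agent.FLTReg

/-! ### A generic counting lemma for `G / G^p` -/

section Generic

variable {G : Type*} [CommGroup G] {ι : Type*} [Fintype ι]

/-- Every element of a commutative group generated by a finite family is a product of
integer powers of the family. -/
theorem exists_zpow_prod_of_closure_eq_top (x : ι → G)
    (hx : Subgroup.closure (Set.range x) = ⊤) (g : G) :
    ∃ z : ι → ℤ, g = ∏ i, x i ^ z i := by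
  classical
  have hg : g ∈ Subgroup.closure (Set.range x) := by rw [hx]; trivial
  induction hg using Subgroup.closure_induction with
  | mem y hy =>
    obtain ⟨j, rfl⟩ := hy
    refine ⟨Pi.single j 1, ?_⟩
    rw [Finset.prod_eq_single j]
    · simp
    · intro i _ hij
      simp [Pi.single_eq_of_ne hij]
    · intro h; exact absurd (Finset.mem_univ j) h
  | one => exact ⟨0, by simp⟩
  | mul a b _ _ ha hb =>
    obtain ⟨za, rfl⟩ := ha
    obtain ⟨zb, rfl⟩ := hb
    refine ⟨za + zb, ?_⟩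
    rw [← Finset.prod_mul_distrib]
    exact Finset.prod_congr rfl fun i _ => by rw [Pi.add_apply, zpow_add]
  | inv a _ ha =>
    obtain ⟨za, rfl⟩ := ha
    refine ⟨-za, ?_⟩
    rw [← Finset.prod_inv_distrib]
    exact Finset.prod_congr rfl fun i _ => by rw [Pi.neg_apply, zpow_neg]

/-- If a commutative group is generated by a family indexed by `ι`, then `G / G^p` is finite of
cardinality at most `p ^ card ι`. -/
theorem card_quotient_range_pow_le (x : ι → G)
    (hx : Subgroup.closure (Set.range x) = ⊤) (p : ℕ) [NeZero p] :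
    Finite (G ⧸ (powMonoidHom p : G →* G).range) ∧
      Nat.card (G ⧸ (powMonoidHom p : G →* G).range) ≤ p ^ Fintype.card ι := by
  classical
  set P : Subgroup G := (powMonoidHom p : G →* G).range with hP
  let F : (ι → ZMod p) → G ⧸ P := fun e => QuotientGroup.mk (∏ i, x i ^ (e i).val)
  have hF : Function.Surjective F := by
    intro q
    obtain ⟨g, rfl⟩ := QuotientGroup.mk_surjective q
    obtain ⟨z, rfl⟩ := exists_zpow_prod_of_closure_eq_top x hx g
    refine ⟨fun i => (z i : ZMod p), ?_⟩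
    show (QuotientGroup.mk (∏ i, x i ^ ((z i : ZMod p)).val) : G ⧸ P) = _
    rw [QuotientGroup.eq]
    refine ⟨∏ i, x i ^ (z i / (p : ℤ)), ?_⟩
    rw [powMonoidHom_apply, ← Finset.prod_pow, ← Finset.prod_inv_distrib,
      ← Finset.prod_mul_distrib]
    refine Finset.prod_congr rfl fun i _ => ?_
    have h1 : (((z i : ZMod p)).val : ℤ) = z i % (p : ℤ) := ZMod.val_intCast (z i)
    have h2 : z i = z i % (p : ℤ) + (p : ℤ) * (z i / (p : ℤ)) := (Int.emod_add_mul_ediv _ _).symm
    rw [← zpow_natCast (x i) ((z i : ZMod p)).val, h1, ← zpow_natCast _ p, ← zpow_mul,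
      ← zpow_neg, ← zpow_add]
    congr 1
    linarith [h2, mul_comm (z i / (p : ℤ)) (p : ℤ)]
  have : Finite (G ⧸ P) := Finite.of_surjective F hF
  refine ⟨inferInstance, ?_⟩
  calc Nat.card (G ⧸ P) ≤ Nat.card (ι → ZMod p) := Nat.card_le_card_of_surjective F hF
    _ = p ^ Fintype.card ι := by
      rw [Nat.card_eq_fintype_card, Fintype.card_fun, ZMod.card]

end Generic

/-! ### B1: `x ^ p` is congruent to a rational integer modulo `p` -/

section B1

variable {p : ℕ} [hp : Fact p.Prime] (K : Type) [Field K] [NumberField K]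
  [IsCyclotomicExtension {p} ℚ K]

/-- In the ring of integers of the `p`-th cyclotomic field, every `p`-th power is congruent to a
rational integer modulo `p`. -/
theorem exists_int_pow_prime_sub_dvd (x : 𝓞 K) : ∃ n : ℤ, (p : 𝓞 K) ∣ x ^ p - (n : 𝓞 K) := by
  have hζ := IsCyclotomicExtension.zeta_spec p ℚ K
  let pB := hζ.integralPowerBasis
  have hx : x ∈ Algebra.adjoin ℤ ({pB.gen} : Set (𝓞 K)) := by
    rw [pB.adjoin_gen_eq_top]; trivial
  induction hx using Algebra.adjoin_induction with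
  | mem y hy =>
    rw [Set.mem_singleton_iff] at hy
    subst hy
    refine ⟨1, ?_⟩
    rw [hζ.integralPowerBasis_gen, hζ.toInteger_isPrimitiveRoot.pow_eq_one]
    simp
  | algebraMap r =>
    refine ⟨r ^ p, ?_⟩
    simp
  | add a b _ _ ha hb =>
    obtain ⟨na, ka, hka⟩ := ha
    obtain ⟨nb, kb, hkb⟩ := hb
    refine ⟨na + nb, ?_⟩
    rw [add_pow_prime_eq hp.out]
    refine ⟨ka + kb + a * b * ∑ k ∈ Finset.Ioo 0 p, a ^ (k - 1) * b ^ (p - k - 1) *
      ((p.choose k / p : ℕ) : 𝓞 K), ?_⟩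
    push_cast
    linear_combination hka + hkb
  | mul a b _ _ ha hb =>
    obtain ⟨na, ka, hka⟩ := ha
    obtain ⟨nb, kb, hkb⟩ := hb
    refine ⟨na * nb, ka * b ^ p + (na : 𝓞 K) * kb, ?_⟩
    push_cast
    linear_combination b ^ p * hka + (na : 𝓞 K) * hkb

end B1

/-! ### Kummer's lemma from an independence hypothesis -/

section Main

variable (p : ℕ) [hp : Fact p.Prime] (K : Type) [Field K] [NumberField K]
  [IsCyclotomicExtension {p} ℚ K]

/-- The submonoid of units congruent to a rational integer modulo `p`. -/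
def intUnitsSubmonoid : Submonoid (𝓞 K)ˣ where
  carrier := {u | ∃ n : ℤ, (p : 𝓞 K) ∣ (u : 𝓞 K) - (n : 𝓞 K)}
  one_mem' := ⟨1, by simp⟩
  mul_mem' := by
    rintro u v ⟨n, k, hk⟩ ⟨n', k', hk'⟩
    refine ⟨n * n', k * (v : 𝓞 K) + (n : 𝓞 K) * k', ?_⟩
    push_cast
    linear_combination (v : 𝓞 K) * hk + (n : 𝓞 K) * hk'

theorem pow_prime_mem_intUnitsSubmonoid (v : (𝓞 K)ˣ) : v ^ p ∈ intUnitsSubmonoid p K := by
  obtain ⟨n, hn⟩ := exists_int_pow_prime_sub_dvd (p := p) K (v : 𝓞 K)
  exact ⟨n, by simpa using hn⟩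

/-- The subgroup of units congruent to a rational integer modulo `p`. -/
def intUnits : Subgroup (𝓞 K)ˣ where
  toSubmonoid := intUnitsSubmonoid p K
  inv_mem' := by
    intro u hu
    have h1 : u⁻¹ = u ^ (p - 1) * (u⁻¹) ^ p := by
      have hp1 : p - 1 + 1 = p := Nat.sub_add_cancel hp.out.one_le
      rw [inv_pow, eq_mul_inv_iff_mul_eq]
      conv_lhs => rw [← hp1, pow_succ']
      rw [inv_mul_cancel_left]
    show u⁻¹ ∈ intUnitsSubmonoid p K
    rw [h1]
    exact (intUnitsSubmonoid p K).mul_mem ((intUnitsSubmonoid p K).pow_mem hu _)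
      (pow_prime_mem_intUnitsSubmonoid p K u⁻¹)

theorem mem_intUnits_iff (u : (𝓞 K)ˣ) :
    u ∈ intUnits p K ↔ ∃ n : ℤ, (p : 𝓞 K) ∣ (u : 𝓞 K) - (n : 𝓞 K) := Iff.rfl

theorem range_pow_le_intUnits : (powMonoidHom p : (𝓞 K)ˣ →* (𝓞 K)ˣ).range ≤ intUnits p K := by
  rintro _ ⟨v, rfl⟩
  exact pow_prime_mem_intUnitsSubmonoid p K v

/-- The unit group of the `p`-th cyclotomic field is generated by `(p - 1) / 2` elements. -/
theorem card_quotient_units_pow_le (hp2 : p ≠ 2) (m : ℕ) (hm : 2 * m + 1 = p) :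
    Finite ((𝓞 K)ˣ ⧸ (powMonoidHom p : (𝓞 K)ˣ →* (𝓞 K)ˣ).range) ∧
      Nat.card ((𝓞 K)ˣ ⧸ (powMonoidHom p : (𝓞 K)ˣ →* (𝓞 K)ˣ).range) ≤ p ^ m := by
  classical
  have : NeZero p := ⟨hp.out.ne_zero⟩
  have hp3 : 2 < p := lt_of_le_of_ne hp.out.two_le (Ne.symm hp2)
  -- the rank
  have hrank : Units.rank K + 1 = m := by
    have h1 : Fintype.card (InfinitePlace K) = m := by
      rw [InfinitePlace.card_eq_nrRealPlaces_add_nrComplexPlaces,
        IsCyclotomicExtension.Rat.nrRealPlaces_eq_zero K hp3,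
        IsCyclotomicExtension.Rat.nrComplexPlaces_eq_totient_div_two p K,
        Nat.totient_prime hp.out]
      omega
    rw [Units.rank, h1]
    omega
  obtain ⟨t, ht⟩ := IsCyclic.exists_generator (α := Units.torsion K)
  let x : Option (Fin (Units.rank K)) → (𝓞 K)ˣ := fun o =>
    match o with
    | none => (t : (𝓞 K)ˣ)
    | some i => Units.fundSystem K i
  have hx : Subgroup.closure (Set.range x) = ⊤ := by
    rw [eq_top_iff, ← Units.closure_fundSystem_sup_torsion_eq_top K]
    refine sup_le (Subgroup.closure_mono ?_) ?_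
    · rintro _ ⟨i, rfl⟩
      exact ⟨some i, rfl⟩
    · intro y hy
      obtain ⟨k, hk⟩ := Subgroup.mem_zpowers_iff.mp (ht ⟨y, hy⟩)
      have hk' : (t : (𝓞 K)ˣ) ^ k = y := by
        have := congrArg (Subtype.val : Units.torsion K → (𝓞 K)ˣ) hk
        simpa using this
      rw [← hk']
      exact Subgroup.zpow_mem _ (Subgroup.subset_closure (Set.mem_range_self none)) k
  have key := card_quotient_range_pow_le x hx p
  rw [Fintype.card_option, Fintype.card_fin, hrank] at key
  exact key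

/-- **Kummer's lemma from independence.** Let `p` be an odd prime, `K` the `p`-th cyclotomic field,
and `g` a family of `(p - 1) / 2` units which is independent modulo units congruent to a rational
integer mod `p` (in the sense of `hindep`). Then every unit congruent to a rational integer modulo
`p` is a `p`-th power. -/
theorem kummerLemma_of_indep' (hp2 : p ≠ 2) (m : ℕ) (hm : 2 * m + 1 = p)
    (g : Fin m → (𝓞 K)ˣ)
    (hindep : ∀ e : Fin m → ℕ, (∀ i, e i < p) →
      (∃ n : ℤ, (p : 𝓞 K) ∣ (∏ i, ((g i : (𝓞 K)ˣ) : 𝓞 K) ^ e i) - (n : 𝓞 K)) → ∀ i, e i = 0) :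
    ∀ (u : (𝓞 K)ˣ) (n : ℤ), (p : 𝓞 K) ∣ (u : 𝓞 K) - (n : 𝓞 K) → ∃ v : (𝓞 K)ˣ, u = v ^ p := by
  classical
  have : NeZero p := ⟨hp.out.ne_zero⟩
  set P : Subgroup (𝓞 K)ˣ := (powMonoidHom p : (𝓞 K)ˣ →* (𝓞 K)ˣ).range with hP
  set H : Subgroup (𝓞 K)ˣ := intUnits p K with hH
  have hPH : P ≤ H := range_pow_le_intUnits p K
  obtain ⟨hfin, hcard⟩ := card_quotient_units_pow_le p K hp2 m hm
  -- `P` has finite index at most `p ^ m`
  have hPindex : P.index ≤ p ^ m := hcard
  have hPindex0 : P.index ≠ 0 := by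
    have : Finite ((𝓞 K)ˣ ⧸ P) := hfin
    exact Subgroup.index_ne_zero_of_finite
  have hHindex0 : H.index ≠ 0 := fun h0 => hPindex0 (by
    have := Subgroup.relIndex_mul_index hPH
    rw [h0, mul_zero] at this
    exact this.symm)
  have : Finite ((𝓞 K)ˣ ⧸ H) := Nat.finite_of_card_ne_zero hHindex0
  -- the injection
  let Φ : (Fin m → ZMod p) → (𝓞 K)ˣ ⧸ H := fun e => QuotientGroup.mk (∏ i, g i ^ (e i).val)
  have hΦ : Function.Injective Φ := by
    intro e e' hee'
    have h1 : (∏ i, g i ^ (e i).val)⁻¹ * ∏ i, g i ^ (e' i).val ∈ H := QuotientGroup.eq.mp hee'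
    -- the difference exponents
    let d : Fin m → ℕ := fun i => ((e' i - e i : ZMod p)).val
    have hd : ∀ i, d i < p := fun i => ZMod.val_lt _
    have h2 : ∏ i, g i ^ d i ∈ H := by
      -- `g ^ d = (g ^ e)⁻¹ * g ^ e' * (g ^ k) ^ p`
      have hk : ∀ i, ∃ k : ℕ, d i + (e i).val = (e' i).val + p * k := by
        intro i
        have hmod : (d i + (e i).val) % p = (e' i).val % p := by
          have : ((d i + (e i).val : ℕ) : ZMod p) = (((e' i).val : ℕ) : ZMod p) := by
            push_cast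
            simp only [d, ZMod.natCast_val, ZMod.cast_id', id_eq]
            ring
          exact (ZMod.natCast_eq_natCast_iff' _ _ _).mp this
        have hlt : (e' i).val < p := ZMod.val_lt _
        rw [Nat.mod_eq_of_lt hlt] at hmod
        exact ⟨(d i + (e i).val) / p, by rw [← hmod]; exact (Nat.mod_add_div _ _).symm⟩
      choose k hk using hk
      have h3 : ∏ i, g i ^ d i =
          ((∏ i, g i ^ (e i).val)⁻¹ * ∏ i, g i ^ (e' i).val) * (∏ i, g i ^ k i) ^ p := by
        rw [← Finset.prod_inv_distrib, ← Finset.prod_mul_distrib, ← Finset.prod_pow,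
          ← Finset.prod_mul_distrib]
        refine Finset.prod_congr rfl fun i _ => ?_
        rw [eq_comm, mul_assoc, inv_mul_eq_iff_eq_mul, ← pow_mul, ← pow_add, ← pow_add,
          mul_comm (k i) p, ← hk i, add_comm]
      rw [h3]
      exact H.mul_mem h1 (hPH ⟨_, rfl⟩)
    have h4 : ∀ i, d i = 0 := by
      refine hindep d hd ?_
      obtain ⟨n, hn⟩ := (mem_intUnits_iff p K _).mp h2
      refine ⟨n, ?_⟩
      simpa [Units.coe_prod] using hn
    funext i
    have := h4 i
    simp only [d, ZMod.val_eq_zero, sub_eq_zero] at this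
    exact this.symm
  have hHindex : p ^ m ≤ H.index := by
    calc p ^ m = Nat.card (Fin m → ZMod p) := by
          rw [Nat.card_eq_fintype_card, Fintype.card_fun, ZMod.card, Fintype.card_fin]
      _ ≤ Nat.card ((𝓞 K)ˣ ⧸ H) := Nat.card_le_card_of_injective Φ hΦ
  -- conclude `H ≤ P`
  have hrel : P.relIndex H = 1 := by
    have hmul := Subgroup.relIndex_mul_index hPH
    have hle : P.relIndex H * H.index ≤ H.index := by
      rw [hmul]; exact hPindex.trans hHindex
    have hpos : 0 < P.relIndex H := by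
      rcases Nat.eq_zero_or_pos (P.relIndex H) with h0 | h0
      · rw [h0, zero_mul] at hmul
        exact absurd hmul.symm hPindex0
      · exact h0
    have hle1 : P.relIndex H ≤ 1 := by
      by_contra hcon
      rw [not_le] at hcon
      have : 2 * H.index ≤ P.relIndex H * H.index := Nat.mul_le_mul_right _ hcon
      have hHpos : 0 < H.index := Nat.pos_of_ne_zero hHindex0
      omega
    omega
  have hHP : H ≤ P := Subgroup.relIndex_eq_one.mp hrel
  intro u n hun
  obtain ⟨v, hv⟩ := hHP ((mem_intUnits_iff p K u).mpr ⟨n, hun⟩)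
  exact ⟨v, hv.symm⟩

end Main

/-- **Kummer's lemma from independence** (implicit-`p` version). -/
theorem kummerLemma_of_indep {p : ℕ} [Fact p.Prime] (hp2 : p ≠ 2) (K : Type) [Field K]
    [NumberField K] [IsCyclotomicExtension {p} ℚ K] (m : ℕ) (hm : 2 * m + 1 = p)
    (g : Fin m → (𝓞 K)ˣ)
    (hindep : ∀ e : Fin m → ℕ, (∀ i, e i < p) →
      (∃ n : ℤ, (p : 𝓞 K) ∣ (∏ i, ((g i : (𝓞 K)ˣ) : 𝓞 K) ^ e i) - (n : 𝓞 K)) → ∀ i, e i = 0) :
    ∀ (u : (𝓞 K)ˣ) (n : ℤ), (p : 𝓞 K) ∣ (u : 𝓞 K) - (n : 𝓞 K) → ∃ v : (𝓞 K)ˣ, u = v ^ p :=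
  kummerLemma_of_indep' p K hp2 m hm g hindep

end Fermat.Agent.FLTReg
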