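import Mathlib
import Fermat.Agent.Lib.FLTReg.KummerGeneric

set_option autoImplicit false

open NumberField Polynomial

namespace Fermat.Agent.FLTReg

section Transfer

variable {p : ℕ} [hp : Fact p.Prime]

/-- Over `ZMod p`, the `p`-th cyclotomic polynomial is `(X - 1) ^ (p - 1)`. -/
theorem cyclotomic_zmod_eq_X_sub_one_pow :
    cyclotomic p (ZMod p) = (X - 1 : (ZMod p)[X]) ^ (p - 1) := by
  have h1 : ¬ p ∣ 1 := fun h => hp.out.one_lt.not_ge (Nat.le_of_dvd one_pos h)
  have := cyclotomic_mul_prime_eq_pow_of_not_dvd (ZMod p) (p := p) (n := 1) h1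
  rwa [one_mul, cyclotomic_one] at this

variable (K : Type) [Field K] [NumberField K] [IsCyclotomicExtension {p} ℚ K]

/-- **Transfer.** If `f(ζ) ≡ n (mod p)` in the ring of integers of the `p`-th cyclotomic field,
then `f ≡ n` modulo `(X - 1) ^ (p - 1)` in `(ZMod p)[X]`. -/
theorem dvd_map_sub_C_of_dvd_aeval_sub {ζ : 𝓞 K} (hζ : IsPrimitiveRoot ζ p) (f : ℤ[X]) (n : ℤ)
    (h : (p : 𝓞 K) ∣ aeval ζ f - (n : 𝓞 K)) :
    (X - 1 : (ZMod p)[X]) ^ (p - 1) ∣ f.map (Int.castRingHom (ZMod p)) - C (n : ZMod p) := by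
  have : NeZero p := ⟨hp.out.ne_zero⟩
  have hζK : IsPrimitiveRoot (ζ : K) p := hζ.map_of_injective RingOfIntegers.coe_injective
  let pB := hζK.integralPowerBasis
  have hgen : pB.gen = ζ := by rw [hζK.integralPowerBasis_gen]; rfl
  obtain ⟨y, hy⟩ := h
  obtain ⟨g, hg⟩ := pB.exists_eq_aeval' y
  rw [hgen] at hg
  set F : ℤ[X] := f - C n - C (p : ℤ) * g with hF
  have hF0 : aeval ζ F = 0 := by
    simp only [hF, map_sub, map_mul, aeval_C, ← hg]
    rw [sub_eq_zero]
    simpa using hy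
  have hF0K : aeval (ζ : K) F = 0 := by
    have := aeval_algebraMap_apply K ζ F
    rw [hF0, map_zero] at this
    exact this
  have hdvd : cyclotomic p ℤ ∣ F := by
    rw [cyclotomic_eq_minpoly hζK hp.out.pos]
    exact minpoly.isIntegrallyClosed_dvd (hζK.isIntegral hp.out.pos) hF0K
  obtain ⟨q, hq⟩ := hdvd
  refine ⟨q.map (Int.castRingHom (ZMod p)), ?_⟩
  have hmap := congrArg (Polynomial.map (Int.castRingHom (ZMod p))) hq
  rw [Polynomial.map_mul, map_cyclotomic_int, cyclotomic_zmod_eq_X_sub_one_pow] at hmap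
  rw [← hmap, hF]
  simp

end Transfer

section Bridge

variable {p : ℕ} [hp : Fact p.Prime] (K : Type) [Field K] [NumberField K]
  [IsCyclotomicExtension {p} ℚ K]

/-- **Kummer's lemma from polynomial independence.** If the integer polynomials `s i`
(`i < (p - 1) / 2`) evaluate to units at primitive `p`-th roots of unity and are independent in
the sense of `hpoly` (a pure statement about `(ZMod p)[X]`), then Kummer's lemma holds for `p`. -/
theorem kummerLemma_of_indepPoly (hp2 : p ≠ 2) (m : ℕ) (hm : 2 * m + 1 = p) (s : Fin m → ℤ[X])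
    (hunit : ∀ ζ : 𝓞 K, IsPrimitiveRoot ζ p → ∀ i, IsUnit (aeval ζ (s i)))
    (hpoly : ∀ (e : Fin m → ℕ) (c : ZMod p),
      (X - 1 : (ZMod p)[X]) ^ (p - 1) ∣
        ∏ i, ((s i).map (Int.castRingHom (ZMod p))) ^ e i - C c → ∀ i, p ∣ e i) :
    ∀ (u : (𝓞 K)ˣ) (n : ℤ), (p : 𝓞 K) ∣ (u : 𝓞 K) - (n : 𝓞 K) → ∃ v : (𝓞 K)ˣ, u = v ^ p := by
  have : NeZero p := ⟨hp.out.ne_zero⟩
  have hζK := IsCyclotomicExtension.zeta_spec p ℚ K
  have hζ : IsPrimitiveRoot hζK.toInteger p := hζK.toInteger_isPrimitiveRoot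
  set ζ : 𝓞 K := hζK.toInteger with hζdef
  refine kummerLemma_of_indep hp2 K m hm (fun i => (hunit ζ hζ i).unit) ?_
  intro e he hn i
  obtain ⟨n, hn⟩ := hn
  have hprod : (∏ i, (((hunit ζ hζ i).unit : (𝓞 K)ˣ) : 𝓞 K) ^ e i) = aeval ζ (∏ i, s i ^ e i) := by
    rw [map_prod]
    exact Finset.prod_congr rfl fun j _ => by rw [map_pow, IsUnit.unit_spec]
  rw [hprod] at hn
  have hT := dvd_map_sub_C_of_dvd_aeval_sub K hζ (∏ i, s i ^ e i) n hn
  rw [Polynomial.map_prod] at hT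
  simp only [Polynomial.map_pow] at hT
  have hdvd := hpoly e (n : ZMod p) hT i
  exact Nat.eq_zero_of_dvd_of_lt hdvd (he i)

/-- The polynomials `X, 1 + X, 1 + X + X², …` evaluate to units at a primitive `p`-th root of
unity (as long as the number of terms is `< p`). -/
theorem isUnit_aeval_unitPoly_shape {A : Type*} [CommRing A] [IsDomain A] {ζ : A}
    (hζ : IsPrimitiveRoot ζ p) (i : ℕ) (hi : i + 1 < p) :
    IsUnit (aeval ζ (if i = 0 then (X : ℤ[X]) else ∑ j ∈ Finset.range (i + 1), X ^ j)) := by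
  split_ifs with h0
  · rw [aeval_X]
    exact hζ.isUnit hp.out.ne_zero
  · rw [map_sum]
    simp only [map_pow, aeval_X]
    refine hζ.geom_sum_isUnit hp.out.two_le ?_
    exact Nat.Coprime.symm ((Nat.Prime.coprime_iff_not_dvd hp.out).mpr
      (Nat.not_dvd_of_pos_of_lt (Nat.succ_pos i) hi))

end Bridge

end Fermat.Agent.FLTReg
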