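import Mathlib
import Fermat.Agent.Lib.FLTReg.Defs
import Fermat.Agent.Lib.FLTReg.KummerTransfer
import Fermat.Agent.Lib.FLTReg.IndepPoly

/-!
# Kummer's lemma for the prime `13`
-/

set_option autoImplicit false

namespace Fermat.Agent.FLTReg

open NumberField Polynomial

/-- **Kummer's lemma for `p = 13`**: a unit of `ℤ[ζ]` (`ζ` a primitive `13`-th root of unity)
congruent to a rational integer modulo `13` is a `13`-th power of a unit. -/
theorem kummerLemma_thirteen (K : Type) [Field K] [NumberField K]
    [IsCyclotomicExtension {13} ℚ K] : KummerLemma 13 K := by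
  have : Fact (Nat.Prime 13) := ⟨by norm_num⟩
  exact kummerLemma_of_indepPoly (p := 13) K (by norm_num) 6 (by norm_num)
    (fun i => unitPoly i)
    (fun ζ hζ i => by
      have h1 := isUnit_aeval_unitPoly_shape (p := 13) hζ (i : ℕ) (by have := i.isLt; omega)
      simpa [unitPoly] using h1)
    (fun e c h => indepPoly_thirteen e c h)

end Fermat.Agent.FLTReg
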