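import Mathlib
import Fermat.Agent.Lib.FLTReg.Defs
import Fermat.Agent.Lib.FLTReg.KummerTransfer
import Fermat.Agent.Lib.FLTReg.IndepPoly

/-!
# Kummer's lemma for the primes `5`, `7`, `13`
-/

set_option autoImplicit false

namespace Fermat.Agent.FLTReg.KummerSmall

open NumberField Polynomial Fermat.Agent.FLTReg

/-- **Kummer's lemma for `p = 5`**. -/
theorem kummerLemma_five (K : Type) [Field K] [NumberField K]
    [IsCyclotomicExtension {5} ℚ K] : KummerLemma 5 K := by
  haveI : Fact (Nat.Prime 5) := ⟨by norm_num⟩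
  exact kummerLemma_of_indepPoly (p := 5) K (by norm_num) 2 (by norm_num)
    (fun i : Fin 2 => unitPoly (i : ℕ))
    (fun ζ hζ i => by
      have h1 := isUnit_aeval_unitPoly_shape (p := 5) hζ (i : ℕ) (by have := i.isLt; omega)
      simpa [unitPoly] using h1)
    (fun e c h => indepPoly_five e c h)

/-- **Kummer's lemma for `p = 7`**. -/
theorem kummerLemma_seven (K : Type) [Field K] [NumberField K]
    [IsCyclotomicExtension {7} ℚ K] : KummerLemma 7 K := by
  haveI : Fact (Nat.Prime 7) := ⟨by norm_num⟩
  exact kummerLemma_of_indepPoly (p := 7) K (by norm_num) 3 (by norm_num)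
    (fun i : Fin 3 => unitPoly (i : ℕ))
    (fun ζ hζ i => by
      have h1 := isUnit_aeval_unitPoly_shape (p := 7) hζ (i : ℕ) (by have := i.isLt; omega)
      simpa [unitPoly] using h1)
    (fun e c h => indepPoly_seven e c h)

/-- **Kummer's lemma for `p = 13`**. -/
theorem kummerLemma_thirteen (K : Type) [Field K] [NumberField K]
    [IsCyclotomicExtension {13} ℚ K] : KummerLemma 13 K := by
  haveI : Fact (Nat.Prime 13) := ⟨by norm_num⟩
  exact kummerLemma_of_indepPoly (p := 13) K (by norm_num) 6 (by norm_num)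
    (fun i : Fin 6 => unitPoly (i : ℕ))
    (fun ζ hζ i => by
      have h1 := isUnit_aeval_unitPoly_shape (p := 13) hζ (i : ℕ) (by have := i.isLt; omega)
      simpa [unitPoly] using h1)
    (fun e c h => indepPoly_thirteen e c h)

end Fermat.Agent.FLTReg.KummerSmall
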