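import Mathlib

/-!
# Tools for proving that `ℤ[ζ_p]` is a PID (Minkowski bound + explicit generators)

Generic lemmas about primes of the `p`-th cyclotomic field used by `PID7`, `PID11`, `PID13`.
-/

set_option autoImplicit false

namespace Fermat.Agent.FLTReg

open NumberField Polynomial Ideal Module RingOfIntegers NumberField.Ideal IsCyclotomicExtension

section generic

variable (p : ℕ) [hp : Fact p.Prime] (K : Type) [Field K] [NumberField K]
  [hK : IsCyclotomicExtension {p} ℚ K]

/-- The canonical primitive root of the `p`-th cyclotomic field, as an algebraic integer. -/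
noncomputable abbrev zetaInt : 𝓞 K := (zeta_spec p ℚ K).toInteger

theorem minpoly_zetaInt : minpoly ℤ (zetaInt p K) = cyclotomic p ℤ := by
  rw [cyclotomic_eq_minpoly (zeta_spec p ℚ K) hp.out.pos, ← (zeta_spec p ℚ K).coe_toInteger,
    ← RingOfIntegers.minpoly_coe]
  rfl

theorem not_dvd_exponent_zetaInt (q : ℕ) [hq : Fact q.Prime] : ¬ q ∣ exponent (zetaInt p K) := by
  rw [exponent_eq_one_iff.mpr <| IsCyclotomicExtension.Rat.adjoin_singleton_eq_top (zeta_spec p ℚ K)]
  exact hq.out.not_dvd_one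

theorem geom_sum_zetaInt : ∑ i ∈ Finset.range p, (zetaInt p K) ^ i = 0 := by
  have h := (zeta_spec p ℚ K).toInteger_isPrimitiveRoot
  exact h.geom_sum_eq_zero hp.out.one_lt

/-- For a prime `q ≠ p` there is a prime above `q` whose inertia degree is the order of `q`
modulo `p`. -/
theorem exists_primesOver_inertiaDeg (q : ℕ) [hq : Fact q.Prime] (hqp : q ≠ p) :
    ∃ P ∈ primesOver (span {(q : ℤ)}) (𝓞 K), P.inertiaDeg ℤ = orderOf (q : ZMod p) := by
  obtain ⟨⟨P, hP1, hP2⟩⟩ := (span {(q : ℤ)}).nonempty_primesOver (S := 𝓞 K)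
  refine ⟨P, ⟨hP1, hP2⟩, ?_⟩
  have hm : ¬ q ∣ p := fun h => hqp ((Nat.prime_dvd_prime_iff_eq hq.out hp.out).mp h)
  exact IsCyclotomicExtension.Rat.inertiaDeg_eq_of_not_dvd q K P hm

/-- Certificate lemma: a prime above `q` of the shape `(q, Q(ζ))` which is principal. -/
theorem exists_principal_primesOver (q : ℕ) [hq : Fact q.Prime] (Q : ℤ[X])
    (hQ : Q.map (Int.castRingHom (ZMod q)) ∈ monicFactorsMod (zetaInt p K) q)
    (α β γ μ δ : 𝓞 K) (h1 : α * β = (q : 𝓞 K)) (h2 : α * γ = aeval (zetaInt p K) Q)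
    (h3 : α = (q : 𝓞 K) * μ + aeval (zetaInt p K) Q * δ) :
    ∃ P ∈ primesOver (span {(q : ℤ)}) (𝓞 K), Submodule.IsPrincipal P := by
  have hexp := not_dvd_exponent_zetaInt p K q
  have hmem := ((primesOverSpanEquivMonicFactorsMod hexp).symm ⟨_, hQ⟩).prop
  rw [primesOverSpanEquivMonicFactorsMod_symm_apply_eq_span hexp hQ] at hmem
  refine ⟨_, hmem, ?_⟩
  have : span {(q : 𝓞 K), aeval (zetaInt p K) Q} = span {α} := by
    apply le_antisymm
    · rw [span_le]
      intro x hx
      rcases hx with rfl | rfl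
      · exact mem_span_singleton.mpr ⟨β, h1.symm⟩
      · exact mem_span_singleton.mpr ⟨γ, h2.symm⟩
    · rw [span_le]
      intro x hx
      rw [Set.mem_singleton_iff] at hx
      subst hx
      rw [h3]
      exact add_mem (mul_mem_right _ _ (subset_span (by simp)))
        (mul_mem_right _ _ (subset_span (by simp)))
  rw [this]
  exact ⟨⟨α, rfl⟩⟩

/-- A linear polynomial `X - t` is a monic factor of the cyclotomic polynomial modulo `q` as
soon as `t` is a root modulo `q`. -/
theorem X_sub_C_mem_monicFactorsMod (q : ℕ) [hq : Fact q.Prime] (t : ℤ)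
    (ht : ∑ i ∈ Finset.range p, (t : ZMod q) ^ i = 0) :
    (X - C t : ℤ[X]).map (Int.castRingHom (ZMod q)) ∈ monicFactorsMod (zetaInt p K) q := by
  have h0 : map (Int.castRingHom (ZMod q)) (minpoly ℤ (zetaInt p K)) ≠ 0 :=
    map_monic_ne_zero (minpoly.monic (zetaInt p K).isIntegral)
  have hmap : (X - C t : ℤ[X]).map (Int.castRingHom (ZMod q)) = X - C (t : ZMod q) := by
    simp
  rw [hmap]
  apply Multiset.mem_toFinset.mpr
  apply (Polynomial.mem_normalizedFactors_iff h0).mpr
  refine ⟨irreducible_X_sub_C _, monic_X_sub_C _, ?_⟩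
  rw [dvd_iff_isRoot, minpoly_zetaInt, map_cyclotomic, cyclotomic_prime, IsRoot.def, eval_finsetSum]
  simpa using ht

/-- The prime above `p` is principal. -/
theorem exists_principal_primesOver_self :
    ∃ P ∈ primesOver (span {(p : ℤ)}) (𝓞 K), Submodule.IsPrincipal P := by
  obtain ⟨⟨P, hP1, hP2⟩⟩ := (span {(p : ℤ)}).nonempty_primesOver (S := 𝓞 K)
  refine ⟨P, ⟨hP1, hP2⟩, ?_⟩
  rw [IsCyclotomicExtension.Rat.eq_span_zeta_sub_one_of_liesOver' p K (zeta_spec p ℚ K) P]
  exact ⟨⟨_, rfl⟩⟩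

end generic

end Fermat.Agent.FLTReg

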