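import Mathlib
import Fermat.Agent.Lib.FLTReg.PIDCommon

/-!
# The ring of integers of `ℚ(ζ₁₁)` is a principal ideal domain

Minkowski bound `< 59`; every prime `q ≤ 58` other than `11` and `23` has `q ^ f > 58`; the prime
above `11` is `(ζ - 1)`; a prime above `23` is generated by `1 - ζ + ζ ^ 3`.
-/

set_option autoImplicit false

namespace Fermat.Agent.FLTReg

open NumberField Polynomial Ideal Module RingOfIntegers NumberField.Ideal IsCyclotomicExtension

section eleven

open Nat Real InfinitePlace

variable (K : Type) [Field K] [NumberField K] [IsCyclotomicExtension {11} ℚ K]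

/-- Minkowski bound of the 11-th cyclotomic field is `< 59`. -/
theorem minkowski_eleven :
    ⌊(4 / π) ^ nrComplexPlaces K *
      ((finrank ℚ K)! / (finrank ℚ K) ^ (finrank ℚ K) * √|(discr K : ℝ)|)⌋₊ ≤ 58 := by
  have hp : Fact (Nat.Prime 11) := ⟨by norm_num⟩
  rw [IsCyclotomicExtension.Rat.discr_prime 11 K, IsCyclotomicExtension.finrank (n := 11) K
    (cyclotomic.irreducible_rat (by norm_num)),
    IsCyclotomicExtension.Rat.nrComplexPlaces_eq_totient_div_two 11, totient_prime hp.out]
  have h10 : (10 : ℕ)! = 3628800 := by decide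
  have hd : |(((-1 : ℤ) ^ ((11 - 1) / 2) * ((11 : ℕ) : ℤ) ^ (11 - 2) : ℤ) : ℝ)| = 2357947691 := by
    norm_num
  rw [hd, show (11 - 1 : ℕ) = 10 by norm_num, h10, show (10 / 2 : ℕ) = 5 by norm_num]
  have hsq : √(2357947691 : ℝ) < 48559.8 := by
    rw [Real.sqrt_lt' (by norm_num)]
    norm_num
  have hpi : (4 / π : ℝ) < 4 / 3.1415 := by
    have := Real.pi_gt_d4
    gcongr
  have hpi0 : (0 : ℝ) < 4 / π := by positivity
  have hlt : (4 / π) ^ 5 * (((3628800 : ℕ) : ℝ) / ((10 : ℕ) : ℝ) ^ 10 * √(2357947691 : ℝ)) < 59 := by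
    calc (4 / π) ^ 5 * (((3628800 : ℕ) : ℝ) / ((10 : ℕ) : ℝ) ^ 10 * √(2357947691 : ℝ))
        ≤ (4 / 3.1415) ^ 5 * (((3628800 : ℕ) : ℝ) / ((10 : ℕ) : ℝ) ^ 10 * 48559.8) := by
          gcongr
      _ < 59 := by norm_num
  exact Nat.lt_succ_iff.mp ((Nat.floor_lt' (by norm_num : (59 : ℕ) ≠ 0)).mpr hlt)

theorem large_aux_eleven (q : ℕ) (hq : q.Prime) (hq11 : q ≠ 11) (f : ℕ)
    (hf : orderOf ((q : ℕ) : ZMod 11) = f) (hbig : 58 < q ^ f) :
    ∃ P ∈ primesOver (span {(q : ℤ)}) (𝓞 K),
      ⌊(4 / π) ^ nrComplexPlaces K *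
        ((finrank ℚ K)! / (finrank ℚ K) ^ (finrank ℚ K) * √|(discr K : ℝ)|)⌋₊ < q ^ P.inertiaDeg ℤ ∨
      Submodule.IsPrincipal P := by
  have : Fact (Nat.Prime 11) := ⟨by norm_num⟩
  have : Fact q.Prime := ⟨hq⟩
  obtain ⟨P, hP, hdeg⟩ := exists_primesOver_inertiaDeg 11 K q hq11
  refine ⟨P, hP, Or.inl ?_⟩
  rw [hdeg, hf]
  exact lt_of_le_of_lt (minkowski_eleven K) hbig


theorem exists_principal_twentythree :
    ∃ P ∈ primesOver (span {((23 : ℕ) : ℤ)}) (𝓞 K), Submodule.IsPrincipal P := by
  have ht : ∑ i ∈ Finset.range 11, (((-10 : ℤ)) : ZMod 23) ^ i = 0 := by decide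
  have hp : Fact (Nat.Prime 11) := ⟨by norm_num⟩
  have hq : Fact (Nat.Prime 23) := ⟨by norm_num⟩
  have hgeom := geom_sum_zetaInt 11 K
  simp only [Finset.sum_range_succ, Finset.sum_range_zero, zero_add, pow_zero, pow_one] at hgeom
  set z : 𝓞 K := zetaInt 11 K with hz
  have haeval : aeval z (X - C (-10) : ℤ[X]) = z + 10 := by
    rw [map_sub, aeval_X, aeval_C, algebraMap_int_eq, eq_intCast]; push_cast; ring
  refine exists_principal_primesOver 11 K 23 (X - C (-10))
    (X_sub_C_mem_monicFactorsMod 11 K 23 (-10) ht)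
    (1 - z + z ^ 3)
    (8 - 2 * z - z ^ 2 - 8 * z ^ 3 - 5 * z ^ 4 - 3 * z ^ 5 + 6 * z ^ 6 + 12 * z ^ 7 + 16 * z ^ 8 + 11 * z ^ 9)
    (3 - z - z ^ 2 - 4 * z ^ 3 - 3 * z ^ 4 - 2 * z ^ 5 + 2 * z ^ 6 + 5 * z ^ 7 + 7 * z ^ 8 + 5 * z ^ 9)
    (-43) (99 - 10 * z + z ^ 2) ?_ ?_ ?_
  · push_cast
    linear_combination (-15 + 5 * z + 11 * z ^ 2) * hgeom
  · rw [haeval]
    linear_combination (-7 + 2 * z + 5 * z ^ 2) * hgeom
  · rw [haeval]
    push_cast
    ring
/-- The ring of integers of the `11`-th cyclotomic field is a principal ideal domain. -/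
theorem eleven_pid : IsPrincipalIdealRing (𝓞 K) := by
  have hp : Fact (Nat.Prime 11) := ⟨by norm_num⟩
  have : IsGalois ℚ K := IsCyclotomicExtension.isGalois {11} ℚ K
  apply RingOfIntegers.isPrincipalIdealRing_of_isPrincipal_of_lt_or_isPrincipal_of_mem_primesOver_of_mem_Icc
  intro q hq hprime
  have hq58 : q ≤ 58 := (Finset.mem_Icc.mp hq).2.trans (minkowski_eleven K)
  have hq1 : 1 ≤ q := (Finset.mem_Icc.mp hq).1
  clear hq
  interval_cases q
  · exact absurd hprime (by norm_num)
  · exact large_aux_eleven K 2 (by norm_num) (by norm_num) 10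
      ((orderOf_eq_iff (by norm_num)).mpr ⟨by decide, by decide⟩) (by norm_num)
  · exact large_aux_eleven K 3 (by norm_num) (by norm_num) 5
      ((orderOf_eq_iff (by norm_num)).mpr ⟨by decide, by decide⟩) (by norm_num)
  · exact absurd hprime (by norm_num)
  · exact large_aux_eleven K 5 (by norm_num) (by norm_num) 5
      ((orderOf_eq_iff (by norm_num)).mpr ⟨by decide, by decide⟩) (by norm_num)
  · exact absurd hprime (by norm_num)
  · exact large_aux_eleven K 7 (by norm_num) (by norm_num) 10
      ((orderOf_eq_iff (by norm_num)).mpr ⟨by decide, by decide⟩) (by norm_num)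
  · exact absurd hprime (by norm_num)
  · exact absurd hprime (by norm_num)
  · exact absurd hprime (by norm_num)
  · obtain ⟨P, hP, hpr⟩ := exists_principal_primesOver_self 11 K
    exact ⟨P, hP, Or.inr hpr⟩
  · exact absurd hprime (by norm_num)
  · exact large_aux_eleven K 13 (by norm_num) (by norm_num) 10
      ((orderOf_eq_iff (by norm_num)).mpr ⟨by decide, by decide⟩) (by norm_num)
  · exact absurd hprime (by norm_num)
  · exact absurd hprime (by norm_num)
  · exact absurd hprime (by norm_num)
  · exact large_aux_eleven K 17 (by norm_num) (by norm_num) 10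
      ((orderOf_eq_iff (by norm_num)).mpr ⟨by decide, by decide⟩) (by norm_num)
  · exact absurd hprime (by norm_num)
  · exact large_aux_eleven K 19 (by norm_num) (by norm_num) 10
      ((orderOf_eq_iff (by norm_num)).mpr ⟨by decide, by decide⟩) (by norm_num)
  · exact absurd hprime (by norm_num)
  · exact absurd hprime (by norm_num)
  · exact absurd hprime (by norm_num)
  · obtain ⟨P, hP, hpr⟩ := exists_principal_twentythree K
    exact ⟨P, hP, Or.inr hpr⟩
  · exact absurd hprime (by norm_num)
  · exact absurd hprime (by norm_num)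
  · exact absurd hprime (by norm_num)
  · exact absurd hprime (by norm_num)
  · exact absurd hprime (by norm_num)
  · exact large_aux_eleven K 29 (by norm_num) (by norm_num) 10
      ((orderOf_eq_iff (by norm_num)).mpr ⟨by decide, by decide⟩) (by norm_num)
  · exact absurd hprime (by norm_num)
  · exact large_aux_eleven K 31 (by norm_num) (by norm_num) 5
      ((orderOf_eq_iff (by norm_num)).mpr ⟨by decide, by decide⟩) (by norm_num)
  · exact absurd hprime (by norm_num)
  · exact absurd hprime (by norm_num)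
  · exact absurd hprime (by norm_num)
  · exact absurd hprime (by norm_num)
  · exact absurd hprime (by norm_num)
  · exact large_aux_eleven K 37 (by norm_num) (by norm_num) 5
      ((orderOf_eq_iff (by norm_num)).mpr ⟨by decide, by decide⟩) (by norm_num)
  · exact absurd hprime (by norm_num)
  · exact absurd hprime (by norm_num)
  · exact absurd hprime (by norm_num)
  · exact large_aux_eleven K 41 (by norm_num) (by norm_num) 10
      ((orderOf_eq_iff (by norm_num)).mpr ⟨by decide, by decide⟩) (by norm_num)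
  · exact absurd hprime (by norm_num)
  · exact large_aux_eleven K 43 (by norm_num) (by norm_num) 2
      ((orderOf_eq_iff (by norm_num)).mpr ⟨by decide, by decide⟩) (by norm_num)
  · exact absurd hprime (by norm_num)
  · exact absurd hprime (by norm_num)
  · exact absurd hprime (by norm_num)
  · exact large_aux_eleven K 47 (by norm_num) (by norm_num) 5
      ((orderOf_eq_iff (by norm_num)).mpr ⟨by decide, by decide⟩) (by norm_num)
  · exact absurd hprime (by norm_num)
  · exact absurd hprime (by norm_num)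
  · exact absurd hprime (by norm_num)
  · exact absurd hprime (by norm_num)
  · exact absurd hprime (by norm_num)
  · exact large_aux_eleven K 53 (by norm_num) (by norm_num) 5
      ((orderOf_eq_iff (by norm_num)).mpr ⟨by decide, by decide⟩) (by norm_num)
  · exact absurd hprime (by norm_num)
  · exact absurd hprime (by norm_num)
  · exact absurd hprime (by norm_num)
  · exact absurd hprime (by norm_num)
  · exact absurd hprime (by norm_num)


end eleven


end Fermat.Agent.FLTReg
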