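import Mathlib

namespace Fermat.Agent.FLTReg

open NumberField Polynomial Ideal IsCyclotomicExtension RingOfIntegers NumberField.Ideal

section

variable (K : Type) [Field K] [NumberField K] [IsCyclotomicExtension {13} ℚ K]

/-- the chosen primitive 13-th root of unity as an algebraic integer -/
noncomputable abbrev zeta13 : 𝓞 K := (zeta_spec 13 ℚ K).toInteger

lemma zeta13_geom_sum : ∑ i ∈ Finset.range 13, (zeta13 K) ^ i = 0 := by
  have h := (zeta_spec 13 ℚ K).toInteger_isPrimitiveRoot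
  exact h.geom_sum_eq_zero (by norm_num)

lemma zeta13_geom_sum' : 1 + zeta13 K + zeta13 K ^ 2 + zeta13 K ^ 3 + zeta13 K ^ 4 + zeta13 K ^ 5
    + zeta13 K ^ 6 + zeta13 K ^ 7 + zeta13 K ^ 8 + zeta13 K ^ 9 + zeta13 K ^ 10 + zeta13 K ^ 11
    + zeta13 K ^ 12 = 0 := by
  have h := zeta13_geom_sum K
  simp only [Finset.sum_range_succ, Finset.sum_range_zero, pow_zero, pow_one, zero_add] at h
  exact h

lemma not_dvd_exponent_zeta13 (q : ℕ) [hq : Fact q.Prime] :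
    ¬ q ∣ RingOfIntegers.exponent (zeta13 K) := by
  rw [exponent_eq_one_iff.mpr <| Rat.adjoin_singleton_eq_top (zeta_spec 13 ℚ K)]
  exact hq.out.not_dvd_one

lemma minpoly_zeta13 : minpoly ℤ (zeta13 K) = cyclotomic 13 ℤ := by
  rw [cyclotomic_eq_minpoly (zeta_spec 13 ℚ K) (by norm_num), ← RingOfIntegers.minpoly_coe]
  rfl

lemma exists_isPrincipal_of_root13 (q : ℕ) (r : ℤ)
    (hr : ∑ i ∈ Finset.range 13, (r : ZMod q) ^ i = 0) [hq : Fact q.Prime]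
    (α β₁ β₂ v : 𝓞 K) (u : ℤ)
    (h1 : (q : 𝓞 K) = α * β₁) (h2 : zeta13 K - (r : 𝓞 K) = α * β₂)
    (h3 : α = (q : 𝓞 K) * (u : 𝓞 K) + (zeta13 K - (r : 𝓞 K)) * v) :
    ∃ P ∈ (Ideal.span {(q : ℤ)}).primesOver (𝓞 K), Submodule.IsPrincipal P := by
  have hp13 : Fact (Nat.Prime 13) := ⟨by norm_num⟩
  have hexp := not_dvd_exponent_zeta13 K q
  have hQ : Polynomial.map (Int.castRingHom (ZMod q)) (X - C r) ∈
      monicFactorsMod (zeta13 K) q := by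
    rw [Multiset.mem_toFinset, Polynomial.mem_normalizedFactors_iff
      (map_monic_ne_zero (minpoly.monic (zeta13 K).isIntegral))]
    rw [minpoly_zeta13, map_cyclotomic_int, Polynomial.map_sub, map_X, map_C]
    refine ⟨irreducible_X_sub_C _, monic_X_sub_C _, ?_⟩
    rw [dvd_iff_isRoot, IsRoot.def, cyclotomic_prime, eval_finsetSum]
    simpa using hr
  refine ⟨((primesOverSpanEquivMonicFactorsMod hexp).symm ⟨_, hQ⟩ : Ideal (𝓞 K)),
    Subtype.coe_prop _, ?_⟩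
  rw [primesOverSpanEquivMonicFactorsMod_symm_apply_eq_span hexp hQ]
  refine ⟨α, ?_⟩
  rw [Ideal.submodule_span_eq]
  apply le_antisymm
  · rw [Ideal.span_le]
    intro x hx
    simp only [Set.mem_insert_iff, Set.mem_singleton_iff] at hx
    rcases hx with rfl | rfl
    · exact Ideal.mem_span_singleton.mpr ⟨β₁, h1⟩
    · refine Ideal.mem_span_singleton.mpr ⟨β₂, ?_⟩
      rw [← h2]
      simp
  · rw [Ideal.span_singleton_le_iff_mem]
    rw [h3]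
    exact Ideal.add_mem _ (Ideal.mul_mem_right _ _ (Ideal.subset_span (by simp)))
      (Ideal.mul_mem_right _ _ (Ideal.subset_span (by simp)))


lemma cert53_a {R : Type*} [CommRing R] (z : R)
    (hz : 1 + z + z ^ 2 + z ^ 3 + z ^ 4 + z ^ 5 + z ^ 6 + z ^ 7 + z ^ 8 + z ^ 9 + z ^ 10 + z ^ 11
      + z ^ 12 = 0) :
    ((53 : ℕ) : R) = (1 + z + z ^ 3) *
      (1 - 24 * z - 35 * z ^ 2 - 25 * z ^ 3 - 10 * z ^ 4 - 14 * z ^ 5 - 20 * z ^ 6 - 29 * z ^ 7 - 16 * z ^ 8 - 23 * z ^ 9 - 7 * z ^ 10 - 36 * z ^ 11) := by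
  push_cast
  linear_combination (-(-52 + 29 * z - 36 * z ^ 2)) * hz

lemma cert53_b {R : Type*} [CommRing R] (z : R)
    (hz : 1 + z + z ^ 2 + z ^ 3 + z ^ 4 + z ^ 5 + z ^ 6 + z ^ 7 + z ^ 8 + z ^ 9 + z ^ 10 + z ^ 11
      + z ^ 12 = 0) :
    z - ((36 : ℤ) : R) = (1 + z + z ^ 3) *
      (17 * z + 24 * z ^ 2 + 17 * z ^ 3 + 7 * z ^ 4 + 10 * z ^ 5 + 14 * z ^ 6 + 20 * z ^ 7 + 11 * z ^ 8 + 16 * z ^ 9 + 5 * z ^ 10 + 25 * z ^ 11) := by
  push_cast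
  linear_combination (-(36 - 20 * z + 25 * z ^ 2)) * hz

lemma cert53_c {R : Type*} [CommRing R] (z : R) :
    (1 + z + z ^ 3) = ((53 : ℕ) : R) * (((881) : ℤ) : R) + (z - ((36 : ℤ) : R)) *
      (1297 + 36 * z + z ^ 2) := by
  push_cast
  ring

lemma exists_isPrincipal_over_53 :
    ∃ P ∈ (Ideal.span {((53 : ℕ) : ℤ)}).primesOver (𝓞 K), Submodule.IsPrincipal P := by
  have : Fact (Nat.Prime 53) := ⟨by norm_num⟩
  exact exists_isPrincipal_of_root13 K 53 36 (by decide) _ _ _ _ _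
    (cert53_a (zeta13 K) (zeta13_geom_sum' K)) (cert53_b (zeta13 K) (zeta13_geom_sum' K))
    (cert53_c (zeta13 K))

lemma cert79_a {R : Type*} [CommRing R] (z : R)
    (hz : 1 + z + z ^ 2 + z ^ 3 + z ^ 4 + z ^ 5 + z ^ 6 + z ^ 7 + z ^ 8 + z ^ 9 + z ^ 10 + z ^ 11
      + z ^ 12 = 0) :
    ((79 : ℕ) : R) = (1 + z - z ^ 4) *
      (24 - 25 * z - 27 * z ^ 2 + 10 * z ^ 3 - 3 * z ^ 4 - 39 * z ^ 5 - 5 * z ^ 6 - 2 * z ^ 7 - 18 * z ^ 8 - 38 * z ^ 9 + 16 * z ^ 10 - 35 * z ^ 11) := by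
  push_cast
  linear_combination (-(-55 + 54 * z - 51 * z ^ 2 + 35 * z ^ 3)) * hz

lemma cert79_b {R : Type*} [CommRing R] (z : R)
    (hz : 1 + z + z ^ 2 + z ^ 3 + z ^ 4 + z ^ 5 + z ^ 6 + z ^ 7 + z ^ 8 + z ^ 9 + z ^ 10 + z ^ 11
      + z ^ 12 = 0) :
    z - ((64 : ℤ) : R) = (1 + z - z ^ 4) *
      (-19 + 21 * z + 22 * z ^ 2 - 8 * z ^ 3 + 3 * z ^ 4 + 32 * z ^ 5 + 4 * z ^ 6 + 2 * z ^ 7 + 15 * z ^ 8 + 31 * z ^ 9 - 13 * z ^ 10 + 29 * z ^ 11) := by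
  push_cast
  linear_combination (-(45 - 44 * z + 42 * z ^ 2 - 29 * z ^ 3)) * hz

lemma cert79_c {R : Type*} [CommRing R] (z : R) :
    (1 + z - z ^ 4) = ((79 : ℕ) : R) * (((-212369) : ℤ) : R) + (z - ((64 : ℤ) : R)) *
      (-262143 - 4096 * z - 64 * z ^ 2 - z ^ 3) := by
  push_cast
  ring

lemma exists_isPrincipal_over_79 :
    ∃ P ∈ (Ideal.span {((79 : ℕ) : ℤ)}).primesOver (𝓞 K), Submodule.IsPrincipal P := by
  have : Fact (Nat.Prime 79) := ⟨by norm_num⟩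
  exact exists_isPrincipal_of_root13 K 79 64 (by decide) _ _ _ _ _
    (cert79_a (zeta13 K) (zeta13_geom_sum' K)) (cert79_b (zeta13 K) (zeta13_geom_sum' K))
    (cert79_c (zeta13 K))

lemma cert131_a {R : Type*} [CommRing R] (z : R)
    (hz : 1 + z + z ^ 2 + z ^ 3 + z ^ 4 + z ^ 5 + z ^ 6 + z ^ 7 + z ^ 8 + z ^ 9 + z ^ 10 + z ^ 11
      + z ^ 12 = 0) :
    ((131 : ℕ) : R) = (1 - z - z ^ 3) *
      (111 + 78 * z + 17 * z ^ 2 + 67 * z ^ 3 + 84 * z ^ 4 + 40 * z ^ 5 + 46 * z ^ 6 + 69 * z ^ 7 + 48 * z ^ 8 + 33 * z ^ 9 + 41 * z ^ 10 + 28 * z ^ 11) := by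
  push_cast
  linear_combination (-(-20 - 13 * z - 28 * z ^ 2)) * hz

lemma cert131_b {R : Type*} [CommRing R] (z : R)
    (hz : 1 + z + z ^ 2 + z ^ 3 + z ^ 4 + z ^ 5 + z ^ 6 + z ^ 7 + z ^ 8 + z ^ 9 + z ^ 10 + z ^ 11
      + z ^ 12 = 0) :
    z - ((80 : ℤ) : R) = (1 - z - z ^ 3) *
      (-68 - 47 * z - 10 * z ^ 2 - 41 * z ^ 3 - 51 * z ^ 4 - 24 * z ^ 5 - 28 * z ^ 6 - 42 * z ^ 7 - 29 * z ^ 8 - 20 * z ^ 9 - 25 * z ^ 10 - 17 * z ^ 11) := by
  push_cast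
  linear_combination (-(12 + 8 * z + 17 * z ^ 2)) * hz

lemma cert131_c {R : Type*} [CommRing R] (z : R) :
    (1 - z - z ^ 3) = ((131 : ℕ) : R) * (((-3909) : ℤ) : R) + (z - ((80 : ℤ) : R)) *
      (-6401 - 80 * z - z ^ 2) := by
  push_cast
  ring

lemma exists_isPrincipal_over_131 :
    ∃ P ∈ (Ideal.span {((131 : ℕ) : ℤ)}).primesOver (𝓞 K), Submodule.IsPrincipal P := by
  have : Fact (Nat.Prime 131) := ⟨by norm_num⟩
  exact exists_isPrincipal_of_root13 K 131 80 (by decide) _ _ _ _ _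
    (cert131_a (zeta13 K) (zeta13_geom_sum' K)) (cert131_b (zeta13 K) (zeta13_geom_sum' K))
    (cert131_c (zeta13 K))

lemma cert157_a {R : Type*} [CommRing R] (z : R)
    (hz : 1 + z + z ^ 2 + z ^ 3 + z ^ 4 + z ^ 5 + z ^ 6 + z ^ 7 + z ^ 8 + z ^ 9 + z ^ 10 + z ^ 11
      + z ^ 12 = 0) :
    ((157 : ℕ) : R) = (1 - z + z ^ 2 + z ^ 4) *
      (89 + 86 * z + 42 * z ^ 2 + 77 * z ^ 3 + 67 * z ^ 4 + 25 * z ^ 5 + 37 * z ^ 6 + 56 * z ^ 7 + 73 * z ^ 8 + 113 * z ^ 9 + 124 * z ^ 10 + 76 * z ^ 11) := by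
  push_cast
  linear_combination (-(-68 + 65 * z + 48 * z ^ 2 + 76 * z ^ 3)) * hz

lemma cert157_b {R : Type*} [CommRing R] (z : R)
    (hz : 1 + z + z ^ 2 + z ^ 3 + z ^ 4 + z ^ 5 + z ^ 6 + z ^ 7 + z ^ 8 + z ^ 9 + z ^ 10 + z ^ 11
      + z ^ 12 = 0) :
    z - ((75 : ℤ) : R) = (1 - z + z ^ 2 + z ^ 4) *
      (-43 - 41 * z - 20 * z ^ 2 - 37 * z ^ 3 - 32 * z ^ 4 - 12 * z ^ 5 - 18 * z ^ 6 - 27 * z ^ 7 - 35 * z ^ 8 - 54 * z ^ 9 - 59 * z ^ 10 - 36 * z ^ 11) := by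
  push_cast
  linear_combination (-(32 - 31 * z - 23 * z ^ 2 - 36 * z ^ 3)) * hz

lemma cert157_c {R : Type*} [CommRing R] (z : R) :
    (1 - z + z ^ 2 + z ^ 4) = ((157 : ℕ) : R) * (((201568) : ℤ) : R) + (z - ((75 : ℤ) : R)) *
      (421949 + 5626 * z + 75 * z ^ 2 + z ^ 3) := by
  push_cast
  ring

lemma exists_isPrincipal_over_157 :
    ∃ P ∈ (Ideal.span {((157 : ℕ) : ℤ)}).primesOver (𝓞 K), Submodule.IsPrincipal P := by
  have : Fact (Nat.Prime 157) := ⟨by norm_num⟩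
  exact exists_isPrincipal_of_root13 K 157 75 (by decide) _ _ _ _ _
    (cert157_a (zeta13 K) (zeta13_geom_sum' K)) (cert157_b (zeta13 K) (zeta13_geom_sum' K))
    (cert157_c (zeta13 K))

lemma cert3_a {R : Type*} [CommRing R] (z : R)
    (hz : 1 + z + z ^ 2 + z ^ 3 + z ^ 4 + z ^ 5 + z ^ 6 + z ^ 7 + z ^ 8 + z ^ 9 + z ^ 10 + z ^ 11
      + z ^ 12 = 0) :
    ((3 : ℕ) : R) = (1 + z - z ^ 3) *
      (-1 - z ^ 2 - z ^ 3 - 2 * z ^ 5 - z ^ 7 - 2 * z ^ 8 + z ^ 9 - 3 * z ^ 10) := by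
  push_cast
  linear_combination (-(-4 + 3 * z)) * hz

lemma cyclotomic13_eq_int : cyclotomic 13 ℤ =
    (X ^ 3 - X - 1) * (-1 - X ^ 2 - X ^ 3 + X ^ 5 - X ^ 7 + X ^ 8 + X ^ 9) +
      3 * (X ^ 5 + X ^ 6 + X ^ 9 + X ^ 10) := by
  have : Fact (Nat.Prime 13) := ⟨by norm_num⟩
  rw [cyclotomic_prime]
  simp only [Finset.sum_range_succ, Finset.sum_range_zero, pow_zero, pow_one, zero_add]
  ring

lemma not_isRoot_mod_three : ∀ x : ZMod 3, ¬ (X ^ 3 - X - 1 : (ZMod 3)[X]).IsRoot x := by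
  intro x
  rw [IsRoot.def]
  simp only [eval_sub, eval_pow, eval_X, eval_one]
  revert x
  decide

lemma exists_isPrincipal_over_3 :
    ∃ P ∈ (Ideal.span {((3 : ℕ) : ℤ)}).primesOver (𝓞 K), Submodule.IsPrincipal P := by
  have hexp := not_dvd_exponent_zeta13 K 3
  have hmap : Polynomial.map (Int.castRingHom (ZMod 3)) (X ^ 3 - X - 1 : ℤ[X]) = X ^ 3 - X - 1 := by
    simp
  have hQ : Polynomial.map (Int.castRingHom (ZMod 3)) (X ^ 3 - X - 1) ∈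
      monicFactorsMod (zeta13 K) 3 := by
    rw [Multiset.mem_toFinset, Polynomial.mem_normalizedFactors_iff
      (map_monic_ne_zero (minpoly.monic (zeta13 K).isIntegral))]
    rw [minpoly_zeta13, hmap]
    refine ⟨?_, ?_, ?_⟩
    · apply Polynomial.irreducible_of_degree_le_three_of_not_isRoot
      · have hdeg : (X ^ 3 - X - 1 : (ZMod 3)[X]).natDegree = 3 := by compute_degree!
        rw [hdeg]
        decide
      · exact not_isRoot_mod_three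
    · monicity!
    · have h3 : (3 : (ZMod 3)[X]) = 0 := CharP.ofNat_eq_zero _ 3
      refine ⟨Polynomial.map (Int.castRingHom (ZMod 3))
        (-1 - X ^ 2 - X ^ 3 + X ^ 5 - X ^ 7 + X ^ 8 + X ^ 9), ?_⟩
      rw [cyclotomic13_eq_int, Polynomial.map_add, Polynomial.map_mul, Polynomial.map_mul, hmap,
        Polynomial.map_ofNat, h3, zero_mul, add_zero]
  refine ⟨((primesOverSpanEquivMonicFactorsMod hexp).symm ⟨_, hQ⟩ : Ideal (𝓞 K)),
    Subtype.coe_prop _, ?_⟩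
  rw [primesOverSpanEquivMonicFactorsMod_symm_apply_eq_span hexp hQ]
  refine ⟨1 + zeta13 K - zeta13 K ^ 3, ?_⟩
  rw [Ideal.submodule_span_eq]
  apply le_antisymm
  · rw [Ideal.span_le]
    intro x hx
    simp only [Set.mem_insert_iff, Set.mem_singleton_iff] at hx
    rcases hx with rfl | rfl
    · exact Ideal.mem_span_singleton.mpr ⟨_, cert3_a (zeta13 K) (zeta13_geom_sum' K)⟩
    · refine Ideal.mem_span_singleton.mpr ⟨-1, ?_⟩
      simp
      ring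
  · rw [Ideal.span_singleton_le_iff_mem]
    have h : (1 + zeta13 K - zeta13 K ^ 3) = (-1) * (aeval (zeta13 K)) (X ^ 3 - X - 1 : ℤ[X]) := by
      simp
      ring
    rw [h]
    exact Ideal.mul_mem_left _ _ (Ideal.subset_span (by simp))

end

lemma orderOf_2_zmod13 : orderOf ((2 : ℕ) : ZMod 13) = 12 := by
  rw [orderOf_eq_iff (by norm_num)]
  decide

lemma orderOf_3_zmod13 : orderOf ((3 : ℕ) : ZMod 13) = 3 := by
  rw [orderOf_eq_iff (by norm_num)]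
  decide

lemma orderOf_4_zmod13 : orderOf ((4 : ℕ) : ZMod 13) = 6 := by
  rw [orderOf_eq_iff (by norm_num)]
  decide

lemma orderOf_5_zmod13 : orderOf ((5 : ℕ) : ZMod 13) = 4 := by
  rw [orderOf_eq_iff (by norm_num)]
  decide

lemma orderOf_6_zmod13 : orderOf ((6 : ℕ) : ZMod 13) = 12 := by
  rw [orderOf_eq_iff (by norm_num)]
  decide

lemma orderOf_7_zmod13 : orderOf ((7 : ℕ) : ZMod 13) = 12 := by
  rw [orderOf_eq_iff (by norm_num)]
  decide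

lemma orderOf_8_zmod13 : orderOf ((8 : ℕ) : ZMod 13) = 4 := by
  rw [orderOf_eq_iff (by norm_num)]
  decide

lemma orderOf_9_zmod13 : orderOf ((9 : ℕ) : ZMod 13) = 3 := by
  rw [orderOf_eq_iff (by norm_num)]
  decide

lemma orderOf_10_zmod13 : orderOf ((10 : ℕ) : ZMod 13) = 6 := by
  rw [orderOf_eq_iff (by norm_num)]
  decide

lemma orderOf_11_zmod13 : orderOf ((11 : ℕ) : ZMod 13) = 12 := by
  rw [orderOf_eq_iff (by norm_num)]
  decide

lemma orderOf_12_zmod13 : orderOf ((12 : ℕ) : ZMod 13) = 2 := by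
  rw [orderOf_eq_iff (by norm_num)]
  decide

lemma lt_pow_orderOf_zmod13 (p : ℕ) (hp : p.Prime) (h13 : p ≠ 13)
    (hs : ¬ (p = 3 ∨ p = 53 ∨ p = 79 ∨ p = 131 ∨ p = 157)) (hp306 : p ≤ 306) :
    306 < p ^ orderOf ((p : ℕ) : ZMod 13) := by
  have hmod : ((p : ℕ) : ZMod 13) = ((p % 13 : ℕ) : ZMod 13) := (ZMod.natCast_mod p 13).symm
  rw [hmod]
  have hlt : p % 13 < 13 := Nat.mod_lt _ (by norm_num)
  have hne : p % 13 ≠ 0 := by
    intro h
    exact h13 ((Nat.prime_dvd_prime_iff_eq (by norm_num) hp).mp (Nat.dvd_of_mod_eq_zero h)).symm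
  have h2 := hp.two_le
  obtain ⟨r, hr⟩ : ∃ r, p % 13 = r := ⟨_, rfl⟩
  rw [hr] at hlt hne ⊢
  interval_cases r
  · exact absurd rfl hne
  · exfalso
    obtain ⟨k, rfl⟩ : ∃ k, p = 13 * k + 1 := ⟨p / 13, by omega⟩
    have hk : k ≤ 23 := by omega
    interval_cases k <;> first | omega | (norm_num at hp)
  · rw [orderOf_2_zmod13]
    have hge : 2 ≤ p := by omega
    calc 306 < 2 ^ 12 := by norm_num
      _ ≤ p ^ 12 := Nat.pow_le_pow_left hge 12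
  · rw [orderOf_3_zmod13]
    have hp3 : p ≠ 3 := fun h => hs (Or.inl h)
    have hge : 7 ≤ p := by omega
    calc 306 < 7 ^ 3 := by norm_num
      _ ≤ p ^ 3 := Nat.pow_le_pow_left hge 3
  · rw [orderOf_4_zmod13]
    have hge : 4 ≤ p := by omega
    calc 306 < 4 ^ 6 := by norm_num
      _ ≤ p ^ 6 := Nat.pow_le_pow_left hge 6
  · rw [orderOf_5_zmod13]
    have hge : 5 ≤ p := by omega
    calc 306 < 5 ^ 4 := by norm_num
      _ ≤ p ^ 4 := Nat.pow_le_pow_left hge 4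
  · rw [orderOf_6_zmod13]
    have hge : 2 ≤ p := by omega
    calc 306 < 2 ^ 12 := by norm_num
      _ ≤ p ^ 12 := Nat.pow_le_pow_left hge 12
  · rw [orderOf_7_zmod13]
    have hge : 2 ≤ p := by omega
    calc 306 < 2 ^ 12 := by norm_num
      _ ≤ p ^ 12 := Nat.pow_le_pow_left hge 12
  · rw [orderOf_8_zmod13]
    have hge : 5 ≤ p := by omega
    calc 306 < 5 ^ 4 := by norm_num
      _ ≤ p ^ 4 := Nat.pow_le_pow_left hge 4
  · rw [orderOf_9_zmod13]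
    have hge : 7 ≤ p := by omega
    calc 306 < 7 ^ 3 := by norm_num
      _ ≤ p ^ 3 := Nat.pow_le_pow_left hge 3
  · rw [orderOf_10_zmod13]
    have hge : 4 ≤ p := by omega
    calc 306 < 4 ^ 6 := by norm_num
      _ ≤ p ^ 6 := Nat.pow_le_pow_left hge 6
  · rw [orderOf_11_zmod13]
    have hge : 2 ≤ p := by omega
    calc 306 < 2 ^ 12 := by norm_num
      _ ≤ p ^ 12 := Nat.pow_le_pow_left hge 12
  · rw [orderOf_12_zmod13]
    have hp12 : p ≠ 12 := by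
      rintro rfl
      norm_num at hp
    have hge : 18 ≤ p := by omega
    calc 306 < 18 ^ 2 := by norm_num
      _ ≤ p ^ 2 := Nat.pow_le_pow_left hge 2

theorem thirteen_pid (K : Type) [Field K] [NumberField K] [IsCyclotomicExtension {13} ℚ K] :
    IsPrincipalIdealRing (𝓞 K) := by
  have hp13 : Fact (Nat.Prime 13) := ⟨by norm_num⟩
  have hgal : IsGalois ℚ K := IsCyclotomicExtension.isGalois {13} ℚ K
  apply RingOfIntegers.isPrincipalIdealRing_of_isPrincipal_of_lt_or_isPrincipal_of_mem_primesOver_of_mem_Icc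
  have hM : ⌊(4 / Real.pi) ^ InfinitePlace.nrComplexPlaces K *
      (((Module.finrank ℚ K).factorial : ℝ) / (Module.finrank ℚ K : ℝ) ^ Module.finrank ℚ K *
        √|(NumberField.discr K : ℝ)|)⌋₊ ≤ 306 := by
    rw [Rat.discr_prime 13 K, IsCyclotomicExtension.finrank (n := 13) K
      (cyclotomic.irreducible_rat (by norm_num)), Rat.nrComplexPlaces_eq_totient_div_two 13,
      Nat.totient_prime (by norm_num)]
    have h1 : (4 / Real.pi) ^ 6 ≤ (4 / 3.1415 : ℝ) ^ 6 := by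
      have := Real.pi_gt_d4
      gcongr
    have h2 : √(1792160394037 : ℝ) ≤ 1338716 := by
      rw [Real.sqrt_le_left (by norm_num)]
      norm_num
    have h3 : (0:ℝ) ≤ √(1792160394037 : ℝ) := Real.sqrt_nonneg _
    have hpi : (0:ℝ) < 4 / Real.pi := by positivity
    apply Nat.lt_succ_iff.mp
    rw [Nat.floor_lt (by positivity)]
    norm_num [Nat.factorial]
    calc (4 / Real.pi) ^ 6 * (1925 / 35831808 * √1792160394037)
        ≤ (4 / 3.1415 : ℝ) ^ 6 * (1925 / 35831808 * 1338716) := by gcongr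
      _ < 307 := by norm_num
  intro p hp hprime
  have hp306 : p ≤ 306 := (Finset.mem_Icc.mp hp).2.trans hM
  have : Fact p.Prime := ⟨hprime⟩
  by_cases h13 : p = 13
  · subst h13
    obtain ⟨⟨P, hP1, hP2⟩⟩ := Ideal.nonempty_primesOver (S := 𝓞 K) (span {((13 : ℕ) : ℤ)})
    refine ⟨P, ⟨hP1, hP2⟩, Or.inr ?_⟩
    rw [Rat.eq_span_zeta_sub_one_of_liesOver' 13 K (zeta_spec 13 ℚ K) P]
    exact ⟨⟨_, rfl⟩⟩
  by_cases hs : p = 3 ∨ p = 53 ∨ p = 79 ∨ p = 131 ∨ p = 157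
  · rcases hs with rfl | rfl | rfl | rfl | rfl
    · obtain ⟨P, hP, hpr⟩ := exists_isPrincipal_over_3 K
      exact ⟨P, hP, Or.inr hpr⟩
    · obtain ⟨P, hP, hpr⟩ := exists_isPrincipal_over_53 K
      exact ⟨P, hP, Or.inr hpr⟩
    · obtain ⟨P, hP, hpr⟩ := exists_isPrincipal_over_79 K
      exact ⟨P, hP, Or.inr hpr⟩
    · obtain ⟨P, hP, hpr⟩ := exists_isPrincipal_over_131 K
      exact ⟨P, hP, Or.inr hpr⟩
    · obtain ⟨P, hP, hpr⟩ := exists_isPrincipal_over_157 K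
      exact ⟨P, hP, Or.inr hpr⟩
  · obtain ⟨⟨P, hP1, hP2⟩⟩ := Ideal.nonempty_primesOver (S := 𝓞 K) (span {(p : ℤ)})
    refine ⟨P, ⟨hP1, hP2⟩, Or.inl ?_⟩
    refine lt_of_le_of_lt hM ?_
    rw [Rat.inertiaDeg_eq_of_not_dvd (m := 13) p K P
      ((Nat.prime_dvd_prime_iff_eq hprime (by norm_num)).not.mpr h13)]
    exact lt_pow_orderOf_zmod13 p hprime h13 hs hp306

end Fermat.Agent.FLTReg
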