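import Mathlib

namespace Fermat.Agent.FLTReg

open NumberField Polynomial Ideal IsCyclotomicExtension

lemma orderOf_two_zmod_seven : orderOf ((2 : ℕ) : ZMod 7) = 3 := by
  rw [orderOf_eq_iff (by norm_num)]
  decide

lemma orderOf_three_zmod_seven : orderOf ((3 : ℕ) : ZMod 7) = 6 := by
  rw [orderOf_eq_iff (by norm_num)]
  decide

theorem seven_pid (K : Type) [Field K] [NumberField K] [IsCyclotomicExtension {7} ℚ K] :
    IsPrincipalIdealRing (𝓞 K) := by
  have hp7 : Fact (Nat.Prime 7) := ⟨by norm_num⟩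
  have hgal : IsGalois ℚ K := IsCyclotomicExtension.isGalois {7} ℚ K
  apply RingOfIntegers.isPrincipalIdealRing_of_isPrincipal_of_lt_or_isPrincipal_of_mem_primesOver_of_mem_Icc
  have hM : ⌊(4 / Real.pi) ^ InfinitePlace.nrComplexPlaces K *
      (((Module.finrank ℚ K).factorial : ℝ) / (Module.finrank ℚ K : ℝ) ^ Module.finrank ℚ K *
        √|(NumberField.discr K : ℝ)|)⌋₊ ≤ 4 := by
    rw [Rat.discr_prime 7 K, IsCyclotomicExtension.finrank (n := 7) K
      (cyclotomic.irreducible_rat (by norm_num)), Rat.nrComplexPlaces_eq_totient_div_two 7,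
      Nat.totient_prime (by norm_num)]
    have h1 : (4 / Real.pi) ^ 3 ≤ (4 / 3 : ℝ) ^ 3 := by
      have := Real.pi_gt_three
      gcongr
    have h2 : √(16807 : ℝ) ≤ 130 := by
      rw [Real.sqrt_le_left (by norm_num)]
      norm_num
    have h3 : (0:ℝ) ≤ √(16807 : ℝ) := Real.sqrt_nonneg _
    have hpi : (0:ℝ) < 4 / Real.pi := by positivity
    apply Nat.lt_succ_iff.mp
    rw [Nat.floor_lt (by positivity)]
    norm_num [Nat.factorial]
    calc (4 / Real.pi) ^ 3 * (5 / 324 * √16807) ≤ (4 / 3 : ℝ) ^ 3 * (5 / 324 * 130) := by gcongr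
      _ < 5 := by norm_num
  intro p hp hprime
  have hp4 : p ≤ 4 := (Finset.mem_Icc.mp hp).2.trans hM
  have : Fact p.Prime := ⟨hprime⟩
  obtain ⟨⟨P, hP1, hP2⟩⟩ := Ideal.nonempty_primesOver (S := 𝓞 K) (span {(p : ℤ)})
  refine ⟨P, ⟨hP1, hP2⟩, Or.inl ?_⟩
  refine lt_of_le_of_lt hM ?_
  have hp23 : p = 2 ∨ p = 3 := by
    interval_cases p <;> simp_all (config := {decide := true})
  rcases hp23 with rfl | rfl
  · rw [Rat.inertiaDeg_eq_of_not_dvd (m := 7) 2 K P (by norm_num), orderOf_two_zmod_seven]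
    norm_num
  · rw [Rat.inertiaDeg_eq_of_not_dvd (m := 7) 3 K P (by norm_num), orderOf_three_zmod_seven]
    norm_num

end Fermat.Agent.FLTReg
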