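import Mathlib

/-!
# Sophie Germain's theorem (first case of Fermat's Last Theorem)

Generic statement for an odd prime `p` and an auxiliary prime `q` such that
(i) `x^p + y^p + z^p = 0` in `ZMod q` forces one of `x, y, z` to vanish and
(ii) `p` is not a `p`-th power in `ZMod q`;
plus the instances `(p, q) = (5, 11), (7, 29), (11, 23), (13, 53)`.
-/

namespace Fermat.Agent.FLTReg

open Finset

/-- The cofactor `(x ^ p + y ^ p) / (x + y)` (for odd `p`). -/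
def sgPhi (p : ℕ) (x y : ℤ) : ℤ := ∑ i ∈ range p, x ^ i * (-y) ^ (p - 1 - i)

theorem sgPhi_mul {p : ℕ} (hp : Odd p) (x y : ℤ) : (x + y) * sgPhi p x y = x ^ p + y ^ p := by
  have h := geom_sum₂_mul x (-y) p
  rw [Odd.neg_pow hp y, sub_neg_eq_add, sub_neg_eq_add] at h
  rw [mul_comm]
  exact h

theorem sgPhi_cast_of_add_eq_zero {R : Type*} [CommRing R] (p : ℕ) (x y : ℤ)
    (h : (x : R) + (y : R) = 0) :
    ((sgPhi p x y : ℤ) : R) = (p : R) * (x : R) ^ (p - 1) := by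
  have hy : -(y : R) = (x : R) := by linear_combination -h
  simp only [sgPhi, Int.cast_sum, Int.cast_mul, Int.cast_pow, Int.cast_neg]
  rw [hy]
  have : ∀ i ∈ range p, (x : R) ^ i * (x : R) ^ (p - 1 - i) = (x : R) ^ (p - 1) := by
    intro i hi
    rw [← pow_add]
    congr 1
    have := mem_range.1 hi
    omega
  rw [sum_congr rfl this]
  simp

theorem sgPhi_cast_of_eq_zero {R : Type*} [CommRing R] {p : ℕ} (hp : Odd p) (x y : ℤ)
    (h : (x : R) = 0) :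
    ((sgPhi p x y : ℤ) : R) = (y : R) ^ (p - 1) := by
  have hpos : 0 < p := hp.pos
  simp only [sgPhi, Int.cast_sum, Int.cast_mul, Int.cast_pow, Int.cast_neg]
  rw [h]
  rw [sum_eq_single 0]
  · have he : Even (p - 1) := by
      obtain ⟨k, hk⟩ := hp
      exact ⟨k, by omega⟩
    simp [he.neg_pow]
  · intro i _ hi
    simp [hi]
  · intro h0
    exact absurd (mem_range.2 hpos) h0

theorem isCoprime_add_sgPhi {p : ℕ} (hp : p.Prime) {y z w : ℤ}
    (hyz : IsCoprime y z) (hw : (y + z) * sgPhi p y z = w ^ p) (hpw : ¬ (p : ℤ) ∣ w) :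
    IsCoprime (y + z) (sgPhi p y z) := by
  rw [Int.isCoprime_iff_gcd_eq_one]
  by_contra hg
  obtain ⟨r, hr, hrg⟩ := Nat.exists_prime_and_dvd hg
  have hr1 : (r : ℤ) ∣ y + z := (Int.natCast_dvd_natCast.2 hrg).trans (Int.gcd_dvd_left _ _)
  have hr2 : (r : ℤ) ∣ sgPhi p y z := (Int.natCast_dvd_natCast.2 hrg).trans (Int.gcd_dvd_right _ _)
  have : Fact r.Prime := ⟨hr⟩
  have e1 : ((y : ℤ) : ZMod r) + ((z : ℤ) : ZMod r) = 0 := by
    rw [← Int.cast_add]
    exact (ZMod.intCast_zmod_eq_zero_iff_dvd _ r).2 hr1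
  have e2 : ((sgPhi p y z : ℤ) : ZMod r) = 0 := (ZMod.intCast_zmod_eq_zero_iff_dvd _ r).2 hr2
  rw [sgPhi_cast_of_add_eq_zero p y z e1] at e2
  rcases mul_eq_zero.1 e2 with h | h
  · -- r ∣ p, hence r = p and p ∣ w
    have hrp : r ∣ p := (ZMod.natCast_eq_zero_iff p r).1 h
    have hrp' : r = p := (Nat.prime_dvd_prime_iff_eq hr hp).1 hrp
    subst hrp'
    have : (r : ℤ) ∣ w ^ r := hw ▸ Dvd.dvd.mul_right hr1 _
    exact hpw ((Nat.prime_iff_prime_int.1 hr).dvd_of_dvd_pow this)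
  · have hy0 : ((y : ℤ) : ZMod r) = 0 := eq_zero_of_pow_eq_zero h
    have hry : (r : ℤ) ∣ y := (ZMod.intCast_zmod_eq_zero_iff_dvd _ r).1 hy0
    have hrz : (r : ℤ) ∣ z := by
      have := dvd_sub hr1 hry
      simpa using this
    have hu : IsUnit (r : ℤ) := hyz.isUnit_of_dvd' hry hrz
    have : (r : ℤ) = 1 ∨ (r : ℤ) = -1 := Int.isUnit_iff.1 hu
    have hr2 := hr.two_le
    omega

/-- Core of Sophie Germain's argument, with the auxiliary prime dividing `x`. -/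
theorem sg_core {p q : ℕ} (hp : p.Prime) (hp2 : p ≠ 2) (hq : q.Prime)
    (h1 : ∀ x y z : ZMod q, x ^ p + y ^ p + z ^ p = 0 → x = 0 ∨ y = 0 ∨ z = 0)
    (h2 : ∀ t : ZMod q, t ^ p ≠ (p : ZMod q))
    {x y z : ℤ} (hxy : IsCoprime x y) (hyz : IsCoprime y z) (hzx : IsCoprime z x)
    (h : x ^ p + y ^ p + z ^ p = 0)
    (hpx : ¬ (p : ℤ) ∣ x) (hpy : ¬ (p : ℤ) ∣ y) (hpz : ¬ (p : ℤ) ∣ z)
    (hqx : (q : ℤ) ∣ x) : False := by
  have : Fact q.Prime := ⟨hq⟩
  have hodd : Odd p := hp.odd_of_ne_two hp2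
  have hpos : 0 < p := hp.pos
  have hpz' : ¬ (p : ℤ) ∣ -z := by rwa [dvd_neg]
  have hpx' : ¬ (p : ℤ) ∣ -x := by rwa [dvd_neg]
  have hpy' : ¬ (p : ℤ) ∣ -y := by rwa [dvd_neg]
  -- the three factorizations
  have eA : (y + z) * sgPhi p y z = (-x) ^ p := by
    rw [sgPhi_mul hodd, hodd.neg_pow]; linear_combination h
  have eB : (z + x) * sgPhi p z x = (-y) ^ p := by
    rw [sgPhi_mul hodd, hodd.neg_pow]; linear_combination h
  have eC : (x + y) * sgPhi p x y = (-z) ^ p := by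
    rw [sgPhi_mul hodd, hodd.neg_pow]; linear_combination h
  have cA := isCoprime_add_sgPhi hp hyz eA hpx'
  have cB := isCoprime_add_sgPhi hp hzx eB hpy'
  have cC := isCoprime_add_sgPhi hp hxy eC hpz'
  obtain ⟨⟨A, hA⟩, ⟨α, hα⟩⟩ := Int.eq_pow_of_mul_eq_pow_odd cA hodd eA
  obtain ⟨⟨B, hB⟩, -⟩ := Int.eq_pow_of_mul_eq_pow_odd cB hodd eB
  obtain ⟨⟨C, hC⟩, ⟨γ, hγ⟩⟩ := Int.eq_pow_of_mul_eq_pow_odd cC hodd eC
  have hx0 : ((x : ℤ) : ZMod q) = 0 := (ZMod.intCast_zmod_eq_zero_iff_dvd _ q).2 hqx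
  -- y is a unit mod q, z is a unit mod q
  have hy0 : ((y : ℤ) : ZMod q) ≠ 0 := by
    intro hy0
    have hqy : (q : ℤ) ∣ y := (ZMod.intCast_zmod_eq_zero_iff_dvd _ q).1 hy0
    have hu : IsUnit (q : ℤ) := hxy.isUnit_of_dvd' hqx hqy
    have : (q : ℤ) = 1 ∨ (q : ℤ) = -1 := Int.isUnit_iff.1 hu
    have := hq.two_le
    omega
  have hz0 : ((z : ℤ) : ZMod q) ≠ 0 := by
    intro hz0
    have hqz : (q : ℤ) ∣ z := (ZMod.intCast_zmod_eq_zero_iff_dvd _ q).1 hz0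
    have hu : IsUnit (q : ℤ) := hzx.isUnit_of_dvd' hqz hqx
    have : (q : ℤ) = 1 ∨ (q : ℤ) = -1 := Int.isUnit_iff.1 hu
    have := hq.two_le
    omega
  -- C^p + B^p + (-A)^p = 2 x ≡ 0 mod q
  have hsum : ((C : ℤ) : ZMod q) ^ p + ((B : ℤ) : ZMod q) ^ p + ((-A : ℤ) : ZMod q) ^ p = 0 := by
    have hint : C ^ p + B ^ p + (-A) ^ p = 2 * x := by
      rw [hodd.neg_pow, ← hA, ← hB, ← hC]; ring
    have := congrArg (Int.cast : ℤ → ZMod q) hint
    push_cast at this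
    rw [hx0, mul_zero] at this
    push_cast
    exact this
  have hA0 : ((y : ℤ) : ZMod q) + ((z : ℤ) : ZMod q) = 0 := by
    rcases h1 _ _ _ hsum with hC0 | hB0 | hA0
    · exfalso
      have : ((x + y : ℤ) : ZMod q) = 0 := by rw [hC]; push_cast; rw [hC0, zero_pow hpos.ne']
      push_cast at this
      rw [hx0, zero_add] at this
      exact hy0 this
    · exfalso
      have : ((z + x : ℤ) : ZMod q) = 0 := by rw [hB]; push_cast; rw [hB0, zero_pow hpos.ne']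
      push_cast at this
      rw [hx0, add_zero] at this
      exact hz0 this
    · have hA0' : ((A : ℤ) : ZMod q) = 0 := by
        have : ((-A : ℤ) : ZMod q) = -((A : ℤ) : ZMod q) := by push_cast; rfl
        rw [this, neg_eq_zero] at hA0
        exact hA0
      have : ((y + z : ℤ) : ZMod q) = 0 := by rw [hA]; push_cast; rw [hA0', zero_pow hpos.ne']
      push_cast at this
      exact this
  -- α^p ≡ p y^(p-1), γ^p ≡ y^(p-1)
  have hα' : ((α : ℤ) : ZMod q) ^ p = (p : ZMod q) * ((y : ℤ) : ZMod q) ^ (p - 1) := by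
    rw [← sgPhi_cast_of_add_eq_zero p y z hA0, hα]; push_cast; rfl
  have hγ' : ((γ : ℤ) : ZMod q) ^ p = ((y : ℤ) : ZMod q) ^ (p - 1) := by
    rw [← sgPhi_cast_of_eq_zero hodd x y hx0, hγ]; push_cast; rfl
  have hγ0 : ((γ : ℤ) : ZMod q) ^ p ≠ 0 := by
    rw [hγ']; exact pow_ne_zero _ hy0
  apply h2 (((α : ℤ) : ZMod q) * (((γ : ℤ) : ZMod q))⁻¹)
  rw [mul_pow, inv_pow, hα', ← hγ', mul_assoc, mul_inv_cancel₀ hγ0, mul_one]

/-- **Sophie Germain's theorem** (generalised form): the first case of Fermat's Last Theorem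
for an odd prime exponent `p` admitting an auxiliary prime `q`. -/
theorem caseI_of_sophieGermain {p q : ℕ} (hp : p.Prime) (hp2 : p ≠ 2) (hq : q.Prime)
    (h1 : ∀ x y z : ZMod q, x ^ p + y ^ p + z ^ p = 0 → x = 0 ∨ y = 0 ∨ z = 0)
    (h2 : ∀ t : ZMod q, t ^ p ≠ (p : ZMod q))
    {a b c : ℤ} (hab : IsCoprime a b) (h : a ^ p + b ^ p = c ^ p) : (p : ℤ) ∣ a * b * c := by
  have : Fact q.Prime := ⟨hq⟩
  have hodd : Odd p := hp.odd_of_ne_two hp2
  have hpos : 0 < p := hp.pos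
  have hpP : Prime (p : ℤ) := Nat.prime_iff_prime_int.1 hp
  by_contra hcon
  have hpa : ¬ (p : ℤ) ∣ a := fun hd => hcon ((hd.mul_right b).mul_right c)
  have hpb : ¬ (p : ℤ) ∣ b := fun hd => hcon ((hd.mul_left a).mul_right c)
  have hpc : ¬ (p : ℤ) ∣ c := fun hd => hcon (hd.mul_left (a * b))
  have hpc' : ¬ (p : ℤ) ∣ -c := by rwa [dvd_neg]
  -- pairwise coprimality
  have hbc : IsCoprime b c := by
    have h' : IsCoprime b (a ^ p + b * b ^ (p - 1)) :=
      (IsCoprime.pow_right hab.symm).add_mul_left_right _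
    have hb : b * b ^ (p - 1) = b ^ p := by
      rw [← pow_succ']; congr 1; omega
    rw [hb, h] at h'
    exact (IsCoprime.pow_right_iff hpos).1 h'
  have hca : IsCoprime c a := by
    have h' : IsCoprime a (b ^ p + a * a ^ (p - 1)) :=
      (IsCoprime.pow_right hab).add_mul_left_right _
    have ha : a * a ^ (p - 1) = a ^ p := by
      rw [← pow_succ']; congr 1; omega
    rw [ha, add_comm, h] at h'
    exact ((IsCoprime.pow_right_iff hpos).1 h').symm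
  have hbc' : IsCoprime b (-c) := hbc.neg_right
  have hca' : IsCoprime (-c) a := hca.neg_left
  have heq : a ^ p + b ^ p + (-c) ^ p = 0 := by
    rw [hodd.neg_pow]; linear_combination h
  have hmod : ((a : ℤ) : ZMod q) ^ p + ((b : ℤ) : ZMod q) ^ p + (((-c : ℤ)) : ZMod q) ^ p = 0 := by
    have := congrArg (Int.cast : ℤ → ZMod q) heq
    push_cast at this
    push_cast
    exact this
  rcases h1 _ _ _ hmod with h0 | h0 | h0
  · exact sg_core hp hp2 hq h1 h2 hab hbc' hca' heq hpa hpb hpc'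
      ((ZMod.intCast_zmod_eq_zero_iff_dvd _ q).1 h0)
  · exact sg_core hp hp2 hq h1 h2 hbc' hca' hab (by linear_combination heq) hpb hpc' hpa
      ((ZMod.intCast_zmod_eq_zero_iff_dvd _ q).1 h0)
  · exact sg_core hp hp2 hq h1 h2 hca' hab hbc' (by linear_combination heq) hpc' hpa hpb
      ((ZMod.intCast_zmod_eq_zero_iff_dvd _ q).1 h0)

/-- Variant with the conclusion as a disjunction. -/
theorem caseI_of_sophieGermain' {p q : ℕ} (hp : p.Prime) (hp2 : p ≠ 2) (hq : q.Prime)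
    (h1 : ∀ x y z : ZMod q, x ^ p + y ^ p + z ^ p = 0 → x = 0 ∨ y = 0 ∨ z = 0)
    (h2 : ∀ t : ZMod q, t ^ p ≠ (p : ZMod q))
    {a b c : ℤ} (hab : IsCoprime a b) (h : a ^ p + b ^ p = c ^ p) :
    (p : ℤ) ∣ a ∨ (p : ℤ) ∣ b ∨ (p : ℤ) ∣ c := by
  have hpP : Prime (p : ℤ) := Nat.prime_iff_prime_int.1 hp
  have := caseI_of_sophieGermain hp hp2 hq h1 h2 hab h
  rcases hpP.dvd_or_dvd this with h' | h'
  · rcases hpP.dvd_or_dvd h' with h'' | h''
    · exact Or.inl h''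
    · exact Or.inr (Or.inl h'')
  · exact Or.inr (Or.inr h')

/-! ### Instances -/

private theorem sg_h1_of_values {q p : ℕ} [Fact q.Prime] (S : Finset (ZMod q))
    (hS : ∀ t : ZMod q, t ^ p ∈ S)
    (hsum : ∀ u ∈ S, ∀ v ∈ S, ∀ w ∈ S, u + v + w = 0 → u = 0 ∨ v = 0 ∨ w = 0)
    (x y z : ZMod q) (h : x ^ p + y ^ p + z ^ p = 0) : x = 0 ∨ y = 0 ∨ z = 0 := by
  rcases hsum _ (hS x) _ (hS y) _ (hS z) h with h' | h' | h'
  · exact Or.inl (eq_zero_of_pow_eq_zero h')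
  · exact Or.inr (Or.inl (eq_zero_of_pow_eq_zero h'))
  · exact Or.inr (Or.inr (eq_zero_of_pow_eq_zero h'))

private theorem sg5_pow : ∀ t : ZMod 11, t ^ 5 ∈ ({0, 1, -1} : Finset (ZMod 11)) := by decide
private theorem sg5_sum : ∀ u ∈ ({0, 1, -1} : Finset (ZMod 11)), ∀ v ∈ ({0, 1, -1} : Finset (ZMod 11)),
    ∀ w ∈ ({0, 1, -1} : Finset (ZMod 11)), u + v + w = 0 → u = 0 ∨ v = 0 ∨ w = 0 := by decide
private theorem sg5_ne : ∀ t : ZMod 11, t ^ 5 ≠ ((5 : ℕ) : ZMod 11) := by decide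

private theorem sg7_pow : ∀ t : ZMod 29, t ^ 7 ∈ ({0, 1, -1, 12, -12} : Finset (ZMod 29)) := by
  decide
private theorem sg7_sum : ∀ u ∈ ({0, 1, -1, 12, -12} : Finset (ZMod 29)),
    ∀ v ∈ ({0, 1, -1, 12, -12} : Finset (ZMod 29)),
    ∀ w ∈ ({0, 1, -1, 12, -12} : Finset (ZMod 29)), u + v + w = 0 → u = 0 ∨ v = 0 ∨ w = 0 := by
  decide
private theorem sg7_ne : ∀ t : ZMod 29, t ^ 7 ≠ ((7 : ℕ) : ZMod 29) := by decide

private theorem sg11_pow : ∀ t : ZMod 23, t ^ 11 ∈ ({0, 1, -1} : Finset (ZMod 23)) := by decide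
private theorem sg11_sum : ∀ u ∈ ({0, 1, -1} : Finset (ZMod 23)),
    ∀ v ∈ ({0, 1, -1} : Finset (ZMod 23)),
    ∀ w ∈ ({0, 1, -1} : Finset (ZMod 23)), u + v + w = 0 → u = 0 ∨ v = 0 ∨ w = 0 := by decide
private theorem sg11_ne : ∀ t : ZMod 23, t ^ 11 ≠ ((11 : ℕ) : ZMod 23) := by decide

private theorem sg13_pow : ∀ t : ZMod 53, t ^ 13 ∈ ({0, 1, -1, 23, -23} : Finset (ZMod 53)) := by
  decide +kernel
private theorem sg13_sum : ∀ u ∈ ({0, 1, -1, 23, -23} : Finset (ZMod 53)),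
    ∀ v ∈ ({0, 1, -1, 23, -23} : Finset (ZMod 53)),
    ∀ w ∈ ({0, 1, -1, 23, -23} : Finset (ZMod 53)), u + v + w = 0 → u = 0 ∨ v = 0 ∨ w = 0 := by
  decide +kernel
private theorem sg13_ne : ∀ t : ZMod 53, t ^ 13 ≠ ((13 : ℕ) : ZMod 53) := by decide

/-- First case of FLT for exponent `5` (auxiliary prime `11`). -/
theorem caseI_five {a b c : ℤ} (hab : IsCoprime a b) (h : a ^ 5 + b ^ 5 = c ^ 5) :
    (5 : ℤ) ∣ a * b * c := by
  have : Fact (Nat.Prime 11) := ⟨by norm_num⟩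
  exact caseI_of_sophieGermain (p := 5) (q := 11) (by norm_num) (by norm_num) (by norm_num)
    (sg_h1_of_values _ sg5_pow sg5_sum) sg5_ne hab h

/-- First case of FLT for exponent `7` (auxiliary prime `29`). -/
theorem caseI_seven {a b c : ℤ} (hab : IsCoprime a b) (h : a ^ 7 + b ^ 7 = c ^ 7) :
    (7 : ℤ) ∣ a * b * c := by
  have : Fact (Nat.Prime 29) := ⟨by norm_num⟩
  exact caseI_of_sophieGermain (p := 7) (q := 29) (by norm_num) (by norm_num) (by norm_num)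
    (sg_h1_of_values _ sg7_pow sg7_sum) sg7_ne hab h

/-- First case of FLT for exponent `11` (auxiliary prime `23`). -/
theorem caseI_eleven {a b c : ℤ} (hab : IsCoprime a b) (h : a ^ 11 + b ^ 11 = c ^ 11) :
    (11 : ℤ) ∣ a * b * c := by
  have : Fact (Nat.Prime 23) := ⟨by norm_num⟩
  exact caseI_of_sophieGermain (p := 11) (q := 23) (by norm_num) (by norm_num) (by norm_num)
    (sg_h1_of_values _ sg11_pow sg11_sum) sg11_ne hab h

/-- First case of FLT for exponent `13` (auxiliary prime `53`). -/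
theorem caseI_thirteen {a b c : ℤ} (hab : IsCoprime a b) (h : a ^ 13 + b ^ 13 = c ^ 13) :
    (13 : ℤ) ∣ a * b * c := by
  have : Fact (Nat.Prime 53) := ⟨by norm_num⟩
  exact caseI_of_sophieGermain (p := 13) (q := 53) (by norm_num) (by norm_num) (by norm_num)
    (sg_h1_of_values _ sg13_pow sg13_sum) sg13_ne hab h

end Fermat.Agent.FLTReg
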